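/-
S28 (Igusa: the reduction mod `ℓ ∤ N` of `X₀(N)` is geometrically integral): common definitions.
-/
import Fermat.Agent.S24.UnifDeg
import Fermat.Statements.S28

set_option autoImplicit false

open ModularCurve ModularCurve.IgusaScheme Fermat.Agent.S24 Polynomial
open scoped MatrixGroups

noncomputable section

namespace Fermat.Agent.S28

/-- `ℤ_(ℓ)` -/
abbrev Zl (ℓ : ℕ) := ↥(GaloisRep.ratLocalizedAt ℓ)

/-- the function field of `X₀(N)` over `ℚ`, inside `ℚ((q))` -/
abbrev FQ (N : ℕ) := ↥(modularFunctionFieldFull N)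

section Field

variable (N : ℕ) [NeZero N]

/-- `F_ℚ → F_ℚ̄` -/
def toFF : FQ N →+* FF N where
  toFun x := ⟨coeffEmb Kb x.1, coeffEmb_mem_laurentBaseChange Kb x.2⟩
  map_one' := Subtype.ext (map_one _)
  map_mul' x y := Subtype.ext (map_mul _ _ _)
  map_zero' := Subtype.ext (map_zero _)
  map_add' x y := Subtype.ext (map_add _ _ _)

/-- the generators `j(q^d)` of `F_ℚ` -/
def genQ (d : Dv N) : FQ N := ⟨qExpand ℚ d.1 jq, jqd_mem_full N d.2⟩

theorem toFF_genQ (d : Dv N) : toFF N (genQ N d) = genF N d := rfl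

/-- the conjugate embeddings `F_ℚ → ℂ((s))`, `q = s^N` -/
def Th (γ : Q N) : FQ N →+* LaurentSeries ℂ := ((cuspChart N).ΘQ γ).comp (toFF N)

/-- the base point -/
abbrev q0 : Q N := QuotientGroup.mk 1

end Field

section Series

variable {O : Type*} [CommRing O]

/-- `c` is a polynomial in `j(s^N)` with coefficients in `O` -/
def IsPol (N : ℕ) [NeZero N] (c : LaurentSeries O) : Prop :=
  ∃ a : O[X], c = aeval (jqNModC O N) a

/-- `c` is a rational function of `j(s^N)` with coefficients in `O` -/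
def IsRat (N : ℕ) [NeZero N] (c : LaurentSeries O) : Prop :=
  ∃ a b : O[X], b ≠ 0 ∧ c * aeval (jqNModC O N) b = aeval (jqNModC O N) a

/-- underlying function of `rotU` -/
def rotUFun (η : Oˣ) (u : LaurentSeries O) : LaurentSeries O where
  coeff k := ((η ^ k : Oˣ) : O) * u.coeff k
  isPWO_support' := u.isPWO_support.mono (by
    intro k hk
    simp only [Function.mem_support, ne_eq] at hk ⊢
    intro h
    exact hk (by rw [h, mul_zero]))

theorem rotUFun_coeff (η : Oˣ) (u : LaurentSeries O) (k : ℤ) :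
    (rotUFun η u).coeff k = ((η ^ k : Oˣ) : O) * u.coeff k := rfl

theorem rotUFun_support (η : Oˣ) (u : LaurentSeries O) : (rotUFun η u).support = u.support := by
  ext k
  simp only [HahnSeries.mem_support, rotUFun_coeff, ne_eq, Units.mul_right_eq_zero]

/-- `∑ a_k s^k ↦ ∑ a_k η^k s^k` -/
def rotU (η : Oˣ) : LaurentSeries O →+* LaurentSeries O where
  toFun := rotUFun η
  map_one' := by
    ext k
    rw [rotUFun_coeff, HahnSeries.coeff_one]
    split_ifs with h
    · subst h; simp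
    · simp
  map_zero' := by
    ext k
    simp [rotUFun_coeff]
  map_add' u v := by
    ext k
    simp [rotUFun_coeff, mul_add]
  map_mul' u v := by
    ext k
    rw [rotUFun_coeff, HahnSeries.coeff_mul, HahnSeries.coeff_mul, Finset.mul_sum]
    refine Finset.sum_congr ?_ ?_
    · ext ij
      simp only [Finset.mem_addAntidiagonal, rotUFun_support]
    · intro ij hij
      rw [Finset.mem_addAntidiagonal] at hij
      rw [rotUFun_coeff, rotUFun_coeff, ← hij.2.2, zpow_add, Units.val_mul]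
      ring

theorem rotU_coeff (η : Oˣ) (u : LaurentSeries O) (k : ℤ) :
    (rotU η u).coeff k = ((η ^ k : Oˣ) : O) * u.coeff k := rfl

end Series

/-- upper triangular data `(a, B; 0, D)` with `D ∣ N` -/
structure Tri (N : ℕ) where
  a : ℕ
  B : ℤ
  D : ℕ
  a_pos : 0 < a
  D_pos : 0 < D
  D_dvd : D ∣ N

namespace Tri

variable {N : ℕ} [NeZero N] (t : Tri N)

/-- `q((aτ+B)/D) = ζ_N^{B N/D} s^{aN/D}` : the exponent of `s` -/
def m : ℕ := N / t.D * t.a

instance : NeZero t.m :=
  ⟨(Nat.mul_pos (Nat.div_pos (Nat.le_of_dvd (Nat.pos_of_ne_zero (NeZero.ne N)) t.D_dvd) t.D_pos)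
    t.a_pos).ne'⟩

/-- `τ ↦ (aτ+B)/D` -/
def aff (τ : UpperHalfPlane) : UpperHalfPlane :=
  jfacts_aff t.a t.B t.D (by exact_mod_cast t.a_pos) (by exact_mod_cast t.D_pos) τ

/-- the substitution `q ↦ ζ^{B N/D} s^{aN/D}` on integral Laurent series -/
def sub {O : Type*} [CommRing O] (ζ : Oˣ) : LaurentSeries ℤ →+* LaurentSeries O :=
  (qExpand O t.m).comp ((rotU (ζ ^ (t.B * ((N / t.D : ℕ) : ℤ)))).comp
    (coeffMap (Int.castRingHom O)))

end Tri

/-- `exp(2πi/N)` as a unit -/
def zetaU (N : ℕ) [NeZero N] : ℂˣ := Units.mk0 (zetaN N) (zetaN_ne_zero N)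

/-- the formal `Δ` -/
def DlZ : LaurentSeries ℤ :=
  HahnSeries.single (1 : ℤ) 1 * HahnSeries.ofPowerSeries ℤ ℤ dedekindEtaUnit

/-- the formal `Δ⁻¹` -/
def DlInvZ : LaurentSeries ℤ :=
  HahnSeries.single (-1 : ℤ) 1 * HahnSeries.ofPowerSeries ℤ ℤ dedekindEtaUnitInv

theorem DlZ_mul_DlInvZ : DlZ * DlInvZ = 1 := by
  rw [DlZ, DlInvZ, mul_mul_mul_comm, HahnSeries.single_mul_single, ← map_mul,
    dedekindEtaUnit_mul_inv, map_one, mul_one, mul_one]
  rfl

end Fermat.Agent.S28
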