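/-
S28, module **Coeff**: the coefficient ring: a discrete valuation ring `O ⊆ ℚ(ζ_N) ⊆ ℂ` above `ℓ`.
Recipe: `L := ℚ⟮zetaN N⟯ ⊆ ℂ` (a number field), `P` a maximal ideal of `𝓞 L` containing `ℓ`
(`ℓ` is not a unit of `𝓞 L`), `O := Localization.AtPrime P` (or the valuation subring of
`P.valuation L`, cf. `Fermat/Agent/S24/FFPlace.lean`, `placeOfPrime`), a DVR by
`IsLocalization.AtPrime.isDiscreteValuationRing_of_dedekind_domain`.  `O ∩ ℚ = ℤ_(ℓ)`: an integer prime
to `ℓ` is a unit at `P`; `1/ℓ ∉ O`.  The reduction of `ζ` is still a primitive `N`-th root of unity: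
if `η = ζ^t ≠ 1`, of order `D' ∣ N`, `D' > 1`, reduces to `1`, then `0 = 1 + η + ⋯ + η^(D'-1)` reduces to
`D'`, a unit.
-/
import Fermat.Agent.S28.Defs

set_option autoImplicit false
set_option linter.unusedSectionVars false

open Fermat.Agent.S24 NumberField

namespace Fermat.Agent.S28

namespace Coeff

variable (N : ℕ) [NeZero N]

/-- `ℚ(ζ_N) ⊆ ℂ` -/
noncomputable abbrev Lz : IntermediateField ℚ ℂ := IntermediateField.adjoin ℚ {zetaN N}

theorem zetaN_pow : zetaN N ^ N = 1 := (isPrimitiveRoot_zetaN N).pow_eq_one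

instance : NumberField (Lz N) where
  to_charZero := inferInstance
  to_finiteDimensional := IntermediateField.adjoin.finiteDimensional
    (IsIntegral.of_pow (Nat.pos_of_ne_zero (NeZero.ne N)) (by rw [zetaN_pow]; exact isIntegral_one))

/-- `ζ_N ∈ L` -/
noncomputable def zL : Lz N := ⟨zetaN N, IntermediateField.mem_adjoin_simple_self ℚ _⟩

theorem zL_pow : zL N ^ N = 1 := Subtype.ext (zetaN_pow N)

noncomputable def zO : 𝓞 (Lz N) := ⟨zL N,
  IsIntegral.of_pow (Nat.pos_of_ne_zero (NeZero.ne N)) (by rw [zL_pow]; exact isIntegral_one)⟩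

theorem zO_pow : zO N ^ N = 1 := Subtype.ext (zL_pow N)

/-- `𝓞 L → ℂ` -/
noncomputable def gO : 𝓞 (Lz N) →+* ℂ := (algebraMap (Lz N) ℂ).comp (algebraMap (𝓞 (Lz N)) (Lz N))

theorem gO_injective : Function.Injective (gO N) :=
  (algebraMap (Lz N) ℂ).injective.comp (RingOfIntegers.coe_injective)

theorem gO_zO : gO N (zO N) = zetaN N := rfl


theorem exists_prime (ℓ : ℕ) [Fact ℓ.Prime] :
    ∃ P : Ideal (𝓞 (Lz N)), P.IsMaximal ∧ ∀ n : ℤ, ((n : 𝓞 (Lz N)) ∈ P ↔ (ℓ : ℤ) ∣ n) := by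
  have hmax : (Ideal.span {(ℓ : ℤ)}).IsMaximal :=
    PrincipalIdealRing.isMaximal_of_irreducible
      (Nat.prime_iff_prime_int.mp (Fact.out : ℓ.Prime)).irreducible
  obtain ⟨Q, hQ, hQc⟩ := Ideal.exists_ideal_over_maximal_of_isIntegral (S := 𝓞 (Lz N))
    (Ideal.span {(ℓ : ℤ)}) (by
      rw [(RingHom.injective_iff_ker_eq_bot _).mp (FaithfulSMul.algebraMap_injective ℤ (𝓞 (Lz N)))]
      exact bot_le)
  refine ⟨Q, hQ, fun n => ?_⟩
  rw [← Ideal.mem_span_singleton, ← hQc, Ideal.mem_comap]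
  simp


section Loc

variable {N} (ℓ : ℕ) [Fact ℓ.Prime] (P : Ideal (𝓞 (Lz N))) [P.IsMaximal]

theorem gO_isUnit (y : P.primeCompl) : IsUnit (gO N y) := by
  apply IsUnit.mk0
  intro h
  have h0 : (y : 𝓞 (Lz N)) = 0 := gO_injective N (by rw [h, map_zero])
  exact y.2 (by rw [h0]; exact P.zero_mem)

/-- the embedding `O → ℂ` -/
noncomputable def embO : Localization.AtPrime P →+* ℂ :=
  IsLocalization.lift (M := P.primeCompl) (gO_isUnit P)

theorem embO_algebraMap (x : 𝓞 (Lz N)) : embO P (algebraMap _ _ x) = gO N x :=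
  IsLocalization.lift_eq _ _

theorem embO_injective : Function.Injective (embO P) := by
  rw [embO, IsLocalization.lift_injective_iff]
  intro x y
  rw [(gO_injective N).eq_iff,
    (IsLocalization.injective (Localization.AtPrime P) P.primeCompl_le_nonZeroDivisors).eq_iff]


variable {ℓ} (hP : ∀ n : ℤ, ((n : 𝓞 (Lz N)) ∈ P ↔ (ℓ : ℤ) ∣ n))
include hP

theorem exists_embO_iff (r : ℚ) :
    (∃ x : Localization.AtPrime P, embO P x = (r : ℂ)) ↔ r ∈ GaloisRep.ratLocalizedAt ℓ := by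
  constructor
  · rintro ⟨x, hx⟩
    obtain ⟨⟨a, s⟩, hs⟩ := IsLocalization.surj P.primeCompl x
    simp only at hs
    have h1 := congrArg (embO P) hs
    rw [map_mul, embO_algebraMap, embO_algebraMap, hx] at h1
    -- `r * g s = g a`
    change r.den.Coprime ℓ
    by_contra hcop
    have hdvd : ℓ ∣ r.den := by
      rcases (Nat.coprime_or_dvd_of_prime (Fact.out : ℓ.Prime) r.den) with h | h
      · exact absurd h.symm hcop
      · exact h
    have h2 : ((r.num : ℤ) : 𝓞 (Lz N)) * s = ((r.den : ℤ) : 𝓞 (Lz N)) * a := by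
      apply gO_injective N
      rw [map_mul, map_mul, map_intCast, map_intCast, ← h1]
      have hden : ((r.den : ℤ) : ℂ) ≠ 0 := by exact_mod_cast r.den_ne_zero
      have hr : (r : ℂ) = (r.num : ℂ) / ((r.den : ℤ) : ℂ) := by
        conv_lhs => rw [← Rat.num_div_den r]
        push_cast
        rfl
      rw [hr]
      field_simp
    have h3 : ((r.num : ℤ) : 𝓞 (Lz N)) * s ∈ P := by
      rw [h2]
      exact P.mul_mem_right _ ((hP _).mpr (by exact_mod_cast hdvd))
    rcases (Ideal.IsMaximal.isPrime inferInstance).mem_or_mem h3 with h | h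
    · have h4 : (ℓ : ℤ) ∣ r.num := (hP _).mp h
      have h5 : ℓ ∣ r.num.natAbs := Int.natCast_dvd.mp h4
      have h6 := Nat.dvd_gcd h5 hdvd
      rw [r.reduced] at h6
      exact (Fact.out : ℓ.Prime).one_lt.ne' (Nat.dvd_one.mp h6)
    · exact s.2 h
  · intro hr
    have hr' : r.den.Coprime ℓ := hr
    have hden : ((r.den : ℤ) : 𝓞 (Lz N)) ∈ P.primeCompl := by
      intro h
      have h1 : (ℓ : ℤ) ∣ (r.den : ℤ) := (hP _).mp h
      have h2 : ℓ ∣ r.den := by exact_mod_cast h1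
      have h3 := Nat.dvd_gcd h2 (dvd_refl ℓ)
      rw [hr'] at h3
      exact (Fact.out : ℓ.Prime).one_lt.ne' (Nat.dvd_one.mp h3)
    refine ⟨IsLocalization.mk' _ ((r.num : ℤ) : 𝓞 (Lz N)) ⟨_, hden⟩, ?_⟩
    have h1 := congrArg (embO P) (IsLocalization.mk'_spec (Localization.AtPrime P)
      ((r.num : ℤ) : 𝓞 (Lz N)) ⟨_, hden⟩)
    rw [map_mul, embO_algebraMap, embO_algebraMap, map_intCast, map_intCast] at h1
    have hden0 : ((r.den : ℤ) : ℂ) ≠ 0 := by exact_mod_cast r.den_ne_zero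
    rw [← eq_div_iff hden0] at h1
    rw [h1]
    conv_rhs => rw [← Rat.num_div_den r]
    push_cast
    rfl


theorem residue_natCast_ne_zero (hℓN : ¬ ℓ ∣ N) :
    IsLocalRing.residue (Localization.AtPrime P) (N : Localization.AtPrime P) ≠ 0 := by
  rw [Ne, IsLocalRing.residue_eq_zero_iff, IsLocalRing.mem_maximalIdeal, mem_nonunits_iff, not_not]
  have hN : ((N : ℤ) : 𝓞 (Lz N)) ∈ P.primeCompl := by
    intro h
    have h1 : (ℓ : ℤ) ∣ (N : ℤ) := (hP _).mp h
    exact hℓN (by exact_mod_cast h1)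
  have := IsLocalization.map_units (Localization.AtPrime P) (⟨_, hN⟩ : P.primeCompl)
  simpa using this

theorem residue_primitive (hℓN : ¬ ℓ ∣ N) (ζ : Localization.AtPrime P)
    (hζ : embO P ζ = zetaN N) :
    IsPrimitiveRoot (IsLocalRing.residue (Localization.AtPrime P) ζ) N := by
  have hprim : IsPrimitiveRoot ζ N :=
    IsPrimitiveRoot.of_map_of_injective (f := embO P) (hζ ▸ isPrimitiveRoot_zetaN N) (embO_injective P)
  obtain ⟨n, hn⟩ := Nat.exists_eq_succ_of_ne_zero (NeZero.ne N)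
  have hprod := IsPrimitiveRoot.prod_one_sub_pow_eq_order (n := n) (μ := ζ) (hn ▸ hprim)
  refine IsPrimitiveRoot.mk_of_lt _ (Nat.pos_of_ne_zero (NeZero.ne N)) ?_ ?_
  · rw [← map_pow, hprim.pow_eq_one, map_one]
  · intro l hl0 hlN hl
    apply residue_natCast_ne_zero P hP hℓN
    have h1 : (N : Localization.AtPrime P) = (n : Localization.AtPrime P) + 1 := by
      have := congrArg (Nat.cast : ℕ → Localization.AtPrime P) hn
      rw [this]; push_cast; rfl
    rw [h1, ← hprod, map_prod]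
    apply Finset.prod_eq_zero (i := l - 1) (Finset.mem_range.mpr (by omega))
    rw [Nat.sub_add_cancel hl0, map_sub, map_one, map_pow, hl, sub_self]

end Loc

end Coeff

open Coeff in
theorem exists_coeff (N : ℕ) [NeZero N] (ℓ : ℕ) [Fact ℓ.Prime] (hℓN : ¬ ℓ ∣ N) :
    ∃ (O : Type) (_ : CommRing O) (_ : IsDomain O) (_ : IsDiscreteValuationRing O)
      (emb : O →+* ℂ) (ζ : Oˣ),
      Function.Injective emb ∧ emb (ζ : O) = zetaN N ∧
      (∀ r : ℚ, (∃ x : O, emb x = (r : ℂ)) ↔ r ∈ GaloisRep.ratLocalizedAt ℓ) ∧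
      IsPrimitiveRoot (IsLocalRing.residue O (ζ : O)) N := by
  obtain ⟨P, hPmax, hP⟩ := exists_prime N ℓ
  have hPbot : P ≠ ⊥ := by
    intro h
    have h1 : ((ℓ : ℤ) : 𝓞 (Lz N)) ∈ P := (hP _).mpr (dvd_refl _)
    rw [h, Ideal.mem_bot] at h1
    have h2 : (ℓ : ℤ) = 0 := by exact_mod_cast h1
    exact (Fact.out : ℓ.Prime).ne_zero (by exact_mod_cast h2)
  have hz : embO P ((Units.map (algebraMap (𝓞 (Lz N)) (Localization.AtPrime P)).toMonoidHom
      (Units.ofPowEqOne (zO N) N (zO_pow N) (NeZero.ne N)) : (Localization.AtPrime P)ˣ) :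
        Localization.AtPrime P) = zetaN N := by
    rw [Units.coe_map]
    exact embO_algebraMap P (zO N)
  exact ⟨Localization.AtPrime P, inferInstance, inferInstance,
    IsLocalization.AtPrime.isDiscreteValuationRing_of_dedekind_domain (𝓞 (Lz N)) hPbot _,
    embO P, Units.map (algebraMap (𝓞 (Lz N)) (Localization.AtPrime P)).toMonoidHom
      (Units.ofPowEqOne (zO N) N (zO_pow N) (NeZero.ne N)),
    embO_injective P, hz, exists_embO_iff P hP, residue_primitive P hP hℓN _ hz⟩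

end Fermat.Agent.S28
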