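/-
S28, module **CoreAlg**: the abstract algebra behind `CoreIrr` (no modular forms).

* `prod_aeval_mem_range`: `∏ G(α_i) ∈ F` if `∏ (X - α_i) ∈ F[X]` (Vandermonde determinant trick);
* `prod_erase_eq`: synthetic division;
* `lagrange_mem_lifts`: the Lagrange interpolation polynomial has coefficients in `F`;
* `exists_factor`: a nontrivial relation gives a factor of `∏ (X - θ_γ)` not vanishing at `θ_{γ0}`;
* `exists_unit_prod`: the partial norm of the unit is a unit of the integrally closed base ring.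
-/
import Mathlib

set_option autoImplicit false
set_option linter.unusedSectionVars false
set_option linter.style.haveILetI false

open Polynomial

namespace Fermat.Agent.S28

section Det

variable {F L : Type*} [Field F] [Field L] [Algebra F L]

/-- `∏ G(α_i) ∈ F` if `∏ (X - α_i) ∈ F[X]`, `α` injective. -/
theorem prod_aeval_mem_range {σ : Type*} [Fintype σ] (α : σ → L)
    (hα : Function.Injective α) (h : F[X])
    (hh : h.map (algebraMap F L) = ∏ i, (X - C (α i))) (G : F[X]) :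
    ∏ i, aeval (α i) G ∈ (algebraMap F L).range := by
  classical
  obtain ⟨d, hd⟩ : ∃ d, Fintype.card σ = d := ⟨_, rfl⟩
  have hmonic : h.Monic := by
    have : (h.map (algebraMap F L)).Monic := by
      rw [hh]; exact monic_prod_of_monic _ _ (fun i _ => monic_X_sub_C _)
    exact (Function.Injective.monic_map_iff (algebraMap F L).injective).mpr this
  have hdeg : h.natDegree = d := by
    have : (h.map (algebraMap F L)).natDegree = d := by
      rw [hh, natDegree_prod_of_monic _ _ (fun i _ => monic_X_sub_C _)]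
      simp [hd]
    rwa [natDegree_map] at this
  have hroot : ∀ i, aeval (α i) h = 0 := by
    intro i
    rw [aeval_def, ← eval_map, hh, eval_prod]
    exact Finset.prod_eq_zero (Finset.mem_univ i) (by simp)
  rcases Nat.eq_zero_or_pos d with hd0 | hdpos
  · have : IsEmpty σ := Fintype.card_eq_zero_iff.mp (hd.trans hd0)
    simp
  let e : σ ≃ Fin d := Fintype.equivFinOfCardEq hd
  let M : Matrix (Fin d) (Fin d) F := fun r t => ((X ^ (r : ℕ) * G) %ₘ h).coeff t
  let V : Matrix (Fin d) (Fin d) L := Matrix.vandermonde (fun i => α (e.symm i))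
  have hV : V.det ≠ 0 := Matrix.det_vandermonde_ne_zero_iff.mpr (hα.comp e.symm.injective)
  have key : Matrix.diagonal (fun i => aeval (α (e.symm i)) G) * V =
      V * ((algebraMap F L).mapMatrix M).transpose := by
    ext i r
    rw [Matrix.diagonal_mul, Matrix.mul_apply]
    simp only [V, Matrix.vandermonde_apply, Matrix.transpose_apply, RingHom.mapMatrix_apply,
      Matrix.map_apply, M]
    have h1 : aeval (α (e.symm i)) ((X ^ (r : ℕ) * G) %ₘ h) =
        aeval (α (e.symm i)) (X ^ (r : ℕ) * G) := by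
      conv_rhs => rw [← modByMonic_add_div (X ^ (r : ℕ) * G) h]
      rw [map_add, map_mul, hroot, zero_mul, add_zero]
    have h2 : ((X ^ (r : ℕ) * G) %ₘ h).natDegree < d := by
      refine lt_of_lt_of_eq (natDegree_modByMonic_lt _ hmonic ?_) hdeg
      intro h1
      rw [h1] at hdeg
      simp at hdeg
      omega
    rw [aeval_eq_sum_range' h2, map_mul, map_pow, aeval_X] at h1
    rw [mul_comm, ← h1, ← Fin.sum_univ_eq_sum_range
      (fun t => ((X ^ (r : ℕ) * G) %ₘ h).coeff t • α (e.symm i) ^ t) d]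
    refine Finset.sum_congr rfl (fun t _ => ?_)
    rw [Algebra.smul_def, mul_comm]
  have hdet := congrArg Matrix.det key
  rw [Matrix.det_mul, Matrix.det_mul, Matrix.det_diagonal, Matrix.det_transpose,
    ← RingHom.map_det, mul_comm] at hdet
  have h3 := mul_left_cancel₀ hV hdet
  refine ⟨M.det, ?_⟩
  rw [← h3]
  exact Fintype.prod_equiv e.symm _ _ (fun i => rfl)

end Det

section Lagrange

variable {L : Type*} [Field L] {ι : Type*} [Fintype ι] [DecidableEq ι]

theorem natDegree_prod_X_sub_C (θ : ι → L) :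
    (∏ γ, (X - C (θ γ))).natDegree = Fintype.card ι := by
  rw [natDegree_prod_of_monic _ _ (fun i _ => monic_X_sub_C _)]
  simp

theorem eval_prod_X_sub_C (θ : ι → L) (γ : ι) : (∏ γ', (X - C (θ γ'))).eval (θ γ) = 0 := by
  rw [eval_prod]
  exact Finset.prod_eq_zero (Finset.mem_univ γ) (by simp)

/-- synthetic division of `∏ (X - θ_γ')` by `X - θ_γ`. -/
theorem prod_erase_eq (θ : ι → L) (γ : ι) :
    ∏ γ' ∈ Finset.univ.erase γ, (X - C (θ γ')) =
      ∑ i ∈ Finset.range (Fintype.card ι + 1), C ((∏ γ', (X - C (θ γ'))).coeff i) *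
        ∑ a ∈ Finset.range i, X ^ a * C (θ γ) ^ (i - 1 - a) := by
  obtain ⟨P, hP⟩ : ∃ P, P = ∏ γ', (X - C (θ γ')) := ⟨_, rfl⟩
  have hdeg : P.natDegree < Fintype.card ι + 1 := by
    rw [hP, natDegree_prod_X_sub_C]; omega
  have h0 : P.eval (θ γ) = 0 := by rw [hP]; exact eval_prod_X_sub_C θ γ
  rw [← hP]
  apply mul_right_cancel₀ (X_sub_C_ne_zero (θ γ))
  rw [Finset.prod_erase_mul _ _ (Finset.mem_univ γ), ← hP, Finset.sum_mul]
  have h1 : ∀ i ∈ Finset.range (Fintype.card ι + 1),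
      C (P.coeff i) * (∑ a ∈ Finset.range i, X ^ a * C (θ γ) ^ (i - 1 - a)) * (X - C (θ γ)) =
        C (P.coeff i) * X ^ i - C (P.coeff i * θ γ ^ i) := by
    intro i _
    rw [mul_assoc, geom_sum₂_mul, mul_sub, C_mul, C_pow]
  rw [Finset.sum_congr rfl h1, Finset.sum_sub_distrib, ← as_sum_range_C_mul_X_pow' P hdeg,
    ← map_sum, ← eval_eq_sum_range' hdeg, h0, C_0, sub_zero]

theorem eval_prod_erase_ne_zero (θ : ι → L) (hθ : Function.Injective θ) (γ : ι) :
    (∏ γ' ∈ Finset.univ.erase γ, (X - C (θ γ'))).eval (θ γ) ≠ 0 := by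
  rw [eval_prod, Finset.prod_ne_zero_iff]
  intro γ' hγ'
  rw [eval_sub, eval_X, eval_C, sub_ne_zero]
  intro h
  exact (Finset.ne_of_mem_erase hγ') (hθ h).symm

theorem eval_derivative_prod_X_sub_C (θ : ι → L) (γ : ι) :
    (derivative (∏ γ', (X - C (θ γ')))).eval (θ γ) =
      (∏ γ' ∈ Finset.univ.erase γ, (X - C (θ γ'))).eval (θ γ) := by
  rw [← Finset.mul_prod_erase _ _ (Finset.mem_univ γ), derivative_mul]
  simp

theorem eval_lagrange (θ u : ι → L) (γ : ι) :
    (∑ γ₁, C (u γ₁) * ∏ γ' ∈ Finset.univ.erase γ₁, (X - C (θ γ'))).eval (θ γ) =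
      u γ * (∏ γ' ∈ Finset.univ.erase γ, (X - C (θ γ'))).eval (θ γ) := by
  rw [eval_finsetSum, Finset.sum_eq_single γ]
  · rw [eval_mul, eval_C]
  · intro γ₁ _ hne
    rw [eval_mul, eval_prod, Finset.prod_eq_zero (Finset.mem_erase.mpr ⟨hne.symm, Finset.mem_univ γ⟩)
      (by simp), mul_zero]
  · intro h; exact absurd (Finset.mem_univ γ) h

variable {F : Type*} [Field F] [Algebra F L]

theorem lagrange_mem_lifts (θ u : ι → L)
    (hP : ∀ i, (∏ γ, (X - C (θ γ))).coeff i ∈ (algebraMap F L).range)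
    (hmom : ∀ r, ∑ γ, u γ * θ γ ^ r ∈ (algebraMap F L).range) :
    ∑ γ, C (u γ) * ∏ γ' ∈ Finset.univ.erase γ, (X - C (θ γ')) ∈ lifts (algebraMap F L) := by
  have h1 : ∑ γ, C (u γ) * ∏ γ' ∈ Finset.univ.erase γ, (X - C (θ γ')) =
      ∑ i ∈ Finset.range (Fintype.card ι + 1), C ((∏ γ', (X - C (θ γ'))).coeff i) *
        ∑ a ∈ Finset.range i, X ^ a * C (∑ γ, u γ * θ γ ^ (i - 1 - a)) := by
    simp_rw [prod_erase_eq θ, Finset.mul_sum]
    rw [Finset.sum_comm]
    refine Finset.sum_congr rfl (fun i _ => ?_)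
    rw [Finset.sum_comm]
    refine Finset.sum_congr rfl (fun a _ => ?_)
    rw [map_sum, Finset.mul_sum, Finset.mul_sum]
    refine Finset.sum_congr rfl (fun γ _ => ?_)
    rw [C_mul, C_pow]
    ring
  rw [h1]
  refine sum_mem (fun i _ => mul_mem ?_ (sum_mem (fun a _ => mul_mem (pow_mem (X_mem_lifts _) _) ?_)))
  · obtain ⟨x, hx⟩ := hP i
    rw [← hx]; exact C_mem_lifts _ x
  · obtain ⟨x, hx⟩ := hmom (i - 1 - a)
    rw [← hx]; exact C_mem_lifts _ x

/-- the partial product of the `u γ` over the roots of a factor defined over `F` lies in `F`. -/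
theorem prod_unit_mem_range (θ u : ι → L) (hθ : Function.Injective θ)
    (hP : ∀ i, (∏ γ, (X - C (θ γ))).coeff i ∈ (algebraMap F L).range)
    (hmom : ∀ r, ∑ γ, u γ * θ γ ^ r ∈ (algebraMap F L).range)
    (S : Finset ι) (h : F[X]) (hh : h.map (algebraMap F L) = ∏ γ ∈ S, (X - C (θ γ))) :
    ∏ γ ∈ S, u γ ∈ (algebraMap F L).range := by
  obtain ⟨Cp, hCp⟩ := (mem_lifts _).mp (lagrange_mem_lifts θ u hP hmom)
  obtain ⟨PF, hPF⟩ := (mem_lifts _).mp ((lifts_iff_coeff_lifts _).mpr hP)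
  have hα : Function.Injective (fun i : S => θ i.1) := hθ.comp Subtype.val_injective
  have hh' : h.map (algebraMap F L) = ∏ i : S, (X - C (θ i.1)) := by
    rw [hh, Finset.prod_coe_sort S (fun γ => X - C (θ γ))]
  obtain ⟨x, hx⟩ := prod_aeval_mem_range _ hα h hh' Cp
  obtain ⟨y, hy⟩ := prod_aeval_mem_range _ hα h hh' (derivative PF)
  have e1 : ∀ γ, aeval (θ γ) Cp =
      u γ * (∏ γ' ∈ Finset.univ.erase γ, (X - C (θ γ'))).eval (θ γ) := by
    intro γ
    rw [aeval_def, ← eval_map, hCp, eval_lagrange]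
  have e2 : ∀ γ, aeval (θ γ) (derivative PF) =
      (∏ γ' ∈ Finset.univ.erase γ, (X - C (θ γ'))).eval (θ γ) := by
    intro γ
    rw [aeval_def, ← eval_map, ← derivative_map, hPF, eval_derivative_prod_X_sub_C]
  simp only [e1, e2] at hx hy
  have hx' := hx.trans (Finset.prod_coe_sort S
    (fun γ => u γ * (∏ γ' ∈ Finset.univ.erase γ, (X - C (θ γ'))).eval (θ γ)))
  have hy' := hy.trans (Finset.prod_coe_sort S
    (fun γ => (∏ γ' ∈ Finset.univ.erase γ, (X - C (θ γ'))).eval (θ γ)))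
  rw [Finset.prod_mul_distrib] at hx'
  have hne : ∏ γ ∈ S, (∏ γ' ∈ Finset.univ.erase γ, (X - C (θ γ'))).eval (θ γ) ≠ 0 :=
    Finset.prod_ne_zero_iff.mpr (fun γ _ => eval_prod_erase_ne_zero θ hθ γ)
  refine ⟨x / y, ?_⟩
  rw [map_div₀, hx', hy', mul_div_assoc, div_self hne, mul_one]

end Lagrange

section Factor

variable {F L : Type*} [Field F] [Field L] [Algebra F L] {ι : Type*} [Fintype ι] [DecidableEq ι]

theorem prod_X_sub_C_dvd (θ : ι → L) (hθ : Function.Injective θ) (S : Finset ι) (g : L[X])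
    (hg : ∀ γ ∈ S, g.eval (θ γ) = 0) : ∏ γ ∈ S, (X - C (θ γ)) ∣ g := by
  refine Finset.prod_dvd_of_coprime ?_ (fun γ hγ => dvd_iff_isRoot.mpr (hg γ hγ))
  intro γ _ γ' _ hne
  exact isCoprime_X_sub_C_of_isUnit_sub (sub_ne_zero.mpr (fun h => hne (hθ h))).isUnit

/-- a nontrivial relation of degree `< n` satisfied by `θ γ0` gives a nontrivial factor of
`∏ (X - θ γ)` over `F` which does not vanish at `θ γ0`. -/
theorem exists_factor (θ : ι → L) (hθ : Function.Injective θ) (PF : F[X])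
    (hPF : PF.map (algebraMap F L) = ∏ γ, (X - C (θ γ))) (γ0 : ι) (c : F[X]) (hc0 : c ≠ 0)
    (hdeg : c.natDegree < Fintype.card ι) (hc : aeval (θ γ0) c = 0) :
    ∃ (S : Finset ι) (h : F[X]), S.Nonempty ∧ γ0 ∉ S ∧
      h.map (algebraMap F L) = ∏ γ ∈ S, (X - C (θ γ)) := by
  classical
  have hPmonic : PF.Monic := by
    have : (PF.map (algebraMap F L)).Monic := by
      rw [hPF]; exact monic_prod_of_monic _ _ (fun i _ => monic_X_sub_C _)
    exact (Function.Injective.monic_map_iff (algebraMap F L).injective).mpr this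
  have hPdeg : PF.natDegree = Fintype.card ι := by
    rw [← natDegree_map (algebraMap F L), hPF, natDegree_prod_X_sub_C]
  have hProot : ∀ γ, aeval (θ γ) PF = 0 := by
    intro γ
    rw [aeval_def, ← eval_map, hPF, eval_prod_X_sub_C]
  have hint : IsIntegral F (θ γ0) := ⟨PF, hPmonic, hProot γ0⟩
  obtain ⟨m, hm⟩ : ∃ m, m = minpoly F (θ γ0) := ⟨_, rfl⟩
  have hmmonic : m.Monic := hm ▸ minpoly.monic hint
  have hmroot : aeval (θ γ0) m = 0 := hm ▸ minpoly.aeval F (θ γ0)
  have hmdeg : m.natDegree ≤ c.natDegree :=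
    natDegree_le_natDegree (hm ▸ minpoly.degree_le_of_ne_zero F (θ γ0) hc0 hc)
  obtain ⟨h, hh⟩ : m ∣ PF := hm ▸ minpoly.dvd F (θ γ0) (hProot γ0)
  have hhmonic : h.Monic := hmmonic.of_mul_monic_left (hh ▸ hPmonic)
  have hdegsum : m.natDegree + h.natDegree = Fintype.card ι := by
    rw [← hPdeg, hh, hmmonic.natDegree_mul hhmonic]
  obtain ⟨m', hm'⟩ : ∃ m', m' = m.map (algebraMap F L) := ⟨_, rfl⟩
  obtain ⟨h', hh'⟩ : ∃ h', h' = h.map (algebraMap F L) := ⟨_, rfl⟩
  have hprod : m' * h' = ∏ γ, (X - C (θ γ)) := by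
    rw [hm', hh', ← Polynomial.map_mul, ← hh, hPF]
  have hm'monic : m'.Monic := hm' ▸ hmmonic.map _
  have hh'monic : h'.Monic := hh' ▸ hhmonic.map _
  have hm'deg : m'.natDegree = m.natDegree := by rw [hm', natDegree_map]
  have hh'deg : h'.natDegree = h.natDegree := by rw [hh', natDegree_map]
  obtain ⟨S, hS⟩ : ∃ S : Finset ι, S = Finset.univ.filter (fun γ => h'.eval (θ γ) = 0) := ⟨_, rfl⟩
  have d1 : ∏ γ ∈ S, (X - C (θ γ)) ∣ h' := by
    refine prod_X_sub_C_dvd θ hθ S h' (fun γ hγ => ?_)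
    rw [hS, Finset.mem_filter] at hγ
    exact hγ.2
  have d2 : ∏ γ ∈ Sᶜ, (X - C (θ γ)) ∣ m' := by
    refine prod_X_sub_C_dvd θ hθ _ m' (fun γ hγ => ?_)
    rw [Finset.mem_compl, hS, Finset.mem_filter] at hγ
    have h1 : (m' * h').eval (θ γ) = 0 := by rw [hprod, eval_prod_X_sub_C]
    rw [eval_mul] at h1
    rcases mul_eq_zero.mp h1 with h2 | h2
    · exact h2
    · exact absurd ⟨Finset.mem_univ γ, h2⟩ hγ
  have n1 : (∏ γ ∈ S, (X - C (θ γ))).natDegree = S.card := by
    rw [natDegree_prod_of_monic _ _ (fun i _ => monic_X_sub_C _)]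
    simp
  have n2 : (∏ γ ∈ Sᶜ, (X - C (θ γ))).natDegree = Sᶜ.card := by
    rw [natDegree_prod_of_monic _ _ (fun i _ => monic_X_sub_C _)]
    simp
  have l1 : S.card ≤ h'.natDegree := n1 ▸ natDegree_le_of_dvd d1 hh'monic.ne_zero
  have l2 : Sᶜ.card ≤ m'.natDegree := n2 ▸ natDegree_le_of_dvd d2 hm'monic.ne_zero
  have hcard : S.card + Sᶜ.card = Fintype.card ι := Finset.card_add_card_compl S
  have heq : h' = ∏ γ ∈ S, (X - C (θ γ)) :=
    eq_of_monic_of_dvd_of_natDegree_le (monic_prod_of_monic _ _ (fun i _ => monic_X_sub_C _))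
      hh'monic d1 (by rw [n1]; omega)
  refine ⟨S, h, ?_, ?_, by rw [← hh', heq]⟩
  · rw [Finset.nonempty_iff_ne_empty]
    intro hemp
    rw [hemp] at l1 hcard n1
    have : h'.natDegree = 0 := by rw [heq, hemp]; simp
    omega
  · intro hγ0
    rw [hS, Finset.mem_filter] at hγ0
    have h1 : m'.eval (θ γ0) = 0 := by rw [hm', eval_map, ← aeval_def]; exact hmroot
    have h2 := eval_derivative_prod_X_sub_C θ γ0
    rw [← hprod, derivative_mul, eval_add, eval_mul, eval_mul, h1, hγ0.2, mul_zero, zero_mul,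
      add_zero] at h2
    exact eval_prod_erase_ne_zero θ hθ γ0 h2.symm

end Factor

section Unit

variable {A L : Type*} [CommRing A] [IsDomain A] [IsIntegrallyClosed A]
  [Field L] [Algebra A L] {ι : Type*} [Fintype ι] [DecidableEq ι]

omit [IsDomain A] [IsIntegrallyClosed A] [DecidableEq ι] in
theorem isIntegral_of_prod_coeff (u : ι → L)
    (huP : ∀ i, (∏ γ, (X - C (u γ))).coeff i ∈ (algebraMap A L).range) (γ : ι) :
    IsIntegral A (u γ) := by
  obtain ⟨q, hq, -, hqm⟩ := lifts_and_natDegree_eq_and_monic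
    ((lifts_iff_coeff_lifts _).mpr huP) (monic_prod_of_monic _ _ (fun i _ => monic_X_sub_C _))
  refine ⟨q, hqm, ?_⟩
  rw [← eval_map, hq, eval_prod]
  exact Finset.prod_eq_zero (Finset.mem_univ γ) (by simp)

theorem exists_unit_prod (F : Type*) [Field F] [Algebra A F] [IsFractionRing A F] [Algebra F L]
    [IsScalarTower A F L] (γ0 : ι) (θ u v : ι → L)
    (hθP : ∀ i, (∏ γ, (X - C (θ γ))).coeff i ∈ (algebraMap A L).range)
    (hθ : Function.Injective θ) (huv : ∀ γ, u γ * v γ = 1)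
    (huP : ∀ i, (∏ γ, (X - C (u γ))).coeff i ∈ (algebraMap A L).range)
    (hvP : ∀ i, (∏ γ, (X - C (v γ))).coeff i ∈ (algebraMap A L).range)
    (hmom : ∀ r, ∑ γ, u γ * θ γ ^ r ∈ (algebraMap A L).range)
    (c : A[X]) (hc0 : c ≠ 0) (hdeg : c.natDegree < Fintype.card ι) (hc : aeval (θ γ0) c = 0) :
    ∃ (S : Finset ι) (w : Aˣ), S.Nonempty ∧ γ0 ∉ S ∧ algebraMap A L w = ∏ γ ∈ S, u γ := by
  have hAF : Function.Injective (algebraMap A F) := IsFractionRing.injective A F
  have hFL : Function.Injective (algebraMap F L) := (algebraMap F L).injective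
  have hsub : ∀ x : L, x ∈ (algebraMap A L).range → x ∈ (algebraMap F L).range := by
    rintro x ⟨a, rfl⟩
    exact ⟨algebraMap A F a, (IsScalarTower.algebraMap_apply A F L a).symm⟩
  have hθP' := fun i => hsub _ (hθP i)
  have hmom' := fun r => hsub _ (hmom r)
  obtain ⟨PF, hPF⟩ := (mem_lifts _).mp ((lifts_iff_coeff_lifts _).mpr hθP')
  obtain ⟨S, h, hSne, hγ0, hh⟩ := exists_factor θ hθ PF hPF γ0 (c.map (algebraMap A F))
    ((Polynomial.map_ne_zero_iff hAF).mpr hc0) (by rwa [natDegree_map_eq_of_injective hAF])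
    (by rwa [aeval_map_algebraMap])
  obtain ⟨w, hw⟩ := prod_unit_mem_range θ u hθ hθP' hmom' S h hh
  have hWV : (∏ γ ∈ S, u γ) * ∏ γ ∈ S, v γ = 1 := by
    rw [← Finset.prod_mul_distrib]
    exact Finset.prod_eq_one (fun γ _ => huv γ)
  have hw0 : w ≠ 0 := by
    rintro rfl
    rw [map_zero] at hw
    rw [← hw, zero_mul] at hWV
    exact zero_ne_one hWV
  have hw' : algebraMap F L w⁻¹ = ∏ γ ∈ S, v γ := by
    have h1 : algebraMap F L w * algebraMap F L w⁻¹ = 1 := by
      rw [← map_mul, mul_inv_cancel₀ hw0, map_one]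
    have h2 : algebraMap F L w ≠ 0 := by rw [Ne, map_eq_zero]; exact hw0
    apply mul_left_cancel₀ h2
    rw [h1, hw, hWV]
  have i1 : IsIntegral A w := by
    rw [← isIntegral_algebraMap_iff hFL, hw]
    exact IsIntegral.prod _ (fun γ _ => isIntegral_of_prod_coeff u huP γ)
  have i2 : IsIntegral A w⁻¹ := by
    rw [← isIntegral_algebraMap_iff hFL, hw']
    exact IsIntegral.prod _ (fun γ _ => isIntegral_of_prod_coeff v hvP γ)
  obtain ⟨a, ha⟩ := IsIntegrallyClosed.isIntegral_iff.mp i1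
  obtain ⟨b, hb⟩ := IsIntegrallyClosed.isIntegral_iff.mp i2
  have hab : a * b = 1 := by
    apply hAF
    rw [map_mul, ha, hb, mul_inv_cancel₀ hw0, map_one]
  refine ⟨S, ⟨a, b, hab, by rw [mul_comm]; exact hab⟩, hSne, hγ0, ?_⟩
  rw [← hw, ← ha]
  exact IsScalarTower.algebraMap_apply A F L a

end Unit

section UnitHom

variable {A L : Type*} [CommRing A] [IsDomain A] [IsIntegrallyClosed A] [Field L]
  {ι : Type*} [Fintype ι] [DecidableEq ι]

/-- version of `exists_unit_prod` with an explicit injective ring homomorphism. -/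
theorem exists_unit_prod_hom (φ : A →+* L) (hφ : Function.Injective φ) (γ0 : ι) (θ u v : ι → L)
    (hθP : ∀ i, (∏ γ, (X - C (θ γ))).coeff i ∈ φ.range)
    (hθ : Function.Injective θ) (huv : ∀ γ, u γ * v γ = 1)
    (huP : ∀ i, (∏ γ, (X - C (u γ))).coeff i ∈ φ.range)
    (hvP : ∀ i, (∏ γ, (X - C (v γ))).coeff i ∈ φ.range)
    (hmom : ∀ r, ∑ γ, u γ * θ γ ^ r ∈ φ.range)
    (c : A[X]) (hc0 : c ≠ 0) (hdeg : c.natDegree < Fintype.card ι)
    (hc : eval₂ φ (θ γ0) c = 0) :
    ∃ (S : Finset ι) (w : Aˣ), S.Nonempty ∧ γ0 ∉ S ∧ φ w = ∏ γ ∈ S, u γ := by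
  letI : Algebra A L := φ.toAlgebra
  haveI : FaithfulSMul A L := (faithfulSMul_iff_algebraMap_injective A L).mpr hφ
  letI : Algebra (FractionRing A) L := FractionRing.liftAlgebra A L
  haveI : IsScalarTower A (FractionRing A) L := FractionRing.isScalarTower_liftAlgebra A L
  exact exists_unit_prod (FractionRing A) γ0 θ u v hθP hθ huv huP hvP hmom c hc0 hdeg hc

end UnitHom

end Fermat.Agent.S28
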