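/-
S28, module **PolJ**: polynomials in `J = j(s^N)` (triangular arguments).
`jqNModC O N = qExpand O N (jqModC O)`, `jqModC O = q⁻¹ (1 + 744 q + ⋯)`.
-/
import Fermat.Agent.S28.Defs

set_option autoImplicit false

open ModularCurve Polynomial

namespace Fermat.Agent.S28

section Aux

variable {R : Type*} [CommRing R]

theorem polJ_algebraMap_eq_single (c : R) :
    algebraMap R (LaurentSeries R) c = HahnSeries.single 0 c := by
  have h1 : algebraMap R (PowerSeries R) c = PowerSeries.C c := by simp
  rw [HahnSeries.algebraMap_apply', h1, HahnSeries.ofPowerSeries_C]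
  rfl

theorem polJ_coeff_smul (c : R) (x : LaurentSeries R) (z : ℤ) :
    (algebraMap R (LaurentSeries R) c * x).coeff z = c * x.coeff z := by
  rw [polJ_algebraMap_eq_single, HahnSeries.coeff_single_zero_mul]

theorem polJ_coeff_aeval (x : LaurentSeries R) (a : R[X]) (z : ℤ) :
    (aeval x a).coeff z = ∑ i ∈ Finset.range (a.natDegree + 1), a.coeff i * (x ^ i).coeff z := by
  rw [aeval_eq_sum_range, HahnSeries.coeff_sum]
  refine Finset.sum_congr rfl (fun i _ => ?_)
  rw [Algebra.smul_def, polJ_coeff_smul]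

theorem polJ_coeffMap_aeval {S : Type*} [CommRing S] (f : R →+* S) (x : LaurentSeries R)
    (a : R[X]) : coeffMap f (aeval x a) = aeval (coeffMap f x) (a.map f) := by
  rw [aeval_def, aeval_def, hom_eval₂, eval₂_map]
  congr 1
  ext c
  simp only [RingHom.comp_apply, polJ_algebraMap_eq_single, coeffMap_single]

theorem polJ_coeffMap_injective {S : Type*} [CommRing S] (f : R →+* S)
    (hf : Function.Injective f) : Function.Injective (coeffMap f) := by
  intro x y h
  ext z
  apply hf
  rw [← coeffMap_coeff, h, coeffMap_coeff]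

end Aux

variable (N : ℕ) [NeZero N]

section Coeff

variable {k : Type*} [CommRing k]

theorem coeff_jqN_pow_self (i : ℕ) : (jqNModC k N ^ i).coeff (-((N : ℤ) * i)) = 1 := by
  rw [jqNModC, ← map_pow, show -((N : ℤ) * i) = (N : ℤ) * (-(i : ℤ)) by ring, qExpand_coeff_mul,
    coeff_jqModC_pow_self]

theorem coeff_jqN_pow_of_lt {i : ℕ} {z : ℤ} (hz : z < -((N : ℤ) * i)) :
    (jqNModC k N ^ i).coeff z = 0 := by
  rw [jqNModC, ← map_pow]
  by_cases hd : (N : ℤ) ∣ z
  · obtain ⟨t, rfl⟩ := hd
    rw [qExpand_coeff_mul]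
    apply coeff_jqModC_pow_of_lt
    have hN : (0 : ℤ) < N := by exact_mod_cast Nat.pos_of_ne_zero (NeZero.ne N)
    have : (N : ℤ) * t < (N : ℤ) * (-(i : ℤ)) := by linarith
    exact lt_of_mul_lt_mul_left this hN.le
  · exact qExpand_coeff_of_not_dvd N _ hd

theorem coeff_aeval_jqN (a : k[X]) (m : ℕ) (hm : a.natDegree ≤ m) :
    (aeval (jqNModC k N) a).coeff (-((N : ℤ) * m)) = a.coeff m := by
  have hN : (0 : ℤ) < N := by exact_mod_cast Nat.pos_of_ne_zero (NeZero.ne N)
  rw [polJ_coeff_aeval]
  rcases hm.lt_or_eq with hlt | heq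
  · rw [coeff_eq_zero_of_natDegree_lt hlt]
    refine Finset.sum_eq_zero (fun i hi => ?_)
    rw [Finset.mem_range] at hi
    rw [coeff_jqN_pow_of_lt N, mul_zero]
    have : (i : ℤ) < m := by exact_mod_cast (by omega : i < m)
    nlinarith
  · rw [Finset.sum_eq_single m]
    · rw [coeff_jqN_pow_self, mul_one]
    · intro i hi hne
      rw [Finset.mem_range] at hi
      rw [coeff_jqN_pow_of_lt N, mul_zero]
      have : (i : ℤ) < m := by exact_mod_cast (by omega : i < m)
      nlinarith
    · intro h
      exact absurd (Finset.mem_range.mpr (by omega)) h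

theorem coeff_aeval_jqN_of_lt (a : k[X]) {z : ℤ} (hz : z < -((N : ℤ) * a.natDegree)) :
    (aeval (jqNModC k N) a).coeff z = 0 := by
  have hN : (0 : ℤ) < N := by exact_mod_cast Nat.pos_of_ne_zero (NeZero.ne N)
  rw [polJ_coeff_aeval]
  refine Finset.sum_eq_zero (fun i hi => ?_)
  rw [Finset.mem_range] at hi
  rw [coeff_jqN_pow_of_lt N, mul_zero]
  have : (i : ℤ) ≤ a.natDegree := by exact_mod_cast (by omega : i ≤ a.natDegree)
  nlinarith

end Coeff

/-- `J` is transcendental. -/
theorem aeval_jqN_eq_zero {k : Type*} [CommRing k] [Nontrivial k] (a : k[X])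
    (h : aeval (jqNModC k N) a = 0) : a = 0 := by
  have h1 := coeff_aeval_jqN N a a.natDegree le_rfl
  rw [h, HahnSeries.coeff_zero] at h1
  exact leadingCoeff_eq_zero.mp h1.symm

/-- the order of a polynomial in `J` -/
theorem order_aeval_jqN {k : Type*} [CommRing k] [Nontrivial k] (a : k[X]) (ha : a ≠ 0) :
    (aeval (jqNModC k N) a).order = -((N : ℤ) * a.natDegree) := by
  have h1 := coeff_aeval_jqN N a a.natDegree le_rfl
  have h2 : a.coeff a.natDegree ≠ 0 := leadingCoeff_ne_zero.mpr ha
  apply le_antisymm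
  · apply HahnSeries.order_le_of_coeff_ne_zero
    rw [h1]; exact h2
  · by_contra hlt
    push Not at hlt
    have h3 := coeff_aeval_jqN_of_lt N a hlt
    rw [HahnSeries.coeff_order_eq_zero] at h3
    exact ha (aeval_jqN_eq_zero N a h3)

section Inv

/-- the inverse of `jNum` -/
noncomputable def jNumInv : PowerSeries ℤ := PowerSeries.invOfUnit jNum 1

theorem jNum_mul_jNumInv : jNum * jNumInv = 1 :=
  PowerSeries.mul_invOfUnit _ _ (by rw [constantCoeff_jNum]; rfl)

/-- `1/j` as a Laurent series -/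
noncomputable def jqInvC (O : Type*) [CommRing O] : LaurentSeries O :=
  HahnSeries.single (1 : ℤ) 1 * HahnSeries.ofPowerSeries ℤ O (jNumInv.map (Int.castRingHom O))

theorem jqModC_mul_jqInvC (O : Type*) [CommRing O] : jqModC O * jqInvC O = 1 := by
  rw [jqModC, jqInvC, mul_mul_mul_comm, HahnSeries.single_mul_single, ← map_mul, ← map_mul,
    jNum_mul_jNumInv, map_one, map_one, mul_one, mul_one]
  rfl

theorem jqInvC_pow (O : Type*) [CommRing O] (n : ℕ) :
    jqInvC O ^ n = HahnSeries.single (n : ℤ) 1 *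
      HahnSeries.ofPowerSeries ℤ O ((jNumInv.map (Int.castRingHom O)) ^ n) := by
  have h : n • (1 : ℤ) = (n : ℤ) := by simp
  rw [jqInvC, mul_pow, HahnSeries.single_pow, one_pow, h, ← map_pow]

theorem coeff_zero_jqInvC_pow (O : Type*) [CommRing O] {n : ℕ} (hn : 0 < n) :
    (jqInvC O ^ n).coeff 0 = 0 := by
  rw [jqInvC_pow, show (0 : ℤ) = (-(n : ℤ)) + (n : ℤ) by ring, HahnSeries.coeff_single_mul_add,
    one_mul]
  exact ofPowerSeries_coeff_of_neg _ (by omega)

/-- `1/j(s^N)` -/
noncomputable def jqNInvC (O : Type*) [CommRing O] : LaurentSeries O := qExpand O N (jqInvC O)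

theorem jqNModC_mul_jqNInvC (O : Type*) [CommRing O] : jqNModC O N * jqNInvC N O = 1 := by
  rw [jqNModC, jqNInvC, ← map_mul, jqModC_mul_jqInvC, map_one]

theorem coeff_zero_jqNInvC_pow (O : Type*) [CommRing O] {n : ℕ} (hn : 0 < n) :
    (jqNInvC N O ^ n).coeff 0 = 0 := by
  rw [jqNInvC, ← map_pow, show (0 : ℤ) = (N : ℤ) * 0 by ring, qExpand_coeff_mul,
    coeff_zero_jqInvC_pow O hn]

theorem coeff_zero_aeval_jqNInvC {O : Type*} [CommRing O] (a : O[X]) :
    (aeval (jqNInvC N O) a).coeff 0 = a.coeff 0 := by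
  rw [polJ_coeff_aeval, Finset.sum_eq_single 0]
  · rw [pow_zero, HahnSeries.coeff_one, if_pos rfl, mul_one]
  · intro i _ hi
    rw [coeff_zero_jqNInvC_pow N O (Nat.pos_of_ne_zero hi), mul_zero]
  · intro h
    exact absurd (Finset.mem_range.mpr (by omega)) h

theorem jqNModC_inv_eq (C : Type*) [Field C] : (jqNModC C N)⁻¹ = jqNInvC N C :=
  inv_eq_of_mul_eq_one_right (jqNModC_mul_jqNInvC N C)

end Inv

/-- `J` is a unit of `O((s))`. -/
theorem exists_jqN_inv (O : Type*) [CommRing O] :
    ∃ Ji : LaurentSeries O, jqNModC O N * Ji = 1 :=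
  ⟨jqNInvC N O, jqNModC_mul_jqNInvC N O⟩

/-- a polynomial in `J` whose expansion has coefficients in the subring `O` has coefficients in `O` -/
theorem exists_map_eq {O C : Type*} [CommRing O] [CommRing C] (f : O →+* C)
    (c : LaurentSeries O) (R : C[X]) (h : coeffMap f c = aeval (jqNModC C N) R) :
    ∃ a : O[X], a.map f = R := by
  have main : ∀ (n : ℕ) (R : C[X]) (c : LaurentSeries O), (∀ m, n ≤ m → R.coeff m = 0) →
      coeffMap f c = aeval (jqNModC C N) R → ∃ a : O[X], a.map f = R := by
    intro n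
    induction n with
    | zero =>
      intro R c hR _
      refine ⟨0, ?_⟩
      rw [Polynomial.map_zero]
      ext m
      rw [hR m (Nat.zero_le m), coeff_zero]
    | succ n ih =>
      intro R c hR h
      have hdeg : R.natDegree ≤ n :=
        natDegree_le_iff_coeff_eq_zero.mpr (fun m hm => hR m hm)
      have hl : f (c.coeff (-((N : ℤ) * n))) = R.coeff n := by
        rw [← coeffMap_coeff, h, coeff_aeval_jqN N R n hdeg]
      obtain ⟨l, hl'⟩ : ∃ l, l = c.coeff (-((N : ℤ) * n)) := ⟨_, rfl⟩
      rw [← hl'] at hl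
      obtain ⟨a, ha⟩ := ih (R - Polynomial.C (R.coeff n) * X ^ n)
        (c - aeval (jqNModC O N) (Polynomial.C l * X ^ n)) (by
          intro m hm
          rw [coeff_sub, coeff_C_mul_X_pow]
          split_ifs with hmn
          · rw [hmn, sub_self]
          · rw [hR m (by omega), sub_zero]) (by
          rw [map_sub, map_sub, h, polJ_coeffMap_aeval, coeffMap_jqNModC, Polynomial.map_mul,
            Polynomial.map_pow, map_X, map_C, hl])
      refine ⟨a + Polynomial.C l * X ^ n, ?_⟩
      rw [Polynomial.map_add, ha, Polynomial.map_mul, Polynomial.map_pow, map_X, map_C, hl]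
      ring
  exact main (R.natDegree + 1) R c
    (fun m hm => coeff_eq_zero_of_natDegree_lt (by omega)) h

theorem isPol_of_map {O C : Type*} [CommRing O] [CommRing C] (f : O →+* C)
    (hf : Function.Injective f)
    (c : LaurentSeries O) (R : C[X]) (h : coeffMap f c = aeval (jqNModC C N) R) :
    IsPol N c := by
  obtain ⟨a, ha⟩ := exists_map_eq N f c R h
  refine ⟨a, polJ_coeffMap_injective f hf ?_⟩
  rw [h, polJ_coeffMap_aeval, coeffMap_jqNModC, ha]

/-- the same for polynomials in `J⁻¹` -/
theorem exists_map_eq_inv {O C : Type*} [CommRing O] [Field C] (f : O →+* C)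
    (c : LaurentSeries O) (R : C[X]) (h : coeffMap f c = aeval (jqNModC C N)⁻¹ R) :
    ∃ a : O[X], a.map f = R := by
  rw [jqNModC_inv_eq] at h
  have main : ∀ (n : ℕ) (R : C[X]) (c : LaurentSeries O), R.natDegree < n →
      coeffMap f c = aeval (jqNInvC N C) R → ∃ a : O[X], a.map f = R := by
    intro n
    induction n with
    | zero => intro R c hR _; omega
    | succ n ih =>
      intro R c hR h
      have hl : f (c.coeff 0) = R.coeff 0 := by
        rw [← coeffMap_coeff, h, coeff_zero_aeval_jqNInvC]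
      obtain ⟨l, hl'⟩ : ∃ l, l = c.coeff 0 := ⟨_, rfl⟩
      rw [← hl'] at hl
      rcases Nat.eq_zero_or_pos R.natDegree with h0 | hpos
      · refine ⟨Polynomial.C l, ?_⟩
        rw [map_C, hl]
        exact (eq_C_of_natDegree_eq_zero h0).symm
      · obtain ⟨a, ha⟩ := ih R.divX ((c - aeval (jqNModC O N) (Polynomial.C l)) * jqNModC O N)
          (by rw [natDegree_divX_eq_natDegree_tsub_one]; omega) (by
          have e : aeval (jqNInvC N C) R = aeval (jqNInvC N C) R.divX * jqNInvC N C +
              algebraMap C (LaurentSeries C) (R.coeff 0) := by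
            conv_lhs => rw [← divX_mul_X_add R]
            rw [map_add, map_mul, aeval_X, aeval_C]
          rw [map_mul, map_sub, h, polJ_coeffMap_aeval, coeffMap_jqNModC, map_C, hl, aeval_C, e,
            add_sub_cancel_right, mul_assoc, mul_comm (jqNInvC N C), jqNModC_mul_jqNInvC,
            mul_one])
        refine ⟨a * X + Polynomial.C l, ?_⟩
        rw [Polynomial.map_add, Polynomial.map_mul, ha, map_X, map_C, hl, divX_mul_X_add]
  exact main (R.natDegree + 1) R c (by omega) h

end Fermat.Agent.S28
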