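/-
S28, module **CoreIrr**: Igusa's irreducibility from a modular unit (pure algebra).

Setting: `O` a DVR with residue field `k`, `red : O((s)) → k((s))`, `J = j(s^N)`.
`θ γ` (`γ ∈ ι`): the conjugates of `j(q^N)`; `u γ`, `v γ = (u γ)⁻¹`: the conjugates of a modular unit
which has a pole at every `γ ≠ γ0`.

Claim: `1, θ̄, …, θ̄^(n-1)` (`θ̄ = red (θ γ0)`, `n = card ι`) are linearly independent over `k[J̄]`.

Proof: `CoreAlg.exists_unit_prod_hom` applied to `k[X] → k((s))`, `X ↦ J̄`: a nontrivial relation gives a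
nonempty `S ∌ γ0` such that `∏_{γ ∈ S} ū_γ` is a unit of `k[J̄]`, of order `0`; but
`order ū_γ = order u_γ < 0` for `γ ≠ γ0`.
-/
import Fermat.Agent.S28.PolJ
import Fermat.Agent.S28.CoreAlg

set_option autoImplicit false

open ModularCurve Polynomial

namespace Fermat.Agent.S28

section Red

variable {R S : Type*} [CommRing R] [CommRing S]

theorem algebraMap_laurent_eq_single (c : R) :
    algebraMap R (LaurentSeries R) c = HahnSeries.single 0 c := by
  have h1 : algebraMap R (PowerSeries R) c = PowerSeries.C c := by simp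
  rw [HahnSeries.algebraMap_apply', h1, HahnSeries.ofPowerSeries_C]
  rfl

theorem coeffMap_aeval (f : R →+* S) (x : LaurentSeries R) (a : R[X]) :
    coeffMap f (aeval x a) = aeval (coeffMap f x) (a.map f) := by
  rw [aeval_def, aeval_def, hom_eval₂, eval₂_map]
  congr 1
  ext c
  simp only [RingHom.comp_apply, algebraMap_laurent_eq_single, coeffMap_single]

theorem IsPol.coeffMap_mem (f : R →+* S) (N : ℕ) [NeZero N] {c : LaurentSeries R}
    (h : IsPol N c) : coeffMap f c ∈ (aeval (jqNModC S N) : S[X] →ₐ[S] _).toRingHom.range := by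
  obtain ⟨a, rfl⟩ := h
  exact ⟨a.map f, by rw [coeffMap_aeval, coeffMap_jqNModC]; rfl⟩

theorem coeffMap_prod_coeff (f : R →+* S) {ι : Type*} [Fintype ι] (θ : ι → LaurentSeries R)
    (i : ℕ) : (∏ γ, (X - C (coeffMap f (θ γ)))).coeff i =
      coeffMap f ((∏ γ, (X - C (θ γ))).coeff i) := by
  rw [← coeff_map, Polynomial.map_prod]
  simp only [Polynomial.map_sub, map_X, map_C]

theorem order_le_order_coeffMap (f : R →+* S) {x : LaurentSeries R} (h : coeffMap f x ≠ 0) :
    x.order ≤ (coeffMap f x).order := by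
  apply HahnSeries.order_le_of_coeff_ne_zero
  intro h0
  apply h
  rw [← HahnSeries.coeff_order_eq_zero, coeffMap_coeff, h0, map_zero]

end Red

theorem order_prod_laurent {k : Type*} [Field k] {ι : Type*} (S : Finset ι)
    (u : ι → LaurentSeries k) (hu : ∀ γ ∈ S, u γ ≠ 0) :
    (∏ γ ∈ S, u γ).order = ∑ γ ∈ S, (u γ).order := by
  classical
  induction S using Finset.induction_on with
  | empty => simp
  | insert a S ha ih =>
    rw [Finset.prod_insert ha, Finset.sum_insert ha,
      HahnSeries.order_mul (hu a (Finset.mem_insert_self a S))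
        (Finset.prod_ne_zero_iff.mpr (fun γ hγ => hu γ (Finset.mem_insert_of_mem hγ))),
      ih (fun γ hγ => hu γ (Finset.mem_insert_of_mem hγ))]

theorem linearIndependent_of_unit {O : Type} [CommRing O] [IsDomain O] [IsDiscreteValuationRing O]
    {ι : Type} [Fintype ι] [DecidableEq ι] (N : ℕ) [NeZero N] (γ0 : ι)
    (θ u v : ι → LaurentSeries O)
    (hθP : ∀ i, IsPol N ((∏ γ, (X - C (θ γ))).coeff i))
    (hθd : ∀ γ γ', coeffMap (IsLocalRing.residue O) (θ γ) = coeffMap (IsLocalRing.residue O) (θ γ') →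
      γ = γ')
    (huv : ∀ γ, u γ * v γ = 1)
    (hord : ∀ γ, γ ≠ γ0 → (u γ).order < 0)
    (huP : ∀ i, IsPol N ((∏ γ, (X - C (u γ))).coeff i))
    (hvP : ∀ i, IsPol N ((∏ γ, (X - C (v γ))).coeff i))
    (hmom : ∀ r : ℕ, IsPol N (∑ γ, u γ * θ γ ^ r))
    (c : ℕ → (IsLocalRing.ResidueField O)[X])
    (hc : ∑ r ∈ Finset.range (Fintype.card ι),
      aeval (jqNModC (IsLocalRing.ResidueField O) N) (c r) *
        coeffMap (IsLocalRing.residue O) (θ γ0) ^ r = 0) :
    ∀ r < Fintype.card ι, c r = 0 := by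
  obtain ⟨red, hred⟩ : ∃ red, red = coeffMap (IsLocalRing.residue O) := ⟨_, rfl⟩
  rw [← hred] at hc
  simp only [← hred] at hθd
  obtain ⟨φ, hφ⟩ : ∃ φ : (IsLocalRing.ResidueField O)[X] →+* LaurentSeries (IsLocalRing.ResidueField O),
    φ = (aeval (jqNModC (IsLocalRing.ResidueField O) N) :
      (IsLocalRing.ResidueField O)[X] →ₐ[IsLocalRing.ResidueField O] _).toRingHom := ⟨_, rfl⟩
  have hφapp : ∀ a, φ a = aeval (jqNModC (IsLocalRing.ResidueField O) N) a := by
    intro a; rw [hφ]; rfl
  have hφinj : Function.Injective φ := by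
    rw [injective_iff_map_eq_zero]
    intro a ha
    exact aeval_jqN_eq_zero N a (by rw [← hφapp]; exact ha)
  by_contra hcon
  push Not at hcon
  obtain ⟨r0, hr0, hcr0⟩ := hcon
  -- the polynomial
  obtain ⟨cp, hcp⟩ : ∃ cp : (IsLocalRing.ResidueField O)[X][X],
    cp = ∑ r ∈ Finset.range (Fintype.card ι), C (c r) * X ^ r := ⟨_, rfl⟩
  have hcoeff : ∀ m, cp.coeff m = if m < Fintype.card ι then c m else 0 := by
    intro m
    rw [hcp, finsetSum_coeff]
    simp only [coeff_C_mul_X_pow]
    rw [Finset.sum_ite_eq]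
    simp only [Finset.mem_range]
  have hcp0 : cp ≠ 0 := by
    intro h0
    apply hcr0
    have := hcoeff r0
    rw [h0, coeff_zero, if_pos hr0] at this
    exact this.symm
  have hcpdeg : cp.natDegree < Fintype.card ι := by
    rw [natDegree_lt_iff_degree_lt hcp0, degree_lt_iff_coeff_zero]
    intro m hm
    rw [hcoeff, if_neg (by omega)]
  have hcpev : eval₂ φ (red (θ γ0)) cp = 0 := by
    rw [hcp, eval₂_finsetSum, ← hc]
    refine Finset.sum_congr rfl (fun r _ => ?_)
    rw [eval₂_mul, eval₂_C, eval₂_pow, eval₂_X, hφapp]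
  have huv' : ∀ γ, red (u γ) * red (v γ) = 1 := by
    intro γ; rw [← map_mul, huv, map_one]
  obtain ⟨S, w, hSne, hγ0, hw⟩ := exists_unit_prod_hom φ hφinj γ0 (fun γ => red (θ γ))
    (fun γ => red (u γ)) (fun γ => red (v γ))
    (fun i => by rw [hred, coeffMap_prod_coeff, hφ]; exact (hθP i).coeffMap_mem _ N)
    (fun γ γ' h => hθd γ γ' h) huv'
    (fun i => by rw [hred, coeffMap_prod_coeff, hφ]; exact (huP i).coeffMap_mem _ N)
    (fun i => by rw [hred, coeffMap_prod_coeff, hφ]; exact (hvP i).coeffMap_mem _ N)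
    (fun r => by
      have := (hmom r).coeffMap_mem (IsLocalRing.residue O) N
      rw [← hred, ← hφ, map_sum] at this
      simpa only [map_mul, map_pow] using this)
    cp hcp0 hcpdeg hcpev
  -- orders
  have hu0 : ∀ γ, red (u γ) ≠ 0 := fun γ h => by
    have := huv' γ; rw [h, zero_mul] at this; exact zero_ne_one this
  have hv0 : ∀ γ, red (v γ) ≠ 0 := fun γ h => by
    have := huv' γ; rw [h, mul_zero] at this; exact zero_ne_one this
  have hu0' : ∀ γ, u γ ≠ 0 := fun γ h => hu0 γ (by rw [h, map_zero])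
  have hv0' : ∀ γ, v γ ≠ 0 := fun γ h => hv0 γ (by rw [h, map_zero])
  have hordeq : ∀ γ, (red (u γ)).order ≤ (u γ).order := by
    intro γ
    have h1 : (u γ).order + (v γ).order = 0 := by
      rw [← HahnSeries.order_mul (hu0' γ) (hv0' γ), huv, HahnSeries.order_one]
    have h2 : (red (u γ)).order + (red (v γ)).order = 0 := by
      rw [← HahnSeries.order_mul (hu0 γ) (hv0 γ), huv', HahnSeries.order_one]
    have h3 : (v γ).order ≤ (red (v γ)).order := by
      rw [hred]; exact order_le_order_coeffMap _ (by rw [← hred]; exact hv0 γ)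
    omega
  have hW : (∏ γ ∈ S, red (u γ)).order < 0 := by
    rw [order_prod_laurent S _ (fun γ _ => hu0 γ)]
    refine Finset.sum_neg (fun γ hγ => lt_of_le_of_lt (hordeq γ) (hord γ ?_)) hSne
    rintro rfl
    exact hγ0 hγ
  rw [← hw, hφapp, order_aeval_jqN N _ w.ne_zero, natDegree_eq_zero_of_isUnit w.isUnit] at hW
  simp at hW

end Fermat.Agent.S28
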