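/-
S28, module **CoreK**: the `q`-expansion principle for "admissible families" (pure algebra).

Setting as in `CoreIrr`.  A family `ξ γ ∈ O((s))` is admissible if all moments `∑_γ ξ_γ θ_γ^r` are
rational functions of `J` (`IsRat`).  Claim: if `c ≠ 0` divides (all coefficients of) `ξ_{γ0}` then it
divides all `ξ_γ`.

Proof.  `c = unit * ϖ^m`; induction on `m`; so it is enough to treat `c = ϖ` and to show that
`(ξ_γ/ϖ)` is again admissible.
(a) `IsRat` normalisation: if `x * b(J) = a(J)`, `b ≠ 0`, we may assume `ϖ ∤ b` (if `ϖ ∣ b` then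
`red (a(J)) = ā(J̄) = 0`, so `ā = 0` by `PolJ.aeval_jqN_eq_zero`, `ϖ ∣ a`; cancel `ϖ`; induct on the
`ϖ`-adic valuation of the content of `b`).  Same argument: if `x = ϖ x'` is `IsRat` then `x'` is.
`IsRat` is stable under sums and under multiplication by `IsPol`.
(b) Lagrange: `ξ_γ ∏_{γ'≠γ} (θ_γ - θ_γ') = ∑_{r<n} c_r θ_γ^r` with `c_r = ∑_{i>r} p_i M_{i-r-1}`,
`P = ∏ (X - θ_γ) = ∑ p_i X^i`, `M_m = ∑_γ ξ_γ θ_γ^m`; so `c_r` is `IsRat`.  Take a common denominator
`b`, `ϖ ∤ b`: `c_r b(J) = a_r(J)`.  Reduce at `γ = γ0`: `0 = ∑ ā_r(J̄) θ̄^r`, so `ā_r = 0` by `hind`, so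
`red c_r = 0` (as `b̄(J̄) ≠ 0`), so `red ξ_γ * ∏ (θ̄_γ - θ̄_γ') = 0`, and `red ξ_γ = 0` by `hθd`.
-/
import Fermat.Agent.S28.PolJ

set_option autoImplicit false
set_option linter.unusedSectionVars false

open ModularCurve Polynomial

namespace Fermat.Agent.S28

section CoreK

variable {O : Type} [CommRing O] [IsDomain O] [IsDiscreteValuationRing O] (N : ℕ) [NeZero N]

theorem coreK_algebraMap (A : Type*) [CommRing A] (c : A) :
    algebraMap A (LaurentSeries A) c = HahnSeries.C c := by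
  have h1 : algebraMap A (PowerSeries A) c = PowerSeries.C c := by
    simp
  rw [HahnSeries.algebraMap_apply', h1, HahnSeries.ofPowerSeries_C]

theorem coreK_res_eq_zero_iff {ϖ : O} (hϖ : Irreducible ϖ) (a : O) :
    IsLocalRing.residue O a = 0 ↔ ϖ ∣ a := by
  rw [IsLocalRing.residue_eq_zero_iff, (IsDiscreteValuationRing.irreducible_iff_uniformizer ϖ).mp hϖ,
    Ideal.mem_span_singleton]

/-- division of a series by a constant -/
theorem coreK_exists_eq_C_mul {A : Type*} [CommRing A] [IsDomain A] (c : A) (hc : c ≠ 0)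
    (ξ : LaurentSeries A) (h : ∀ n, c ∣ ξ.coeff n) : ∃ η : LaurentSeries A, ξ = HahnSeries.C c * η := by
  choose e he using h
  refine ⟨⟨e, ξ.isPWO_support.mono ?_⟩, ?_⟩
  · intro n hn
    simp only [Function.mem_support, ne_eq] at hn
    rw [HahnSeries.mem_support, he]
    exact mul_ne_zero hc hn
  · ext n
    rw [HahnSeries.C_mul_eq_smul, HahnSeries.coeff_smul, he, smul_eq_mul]

theorem coreK_coeff_C_mul {A : Type*} [CommRing A] (c : A) (η : LaurentSeries A) (n : ℤ) :
    (HahnSeries.C c * η).coeff n = c * η.coeff n := by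
  rw [HahnSeries.C_mul_eq_smul, HahnSeries.coeff_smul, smul_eq_mul]

theorem coreK_red_eq_zero_iff {ϖ : O} (hϖ : Irreducible ϖ) (x : LaurentSeries O) :
    coeffMap (IsLocalRing.residue O) x = 0 ↔ ∃ y, x = HahnSeries.C ϖ * y := by
  constructor
  · intro h
    refine coreK_exists_eq_C_mul ϖ hϖ.ne_zero x fun n => ?_
    rw [← coreK_res_eq_zero_iff hϖ, ← coeffMap_coeff, h, HahnSeries.coeff_zero]
  · rintro ⟨y, rfl⟩
    ext n
    rw [coeffMap_coeff, coreK_coeff_C_mul, HahnSeries.coeff_zero, coreK_res_eq_zero_iff hϖ]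
    exact dvd_mul_right _ _

theorem coreK_red_aeval (a : O[X]) :
    coeffMap (IsLocalRing.residue O) (aeval (jqNModC O N) a) =
      aeval (jqNModC (IsLocalRing.ResidueField O) N) (a.map (IsLocalRing.residue O)) := by
  induction a using Polynomial.induction_on' with
  | add p r hp hr => simp only [map_add, Polynomial.map_add, hp, hr]
  | monomial n a =>
    simp only [Polynomial.map_monomial, aeval_monomial, map_mul, map_pow, coeffMap_jqNModC]
    congr 1
    rw [coreK_algebraMap, coreK_algebraMap, HahnSeries.C_apply, HahnSeries.C_apply, coeffMap_single]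

theorem coreK_map_eq_zero {ϖ : O} (hϖ : Irreducible ϖ) (a : O[X])
    (h : a.map (IsLocalRing.residue O) = 0) : ∃ a' : O[X], a = C ϖ * a' := by
  rw [← dvd_def, Polynomial.C_dvd_iff_dvd_coeff]
  intro i
  rw [← coreK_res_eq_zero_iff hϖ, ← Polynomial.coeff_map, h, Polynomial.coeff_zero]

theorem coreK_aeval_C_mul (c : O) (a : O[X]) :
    aeval (jqNModC O N) (C c * a) = HahnSeries.C c * aeval (jqNModC O N) a := by
  rw [map_mul, aeval_C, coreK_algebraMap]

/-- if `ϖ` divides `a(J)` then `ϖ` divides `a` -/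
theorem coreK_dvd_of_red {ϖ : O} (hϖ : Irreducible ϖ) (a : O[X]) (y : LaurentSeries O)
    (h : aeval (jqNModC O N) a = HahnSeries.C ϖ * y) : ∃ a' : O[X], a = C ϖ * a' := by
  apply coreK_map_eq_zero hϖ
  apply aeval_jqN_eq_zero N
  rw [← coreK_red_aeval, coreK_red_eq_zero_iff hϖ]
  exact ⟨y, h⟩

theorem coreK_C_ne_zero {ϖ : O} (hϖ : Irreducible ϖ) : (HahnSeries.C ϖ : LaurentSeries O) ≠ 0 :=
  HahnSeries.C_ne_zero hϖ.ne_zero

/-- `IsRat` descends along division by `ϖ` -/
theorem coreK_isRat_div {ϖ : O} (hϖ : Irreducible ϖ) (x : LaurentSeries O)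
    (h : IsRat N (HahnSeries.C ϖ * x)) : IsRat N x := by
  obtain ⟨a, b, hb, hab⟩ := h
  obtain ⟨a', rfl⟩ := coreK_dvd_of_red N hϖ a (x * aeval (jqNModC O N) b) (by rw [← hab, mul_assoc])
  refine ⟨a', b, hb, ?_⟩
  rw [coreK_aeval_C_mul, mul_assoc] at hab
  exact mul_left_cancel₀ (coreK_C_ne_zero hϖ) hab

theorem coreK_isRat_zero : IsRat N (0 : LaurentSeries O) := ⟨0, 1, one_ne_zero, by simp⟩

theorem coreK_isRat_add {x y : LaurentSeries O} (hx : IsRat N x) (hy : IsRat N y) :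
    IsRat N (x + y) := by
  obtain ⟨a, b, hb, hab⟩ := hx
  obtain ⟨a', b', hb', hab'⟩ := hy
  refine ⟨a * b' + a' * b, b * b', mul_ne_zero hb hb', ?_⟩
  simp only [map_add, map_mul, ← hab, ← hab']
  ring

theorem coreK_isRat_sum {α : Type*} (s : Finset α) (f : α → LaurentSeries O)
    (h : ∀ i ∈ s, IsRat N (f i)) : IsRat N (∑ i ∈ s, f i) := by
  classical
  induction s using Finset.induction_on with
  | empty => simpa using coreK_isRat_zero N
  | insert a s ha ih =>
    rw [Finset.sum_insert ha]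
    exact coreK_isRat_add N (h a (Finset.mem_insert_self _ _))
      (ih fun i hi => h i (Finset.mem_insert_of_mem hi))

theorem coreK_isRat_mul {p x : LaurentSeries O} (hp : IsPol N p) (hx : IsRat N x) :
    IsRat N (p * x) := by
  obtain ⟨c, rfl⟩ := hp
  obtain ⟨a, b, hb, hab⟩ := hx
  refine ⟨c * a, b, hb, ?_⟩
  rw [map_mul, ← hab]
  ring


/-- extraction of the `ϖ`-content -/
theorem coreK_content {ϖ : O} (hϖ : Irreducible ϖ) : ∀ (n : ℕ) (b : O[X]) (i : ℕ) (u : Oˣ),
    b.coeff i = u * ϖ ^ n →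
    ∃ (m : ℕ) (b' : O[X]), b = C ϖ ^ m * b' ∧ b'.map (IsLocalRing.residue O) ≠ 0 := by
  intro n
  induction n with
  | zero =>
    intro b i u hu
    refine ⟨0, b, by simp, fun h => ?_⟩
    have h1 := congrArg (fun P => Polynomial.coeff P i) h
    simp only [Polynomial.coeff_map, Polynomial.coeff_zero, hu, pow_zero, mul_one] at h1
    rw [coreK_res_eq_zero_iff hϖ] at h1
    exact hϖ.not_isUnit (isUnit_of_dvd_unit h1 u.isUnit)
  | succ n ih =>
    intro b i u hu
    by_cases h : b.map (IsLocalRing.residue O) = 0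
    · obtain ⟨b', rfl⟩ := coreK_map_eq_zero hϖ b h
      rw [Polynomial.coeff_C_mul, pow_succ, ← mul_assoc, mul_comm] at hu
      have hu' := mul_right_cancel₀ hϖ.ne_zero hu
      obtain ⟨m, b'', hb'', hne⟩ := ih b' i u hu'
      exact ⟨m + 1, b'', by rw [hb'', pow_succ]; ring, hne⟩
    · exact ⟨0, b, by simp, h⟩

/-- normalisation of the denominator -/
theorem coreK_isRat_norm {ϖ : O} (hϖ : Irreducible ϖ) (x : LaurentSeries O) (h : IsRat N x) :
    ∃ a b : O[X], b.map (IsLocalRing.residue O) ≠ 0 ∧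
      x * aeval (jqNModC O N) b = aeval (jqNModC O N) a := by
  obtain ⟨a, b, hb, hab⟩ := h
  obtain ⟨i, hi⟩ : ∃ i, b.coeff i ≠ 0 := by
    by_contra hcon
    push Not at hcon
    exact hb (Polynomial.ext (by simpa using hcon))
  obtain ⟨n, u, hu⟩ := IsDiscreteValuationRing.eq_unit_mul_pow_irreducible hi hϖ
  obtain ⟨m, b', rfl, hb'⟩ := coreK_content hϖ n b i u hu
  clear hu hi hb
  induction m generalizing a with
  | zero => exact ⟨a, b', hb', by simpa using hab⟩
  | succ m ih =>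
    rw [pow_succ, mul_comm (C ϖ ^ m), mul_assoc, coreK_aeval_C_mul] at hab
    obtain ⟨a', rfl⟩ := coreK_dvd_of_red N hϖ a (x * aeval (jqNModC O N) (C ϖ ^ m * b'))
      (by rw [← hab]; ring)
    refine ih a' ?_
    rw [coreK_aeval_C_mul] at hab
    refine mul_left_cancel₀ (coreK_C_ne_zero hϖ) ?_
    rw [← hab]
    ring


section Lagrange

variable {A : Type*} [CommRing A] [Nontrivial A] {ι : Type} [Fintype ι] [DecidableEq ι]

/-- `∏_{γ' ≠ γ} (X - θ_γ')` -/
noncomputable def coreKPg (θ : ι → A) (γ : ι) : A[X] := ∏ γ' ∈ Finset.univ.erase γ, (X - C (θ γ'))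

theorem coreKPg_mul (θ : ι → A) (γ : ι) :
    (X - C (θ γ)) * coreKPg θ γ = ∏ γ', (X - C (θ γ')) :=
  Finset.mul_prod_erase _ _ (Finset.mem_univ γ)

theorem coreKPg_coeff (θ : ι → A) (γ : ι) (i : ℕ) :
    (coreKPg θ γ).coeff i = (∏ γ', (X - C (θ γ'))).coeff (i + 1) + θ γ * (coreKPg θ γ).coeff (i + 1) := by
  rw [← coreKPg_mul θ γ, sub_mul, Polynomial.coeff_sub, Polynomial.coeff_X_mul, Polynomial.coeff_C_mul]
  ring

theorem coreKPg_coeff_eq_zero (θ : ι → A) (γ : ι) (i : ℕ) (hi : Fintype.card ι ≤ i) :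
    (coreKPg θ γ).coeff i = 0 := by
  apply Polynomial.coeff_eq_zero_of_natDegree_lt
  rw [coreKPg, Polynomial.natDegree_finsetProd_X_sub_C_eq_card, Finset.card_erase_of_mem (Finset.mem_univ γ),
    Finset.card_univ]
  have : 0 < Fintype.card ι := Fintype.card_pos_iff.mpr ⟨γ⟩
  omega

theorem coreKPg_eval_self (θ : ι → A) (γ : ι) :
    (coreKPg θ γ).eval (θ γ) = ∏ γ' ∈ Finset.univ.erase γ, (θ γ - θ γ') := by
  rw [coreKPg, Polynomial.eval_prod]
  simp

theorem coreKPg_eval_ne (θ : ι → A) {γ γ' : ι} (h : γ ≠ γ') : (coreKPg θ γ').eval (θ γ) = 0 := by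
  rw [coreKPg, Polynomial.eval_prod]
  exact Finset.prod_eq_zero (Finset.mem_erase.mpr ⟨h, Finset.mem_univ γ⟩) (by simp)

/-- the Lagrange interpolation polynomial -/
noncomputable def coreKL (θ ξ : ι → A) : A[X] := ∑ γ, C (ξ γ) * coreKPg θ γ

theorem coreKL_coeff (θ ξ : ι → A) (r : ℕ) :
    (coreKL θ ξ).coeff r = ∑ γ, ξ γ * (coreKPg θ γ).coeff r := by
  rw [coreKL, Polynomial.finsetSum_coeff]
  simp

theorem coreKL_eval (θ ξ : ι → A) (γ : ι) :
    (coreKL θ ξ).eval (θ γ) = ξ γ * ∏ γ' ∈ Finset.univ.erase γ, (θ γ - θ γ') := by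
  rw [coreKL, Polynomial.eval_finsetSum, Finset.sum_eq_single γ]
  · rw [Polynomial.eval_mul, Polynomial.eval_C, coreKPg_eval_self]
  · intro γ' _ h
    rw [Polynomial.eval_mul, coreKPg_eval_ne θ h.symm, mul_zero]
  · intro h
    exact absurd (Finset.mem_univ γ) h

theorem coreKL_eval_eq_sum (θ ξ : ι → A) (γ0 : ι) (x : A) :
    (coreKL θ ξ).eval x = ∑ r ∈ Finset.range (Fintype.card ι), (coreKL θ ξ).coeff r * x ^ r := by
  apply Polynomial.eval_eq_sum_range'
  have hpos : 0 < Fintype.card ι := Fintype.card_pos_iff.mpr ⟨γ0⟩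
  have : (coreKL θ ξ).natDegree ≤ Fintype.card ι - 1 := by
    rw [Polynomial.natDegree_le_iff_coeff_eq_zero]
    intro i hi
    rw [coreKL_coeff]
    refine Finset.sum_eq_zero fun γ _ => ?_
    rw [coreKPg_coeff_eq_zero θ γ i (by omega), mul_zero]
  omega

end Lagrange

variable {ι : Type} [Fintype ι] [DecidableEq ι]

theorem coreK_isRat_coeff (θ ξ : ι → LaurentSeries O)
    (hθP : ∀ i, IsPol N ((∏ γ, (X - C (θ γ))).coeff i))
    (hξ : ∀ r : ℕ, IsRat N (∑ γ, ξ γ * θ γ ^ r)) :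
    ∀ (d i : ℕ), Fintype.card ι ≤ i + d → ∀ e : ℕ,
      IsRat N (∑ γ, ξ γ * θ γ ^ e * (coreKPg θ γ).coeff i) := by
  intro d
  induction d with
  | zero =>
    intro i hi e
    have : ∑ γ, ξ γ * θ γ ^ e * (coreKPg θ γ).coeff i = 0 :=
      Finset.sum_eq_zero fun γ _ => by rw [coreKPg_coeff_eq_zero θ γ i (by omega), mul_zero]
    rw [this]
    exact coreK_isRat_zero N
  | succ d ih =>
    intro i hi e
    have h1 : ∑ γ, ξ γ * θ γ ^ e * (coreKPg θ γ).coeff i =
        (∏ γ', (X - C (θ γ'))).coeff (i + 1) * (∑ γ, ξ γ * θ γ ^ e) +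
          ∑ γ, ξ γ * θ γ ^ (e + 1) * (coreKPg θ γ).coeff (i + 1) := by
      rw [Finset.mul_sum, ← Finset.sum_add_distrib]
      refine Finset.sum_congr rfl fun γ _ => ?_
      rw [coreKPg_coeff θ γ i]
      ring
    rw [h1]
    exact coreK_isRat_add N (coreK_isRat_mul N (hθP _) (hξ e)) (ih (i + 1) (by omega) (e + 1))

theorem coreK_isRat_L (θ ξ : ι → LaurentSeries O)
    (hθP : ∀ i, IsPol N ((∏ γ, (X - C (θ γ))).coeff i))
    (hξ : ∀ r : ℕ, IsRat N (∑ γ, ξ γ * θ γ ^ r)) (r : ℕ) : IsRat N ((coreKL θ ξ).coeff r) := by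
  rw [coreKL_coeff]
  have := coreK_isRat_coeff N θ ξ hθP hξ (Fintype.card ι) r (by omega) 0
  simpa using this


/-- the case `c = ϖ` -/
theorem coreK_step {ϖ : O} (hϖ : Irreducible ϖ) (γ0 : ι) (θ : ι → LaurentSeries O)
    (hθP : ∀ i, IsPol N ((∏ γ, (X - C (θ γ))).coeff i))
    (hθd : ∀ γ γ', coeffMap (IsLocalRing.residue O) (θ γ) = coeffMap (IsLocalRing.residue O) (θ γ') →
      γ = γ')
    (hind : ∀ c : ℕ → (IsLocalRing.ResidueField O)[X],
      ∑ r ∈ Finset.range (Fintype.card ι),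
        aeval (jqNModC (IsLocalRing.ResidueField O) N) (c r) *
          coeffMap (IsLocalRing.residue O) (θ γ0) ^ r = 0 →
      ∀ r < Fintype.card ι, c r = 0)
    (ξ : ι → LaurentSeries O) (hξ : ∀ r : ℕ, IsRat N (∑ γ, ξ γ * θ γ ^ r))
    (h0 : coeffMap (IsLocalRing.residue O) (ξ γ0) = 0) (γ : ι) :
    coeffMap (IsLocalRing.residue O) (ξ γ) = 0 := by
  set red := coeffMap (IsLocalRing.residue O) with hred
  set Jb := jqNModC (IsLocalRing.ResidueField O) N with hJb
  set n := Fintype.card ι with hn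
  have hnorm := fun r => coreK_isRat_norm N hϖ _ (coreK_isRat_L N θ ξ hθP hξ r)
  choose a b hb hab using hnorm
  -- reduced relations
  have hab' : ∀ r, red ((coreKL θ ξ).coeff r) * aeval Jb ((b r).map (IsLocalRing.residue O)) =
      aeval Jb ((a r).map (IsLocalRing.residue O)) := by
    intro r
    rw [← coreK_red_aeval, ← coreK_red_aeval, ← map_mul, hab]
  have hrel : ∀ γ', red (ξ γ') * ∏ γ'' ∈ Finset.univ.erase γ', (red (θ γ') - red (θ γ'')) =
      ∑ r ∈ Finset.range n, red ((coreKL θ ξ).coeff r) * red (θ γ') ^ r := by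
    intro γ'
    have h1 := congrArg red ((coreKL_eval θ ξ γ').symm.trans (coreKL_eval_eq_sum θ ξ γ0 (θ γ')))
    simpa only [map_mul, map_prod, map_sub, map_sum, map_pow] using h1
  -- the coefficients vanish
  have hzero : ∀ r < n, red ((coreKL θ ξ).coeff r) = 0 := by
    let cb : ℕ → (IsLocalRing.ResidueField O)[X] := fun r =>
      (a r).map (IsLocalRing.residue O) *
        ∏ r' ∈ (Finset.range n).erase r, (b r').map (IsLocalRing.residue O)
    have hcb : ∀ r ∈ Finset.range n, aeval Jb (cb r) = red ((coreKL θ ξ).coeff r) *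
        aeval Jb (∏ r' ∈ Finset.range n, (b r').map (IsLocalRing.residue O)) := by
      intro r hr
      rw [← Finset.mul_prod_erase _ _ hr, map_mul, map_mul, ← hab', mul_assoc]
    have hsum : ∑ r ∈ Finset.range n, aeval Jb (cb r) * red (θ γ0) ^ r = 0 := by
      have h1 := hrel γ0
      rw [h0, zero_mul] at h1
      calc ∑ r ∈ Finset.range n, aeval Jb (cb r) * red (θ γ0) ^ r
          = aeval Jb (∏ r' ∈ Finset.range n, (b r').map (IsLocalRing.residue O)) *
            ∑ r ∈ Finset.range n, red ((coreKL θ ξ).coeff r) * red (θ γ0) ^ r := by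
              rw [Finset.mul_sum]
              refine Finset.sum_congr rfl fun r hr => ?_
              rw [hcb r hr]
              ring
        _ = 0 := by rw [← h1, mul_zero]
    intro r hr
    have h2 := hind cb hsum r hr
    have h3 : (a r).map (IsLocalRing.residue O) = 0 := by
      rcases mul_eq_zero.mp h2 with h | h
      · exact h
      · exact absurd h (Finset.prod_ne_zero_iff.mpr fun r' _ => hb r')
    have h4 := hab' r
    rw [h3, map_zero] at h4
    rcases mul_eq_zero.mp h4 with h | h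
    · exact h
    · exact absurd (aeval_jqN_eq_zero N _ h) (hb r)
  have h5 := hrel γ
  rw [Finset.sum_eq_zero (fun r hr => by rw [hzero r (Finset.mem_range.mp hr), zero_mul])] at h5
  rcases mul_eq_zero.mp h5 with h | h
  · exact h
  · exfalso
    rw [Finset.prod_eq_zero_iff] at h
    obtain ⟨γ'', hγ'', h6⟩ := h
    exact (Finset.mem_erase.mp hγ'').1 (hθd _ _ (sub_eq_zero.mp h6)).symm

end CoreK

theorem dvd_of_dvd {O : Type} [CommRing O] [IsDomain O] [IsDiscreteValuationRing O]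
    {ι : Type} [Fintype ι] [DecidableEq ι] (N : ℕ) [NeZero N] (γ0 : ι)
    (θ : ι → LaurentSeries O)
    (hθP : ∀ i, IsPol N ((∏ γ, (X - C (θ γ))).coeff i))
    (hθd : ∀ γ γ', coeffMap (IsLocalRing.residue O) (θ γ) = coeffMap (IsLocalRing.residue O) (θ γ') →
      γ = γ')
    (hind : ∀ c : ℕ → (IsLocalRing.ResidueField O)[X],
      ∑ r ∈ Finset.range (Fintype.card ι),
        aeval (jqNModC (IsLocalRing.ResidueField O) N) (c r) *
          coeffMap (IsLocalRing.residue O) (θ γ0) ^ r = 0 →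
      ∀ r < Fintype.card ι, c r = 0)
    (ξ : ι → LaurentSeries O) (hξ : ∀ r : ℕ, IsRat N (∑ γ, ξ γ * θ γ ^ r))
    (c : O) (hc : c ≠ 0) (h0 : ∀ n, c ∣ (ξ γ0).coeff n) :
    ∀ γ n, c ∣ (ξ γ).coeff n := by
  obtain ⟨ϖ, hϖ⟩ := IsDiscreteValuationRing.exists_irreducible O
  obtain ⟨m, hm⟩ := IsDiscreteValuationRing.associated_pow_irreducible hc hϖ
  have key : ∀ (m : ℕ) (ξ : ι → LaurentSeries O), (∀ r : ℕ, IsRat N (∑ γ, ξ γ * θ γ ^ r)) →
      (∀ n, ϖ ^ m ∣ (ξ γ0).coeff n) → ∀ γ n, ϖ ^ m ∣ (ξ γ).coeff n := by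
    intro m
    induction m with
    | zero => intro ξ _ _ γ n; simp
    | succ m ih =>
      intro ξ hξ h0
      have h1 : coeffMap (IsLocalRing.residue O) (ξ γ0) = 0 := by
        rw [coreK_red_eq_zero_iff hϖ]
        exact coreK_exists_eq_C_mul ϖ hϖ.ne_zero _ fun n => (dvd_pow_self ϖ (Nat.succ_ne_zero m)).trans (h0 n)
      have h2 := fun γ => (coreK_red_eq_zero_iff hϖ _).mp (coreK_step N hϖ γ0 θ hθP hθd hind ξ hξ h1 γ)
      choose η hη using h2
      have hηadm : ∀ r : ℕ, IsRat N (∑ γ, η γ * θ γ ^ r) := by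
        intro r
        apply coreK_isRat_div N hϖ
        rw [Finset.mul_sum]
        convert hξ r using 2 with γ
        rw [hη γ, mul_assoc]
      have hη0 : ∀ n, ϖ ^ m ∣ (η γ0).coeff n := by
        intro n
        have := h0 n
        rw [hη γ0, coreK_coeff_C_mul, pow_succ, mul_comm] at this
        exact (mul_dvd_mul_iff_left hϖ.ne_zero).mp this
      intro γ n
      rw [hη γ, coreK_coeff_C_mul, pow_succ, mul_comm]
      exact mul_dvd_mul_left ϖ (ih η hηadm hη0 γ n)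
  intro γ n
  exact hm.dvd.trans (key m ξ hξ (fun n => hm.symm.dvd.trans (h0 n)) γ n)

end Fermat.Agent.S28
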