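/-
S28, module **Arith**: two Möbius sums.
-/
import Mathlib

set_option autoImplicit false

namespace Fermat.Agent.S28

open ArithmeticFunction

theorem sum_moebius_mul_self (N : ℕ) (hN : 0 < N) :
    ∑ e ∈ N.divisors, (moebius (N / e) : ℤ) * (e : ℤ) = (N.totient : ℤ) := by
  have h := (sum_eq_iff_sum_mul_moebius_eq (R := ℤ) (f := fun n => (n.totient : ℤ))
    (g := fun n => (n : ℤ))).mp (by
      intro n _
      have := Nat.sum_totient n
      exact_mod_cast this) N hN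
  simp only [Int.cast_id] at h
  rw [← h, Nat.sum_divisorsAntidiagonal' (f := fun x y => (moebius x : ℤ) * (y : ℤ))]

/-- Jordan's totient `J₂` -/
def jordanTwo (t : ℕ) : ℤ := ∑ x ∈ t.divisorsAntidiagonal, (moebius x.1 : ℤ) * (x.2 : ℤ) ^ 2

theorem sum_jordanTwo (n : ℕ) (hn : 0 < n) : ∑ t ∈ n.divisors, jordanTwo t = (n : ℤ) ^ 2 :=
  (sum_eq_iff_sum_mul_moebius_eq (R := ℤ) (f := jordanTwo)
    (g := fun n => (n : ℤ) ^ 2)).mpr (fun _ _ => by simp only [Int.cast_id]; rfl) n hn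

theorem sum_moebius_mul_gcd_sq (N : ℕ) (hN : 0 < N) (c : ℤ) (hc : ¬ (N : ℤ) ∣ c) :
    ∑ e ∈ N.divisors, (moebius (N / e) : ℤ) * ((Int.gcd (e : ℤ) c : ℤ)) ^ 2 = 0 := by
  have h := (sum_eq_iff_sum_mul_moebius_eq (R := ℤ)
    (f := fun t => if (t : ℤ) ∣ c then jordanTwo t else 0)
    (g := fun n => ((Int.gcd (n : ℤ) c : ℤ)) ^ 2)).mp (by
      intro n hn
      have hg : 0 < Int.gcd (n : ℤ) c := Int.gcd_pos_of_ne_zero_left _ (by exact_mod_cast hn.ne')
      rw [← Finset.sum_filter, ← sum_jordanTwo _ hg]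
      refine Finset.sum_congr ?_ (fun _ _ => rfl)
      ext t
      simp only [Finset.mem_filter, Nat.mem_divisors]
      constructor
      · rintro ⟨⟨h1, -⟩, h2⟩
        refine ⟨?_, hg.ne'⟩
        have := Int.dvd_coe_gcd (Int.natCast_dvd_natCast.mpr h1) h2
        exact_mod_cast this
      · rintro ⟨h1, -⟩
        have h1' : (t : ℤ) ∣ (Int.gcd (n : ℤ) c : ℤ) := Int.natCast_dvd_natCast.mpr h1
        refine ⟨⟨?_, hn.ne'⟩, h1'.trans (Int.gcd_dvd_right _ _)⟩
        exact_mod_cast h1'.trans (Int.gcd_dvd_left _ _)) N hN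
  rw [if_neg hc] at h
  simp only [Int.cast_id] at h
  rw [← h, Nat.sum_divisorsAntidiagonal'
    (f := fun x y => (moebius x : ℤ) * ((Int.gcd (y : ℤ) c : ℤ)) ^ 2)]

end Fermat.Agent.S28
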