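/-
S28, module **Hermite**: `diag(e,1) g = γ' (a, B; 0, D)`.
-/
import Fermat.Agent.S28.Defs

set_option autoImplicit false

open ModularCurve Fermat.Agent.S24 UpperHalfPlane
open scoped MatrixGroups

namespace Fermat.Agent.S28

theorem exists_tri (N : ℕ) [NeZero N] (e : Dv N) (g : SL(2, ℤ)) :
    ∃ (t : Tri N) (γ' : SL(2, ℤ)), t.a * t.D = e.1 ∧ (t.a : ℤ) = Int.gcd (e.1 : ℤ) (g 1 0) ∧
      ∀ τ : ℍ, dmul e (g • τ) = γ' • t.aff τ ∧
        denom γ' (t.aff τ) * (t.D : ℂ) = denom g τ := by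
  obtain ⟨γ', a, B, D, ha, hD, haD, -, e00, e01, e10, e11⟩ := Fermat.Agent.S23.prim_decomp e.1 g
  lift a to ℕ using ha.le
  lift D to ℕ using hD.le
  have haD' : a * D = e.1 := by exact_mod_cast haD
  have ha' : 0 < a := by exact_mod_cast ha
  have hD' : 0 < D := by exact_mod_cast hD
  have hdet : g 0 0 * g 1 1 - g 0 1 * g 1 0 = 1 := by
    have := g.det_coe
    rw [Matrix.det_fin_two] at this
    exact this
  refine ⟨⟨a, B, D, ha', hD', (Dvd.intro_left a haD').trans e.2⟩, γ', haD', ?_, fun τ => ?_⟩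
  · have hcop : IsCoprime (D : ℤ) (γ' 1 0) :=
      ⟨g 0 0 * γ' 1 1, g 0 0 * B - g 0 1 * a, by rw [e10, e11] at hdet; linear_combination hdet⟩
    change (a : ℤ) = _
    rw [← haD, e10, mul_comm (γ' 1 0) (a : ℤ), Int.gcd_mul_left, Int.isCoprime_iff_gcd_eq_one.1 hcop]
    simp
  · change dmul e (g • τ) = γ' • jfacts_aff a B D ha hD τ ∧
      denom γ' (jfacts_aff a B D ha hD τ) * ((D : ℕ) : ℂ) = denom g τ
    have n1 := denom_ne_zero g τ
    have n2 := denom_ne_zero γ' (jfacts_aff a B D ha hD τ)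
    have hDc : ((D : ℤ) : ℂ) ≠ 0 := by exact_mod_cast hD.ne'
    have c00 : (e.1 : ℂ) * g 0 0 = γ' 0 0 * (a : ℤ) := by exact_mod_cast e00
    have c01 : (e.1 : ℂ) * g 0 1 = γ' 0 0 * B + γ' 0 1 * (D : ℤ) := by exact_mod_cast e01
    have c10 : (g 1 0 : ℂ) = γ' 1 0 * (a : ℤ) := by exact_mod_cast e10
    have c11 : (g 1 1 : ℂ) = γ' 1 0 * B + γ' 1 1 * (D : ℤ) := by exact_mod_cast e11
    have hz : (((a : ℤ) : ℂ) * τ + B) / (D : ℤ) * (D : ℤ) = ((a : ℤ) : ℂ) * τ + B :=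
      div_mul_cancel₀ _ hDc
    constructor
    · rw [UpperHalfPlane.ext_iff, coe_specialLinearGroup_apply]
      change (e.1 : ℂ) * ((g • τ : ℍ) : ℂ) = _
      rw [coe_specialLinearGroup_apply, jfacts_aff_coe]
      simp only [denom, jfacts_aff_coe] at n1 n2
      simp only [Matrix.SpecialLinearGroup.coe_GL_coe_matrix,
        Matrix.SpecialLinearGroup.map_apply_coe,
        RingHom.mapMatrix_apply, Int.coe_castRingHom, Matrix.map_apply, Complex.ofReal_intCast,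
        algebraMap_int_eq, eq_intCast] at n1 n2 ⊢
      generalize (((a : ℤ) : ℂ) * τ + B) / (D : ℤ) = z at hz n2 ⊢
      rw [← mul_div_assoc, div_eq_div_iff n1 n2]
      linear_combination ((τ : ℂ) * (γ' 1 0 * z + γ' 1 1)) * c00 + (γ' 1 0 * z + γ' 1 1) * c01
        - (γ' 0 0 * z + γ' 0 1) * τ * c10 - (γ' 0 0 * z + γ' 0 1) * c11
        - (γ' 0 0 * (γ' 1 0 * z + γ' 1 1) - (γ' 0 0 * z + γ' 0 1) * γ' 1 0) * hz
    · simp only [denom, jfacts_aff_coe]
      simp only [Matrix.SpecialLinearGroup.coe_GL_coe_matrix,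
        Matrix.SpecialLinearGroup.map_apply_coe,
        RingHom.mapMatrix_apply, Int.coe_castRingHom, Matrix.map_apply, Complex.ofReal_intCast,
        algebraMap_int_eq, eq_intCast]
      generalize (((a : ℤ) : ℂ) * τ + B) / (D : ℤ) = z at hz
      have : ((D : ℕ) : ℂ) = ((D : ℤ) : ℂ) := by push_cast; rfl
      rw [this]
      linear_combination (γ' 1 0 : ℂ) * hz - (τ : ℂ) * c10 - c11

end Fermat.Agent.S28
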