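/-
S28: the Hermite data of the cosets.
-/
import Fermat.Agent.S28.Hermite

set_option autoImplicit false

open ModularCurve Fermat.Agent.S24 UpperHalfPlane Polynomial
open scoped MatrixGroups

noncomputable section

namespace Fermat.Agent.S28

variable (N : ℕ) [NeZero N]

/-- Hermite data of `diag(e,1) g⁻¹`, `g` the chosen representative of the coset `q` -/
def tri (q : Q N) (e : Dv N) : Tri N := (exists_tri N e (Quotient.out q : SL(2, ℤ))⁻¹).choose

theorem tri_spec (q : Q N) (e : Dv N) :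
    ∃ γ' : SL(2, ℤ), (tri N q e).a * (tri N q e).D = e.1 ∧
      ((tri N q e).a : ℤ) = Int.gcd (e.1 : ℤ) ((Quotient.out q : SL(2, ℤ))⁻¹ 1 0) ∧
      ∀ τ : ℍ, dmul e ((Quotient.out q : SL(2, ℤ))⁻¹ • τ) = γ' • (tri N q e).aff τ ∧
        denom γ' ((tri N q e).aff τ) * ((tri N q e).D : ℂ)
          = denom ((Quotient.out q : SL(2, ℤ))⁻¹ : SL(2, ℤ)) τ :=
  (exists_tri N e (Quotient.out q : SL(2, ℤ))⁻¹).choose_spec

/-- the conjugates of the generators `j(q^d)`, with coefficients in `O ∋ ζ_N` -/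
def gs {O : Type*} [CommRing O] (ζ : Oˣ) (q : Q N) (d : Dv N) : LaurentSeries O :=
  (tri N q d).sub ζ (jqModC ℤ)

end Fermat.Agent.S28
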