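/-
S28, module **FamInv**: symmetric functions of a family of functions indexed by the cosets
`Q N = SL₂(ℤ)/Γ₀(N)` and permuted by `SL₂(ℤ)` are polynomials in `j`.
-/
import Fermat.Agent.S28.Defs

set_option autoImplicit false
set_option linter.unusedSectionVars false

open ModularCurve Fermat.Agent.S24 UpperHalfPlane Polynomial
open scoped MatrixGroups Manifold

namespace Fermat.Agent.S28

variable (N : ℕ) [NeZero N]

theorem cuspExp_jfun : cuspExp N ⟨jfun, (cuspChart N).jfun_mem⟩ = jqNModC ℂ N := by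
  have h := UnifDeg.E_jfun_eq N
  have h1 : (jF N).1 = jqModC Kb := by
    change gen N ⟨1, one_dvd N⟩ = _
    rw [gen_eq]
    exact qExpand_one_apply _
  rw [h1, coeffMap_jqModC] at h
  exact h

/-- elements of `Mer N` are holomorphic -/
theorem mdiff_of_mem_Mer {f : ℍ → ℂ} (hf : f ∈ Mer N) : MDiff f := by
  obtain ⟨m, hm⟩ := (mem_Mer (N := N)).1 hf
  have h1 := ((mem_Bd (N := N)).1 hm).2.1
  have h2 : MDiff (fun τ => (ModularForm.discriminant τ ^ m)⁻¹) :=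
    jfacts_mdiff_inv (jfacts_mdiff_disc.pow m)
      (fun τ => pow_ne_zero m (ModularForm.discriminant_ne_zero τ))
  have h3 : f = fun τ => (ModularForm.discriminant τ ^ m)⁻¹ *
      (ModularForm.discriminant τ ^ m * f τ) := by
    funext τ
    rw [← mul_assoc, inv_mul_cancel₀ (pow_ne_zero m (ModularForm.discriminant_ne_zero τ)),
      one_mul]
  rw [h3]
  exact h2.mul h1

/-- an `SL₂(ℤ)`-invariant element of `Mer N` is a polynomial in `j` -/
theorem cuspExp_eq_aeval_of_invariant (G : Mer N)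
    (hinv : ∀ (g : SL(2, ℤ)) (τ : ℍ), G.1 (g • τ) = G.1 τ) :
    ∃ R : ℂ[X], cuspExp N G = aeval (jqNModC ℂ N) R := by
  obtain ⟨m, hm⟩ := (mem_Mer (N := N)).1 G.2
  obtain ⟨R, hR⟩ := exists_polynomial_of_invariant G.1 (mdiff_of_mem_Mer N G.2) hinv
    ⟨m, ((mem_Bd (N := N)).1 hm).2.2⟩
  refine ⟨R, ?_⟩
  have := UnifDeg.E_poly N (cuspChart N) R G hR
  rw [← cuspExp_jfun]
  exact this

/-- evaluation at `τ` -/
noncomputable def evMer (τ : ℍ) : Mer N →+* ℂ :=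
  (Pi.evalRingHom (fun _ : ℍ => ℂ) τ).comp (Mer N).subtype

theorem evMer_apply (τ : ℍ) (G : Mer N) : evMer N τ G = G.1 τ := rfl

theorem prod_coeff_eq_aeval (f : Q N → ℍ → ℂ) (hmer : ∀ q, f q ∈ Mer N)
    (heq : ∀ (g : SL(2, ℤ)) (q : Q N) (τ : ℍ), f (g • q) τ = f q (g⁻¹ • τ)) (i : ℕ) :
    ∃ R : ℂ[X], (∏ q, (X - C (cuspExp N ⟨f q, hmer q⟩))).coeff i = aeval (jqNModC ℂ N) R := by
  have hmap : ∀ φ : Mer N →+* LaurentSeries ℂ,
      φ ((∏ q, (X - C (⟨f q, hmer q⟩ : Mer N))).coeff i) =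
        (∏ q, (X - C (φ ⟨f q, hmer q⟩))).coeff i := by
    intro φ
    rw [← coeff_map, Polynomial.map_prod]
    simp only [Polynomial.map_sub, map_X, map_C]
  have hmap' : ∀ τ, ((∏ q, (X - C (⟨f q, hmer q⟩ : Mer N))).coeff i).1 τ =
        (∏ q, (X - C (f q τ))).coeff i := by
    intro τ
    rw [← evMer_apply, ← coeff_map, Polynomial.map_prod]
    simp only [Polynomial.map_sub, map_X, map_C, evMer_apply]
  rw [← hmap]
  apply cuspExp_eq_aeval_of_invariant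
  intro g τ
  rw [hmap', hmap']
  congr 1
  refine Fintype.prod_equiv (MulAction.toPerm g⁻¹) _ _ (fun q => ?_)
  rw [MulAction.toPerm_apply, heq, inv_inv]

theorem sum_mul_pow_eq_aeval (f h : Q N → ℍ → ℂ) (hf : ∀ q, f q ∈ Mer N) (hh : ∀ q, h q ∈ Mer N)
    (hfeq : ∀ (g : SL(2, ℤ)) (q : Q N) (τ : ℍ), f (g • q) τ = f q (g⁻¹ • τ))
    (hheq : ∀ (g : SL(2, ℤ)) (q : Q N) (τ : ℍ), h (g • q) τ = h q (g⁻¹ • τ)) (r : ℕ) :
    ∃ R : ℂ[X], ∑ q, cuspExp N ⟨f q, hf q⟩ * cuspExp N ⟨h q, hh q⟩ ^ r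
      = aeval (jqNModC ℂ N) R := by
  have hmap : cuspExp N (∑ q, (⟨f q, hf q⟩ : Mer N) * (⟨h q, hh q⟩ : Mer N) ^ r) =
      ∑ q, cuspExp N ⟨f q, hf q⟩ * cuspExp N ⟨h q, hh q⟩ ^ r := by
    simp only [map_sum, map_mul, map_pow]
  have hmap' : ∀ τ, (∑ q, (⟨f q, hf q⟩ : Mer N) * (⟨h q, hh q⟩ : Mer N) ^ r).1 τ =
      ∑ q, f q τ * h q τ ^ r := by
    intro τ
    rw [← evMer_apply]
    simp only [map_sum, map_mul, map_pow, evMer_apply]
  rw [← hmap]
  apply cuspExp_eq_aeval_of_invariant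
  intro g τ
  rw [hmap', hmap']
  refine Fintype.sum_equiv (MulAction.toPerm g⁻¹) _ _ (fun q => ?_)
  rw [MulAction.toPerm_apply, hfeq, hheq, inv_inv]

/-- a `Γ₀(N)`-invariant function gives an equivariant family -/
theorem equivariant_of_invariant (F : ℍ → ℂ)
    (hF : ∀ γ ∈ CongruenceSubgroup.Gamma0 N, ∀ τ : ℍ, F (γ • τ) = F τ)
    (g : SL(2, ℤ)) (q : Q N) (τ : ℍ) :
    F ((Quotient.out (g • q) : SL(2, ℤ))⁻¹ • τ) = F ((Quotient.out q : SL(2, ℤ))⁻¹ • (g⁻¹ • τ)) := by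
  have h1 : (QuotientGroup.mk (Quotient.out (g • q)) : Q N) = QuotientGroup.mk (g * Quotient.out q) := by
    have e1 : (QuotientGroup.mk (Quotient.out (g • q)) : Q N) = g • q := Quotient.out_eq _
    have e2 : (QuotientGroup.mk (g * Quotient.out q) : Q N) = g • (QuotientGroup.mk (Quotient.out q) : Q N) := rfl
    have e3 : (QuotientGroup.mk (Quotient.out q) : Q N) = q := Quotient.out_eq _
    rw [e1, e2, e3]
  rw [QuotientGroup.eq] at h1
  have h2 := hF _ h1 ((Quotient.out q : SL(2, ℤ))⁻¹ • (g⁻¹ • τ))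
  rw [← h2]
  congr 1
  simp only [← mul_smul]
  congr 1
  group

end Fermat.Agent.S28
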