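/-
S28, module **FieldQ**: the function field `F_ℚ = ℚ(j(q^d) : d ∣ N) ⊆ ℚ((q))` and its embeddings
`Th N γ = ΘQ γ ∘ toFF : F_ℚ → ℂ((s))`.
-/
import Fermat.Agent.S28.Defs

set_option autoImplicit false

open ModularCurve ModularCurve.IgusaScheme Fermat.Agent.S24 Polynomial IntermediateField
open scoped MatrixGroups

namespace Fermat.Agent.S28

variable (N : ℕ) [NeZero N]

theorem Th_q0 (x : FQ N) : Th N (q0 N) x = qExpand ℂ N (coeffEmb ℂ x.1) := by
  change (cuspChart N).ΘQ (QuotientGroup.mk 1) (toFF N x) = _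
  rw [UnifDeg.ΘQ_one, formalEmb_apply]
  congr 1
  change coeffMap iota (coeffEmb Kb x.1) = _
  rw [coeffEmb, coeffMap_coeffMap, coeffEmb,
    show iota.comp (algebraMap ℚ Kb) = algebraMap ℚ ℂ from Subsingleton.elim _ _]

theorem toFF_jFull : toFF N (jFull N) = jF N := by
  apply Subtype.ext
  change coeffEmb Kb jq = coeffEmb Kb (qExpand ℚ 1 jq)
  rw [qExpand_one_apply]

theorem E_jfun_eq' : (cuspChart N).E ⟨jfun, (cuspChart N).jfun_mem⟩ = jqNModC ℂ N := by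
  rw [UnifDeg.E_jfun_eq]
  change qExpand ℂ N (coeffMap iota (gen N ⟨1, one_dvd N⟩)) = _
  rw [gen_eq, qExpand_one_apply, coeffMap_jqModC]
  rfl

theorem Th_jFull (γ : Q N) : Th N γ (jFull N) = jqNModC ℂ N := by
  change (cuspChart N).ΘQ γ (toFF N (jFull N)) = _
  rw [toFF_jFull, Chart.ΘQ, Chart.Θ_jF, E_jfun_eq']

theorem Th_algebraMap (γ : Q N) (r : ℚ) :
    Th N γ (algebraMap ℚ (FQ N) r) = HahnSeries.C (r : ℂ) := by
  rw [eq_ratCast, map_ratCast, map_ratCast]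

theorem Th_genQ (γ : Q N) (d : Dv N) : Th N γ (genQ N d) = (cuspChart N).ΘQ γ (genF N d) := rfl

theorem ΘQ_genF_inj (q q' : Q N)
    (h : (cuspChart N).ΘQ q (genF N ⟨N, dvd_rfl⟩) = (cuspChart N).ΘQ q' (genF N ⟨N, dvd_rfl⟩)) :
    q = q' := by
  have h0 : (QuotientGroup.mk (Quotient.out q) : Q N) = QuotientGroup.mk (Quotient.out q') := by
    apply mk_eq_of_jfun_eq N
    intro τ
    simp only [Chart.ΘQ, Chart.Θ_genF] at h
    have h2 := (cuspChart N).E_inj h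
    exact congrArg (fun f => f.1 τ) h2
  rwa [show (QuotientGroup.mk (Quotient.out q) : Q N) = q from Quotient.out_eq _,
    show (QuotientGroup.mk (Quotient.out q') : Q N) = q' from Quotient.out_eq _] at h0

theorem Th_injective : Function.Injective (Th N) := by
  intro q q' h
  apply ΘQ_genF_inj N
  rw [← Th_genQ, ← Th_genQ, h]

theorem transcendental_jFull : Transcendental ℚ (jFull N) := by
  rintro ⟨p, hp0, hp⟩
  apply lift_transc ℚ
  refine ⟨p, hp0, ?_⟩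
  have h := congrArg (algebraMap (FQ N) (LaurentSeries ℚ)) hp
  rw [aeval_def, hom_eval₂, map_zero] at h
  rw [aeval_def, ← h]
  congr 1
  exact Subsingleton.elim _ _

theorem exists_frac_of_mem_adjoin {F : Type*} [Field F] [Algebra ℚ F] (A : Subring F) (S : Set F)
    (hS : S ⊆ A) {x : F} (hx : x ∈ IntermediateField.adjoin ℚ S) :
    ∃ a ∈ A, ∃ b ∈ A, b ≠ 0 ∧ x * b = a := by
  have : CharZero F := algebraRat.charZero F
  induction hx using IntermediateField.adjoin_induction with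
  | mem y hy => exact ⟨y, hS hy, 1, A.one_mem, one_ne_zero, mul_one y⟩
  | algebraMap c =>
    refine ⟨(c.num : F), intCast_mem A _, (c.den : F), natCast_mem A _,
      Nat.cast_ne_zero.2 c.den_ne_zero, ?_⟩
    rw [eq_ratCast, Rat.cast_def, div_mul_cancel₀ _ (Nat.cast_ne_zero.2 c.den_ne_zero)]
  | add y y' _ _ h h' =>
    obtain ⟨a, ha, b, hb, hb0, e⟩ := h
    obtain ⟨a', ha', b', hb', hb0', e'⟩ := h'
    refine ⟨a * b' + a' * b, A.add_mem (A.mul_mem ha hb') (A.mul_mem ha' hb), b * b',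
      A.mul_mem hb hb', mul_ne_zero hb0 hb0', ?_⟩
    rw [← e, ← e']; ring
  | inv y _ h =>
    obtain ⟨a, ha, b, hb, hb0, e⟩ := h
    by_cases hy : y = 0
    · exact ⟨0, A.zero_mem, 1, A.one_mem, one_ne_zero, by rw [hy]; simp⟩
    · refine ⟨b, hb, a, ha, ?_, ?_⟩
      · rw [← e]; exact mul_ne_zero hy hb0
      · rw [← e, inv_mul_cancel_left₀ hy]
  | mul y y' _ _ h h' =>
    obtain ⟨a, ha, b, hb, hb0, e⟩ := h
    obtain ⟨a', ha', b', hb', hb0', e'⟩ := h'
    refine ⟨a * a', A.mul_mem ha ha', b * b', A.mul_mem hb hb', mul_ne_zero hb0 hb0', ?_⟩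
    rw [← e, ← e']; ring

theorem exists_fracQ (x : FQ N) :
    ∃ P R : MvPolynomial (Dv N) ℤ, MvPolynomial.aeval (genQ N) R ≠ 0 ∧
      x * MvPolynomial.aeval (genQ N) R = MvPolynomial.aeval (genQ N) P := by
  obtain ⟨_, ⟨P, rfl⟩, _, ⟨R, rfl⟩, hR, h⟩ := exists_frac_of_mem_adjoin
    ((algebraMap (FQ N) (LaurentSeries ℚ)).comp
      (MvPolynomial.aeval (R := ℤ) (genQ N)).toRingHom).range
    (divisorExpansions N) (by
      rintro _ ⟨d, _, hd, rfl⟩
      exact ⟨MvPolynomial.X ⟨d, hd⟩, by simp [genQ]⟩) x.2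
  refine ⟨P, R, fun h0 => hR ?_, Subtype.ext h⟩
  change algebraMap (FQ N) (LaurentSeries ℚ) (MvPolynomial.aeval (genQ N) R) = 0
  rw [h0, map_zero]

theorem exists_ratQ (z : ℚ⟮jFull N⟯) :
    ∃ a b : ℤ[X], b ≠ 0 ∧ (z : FQ N) * aeval (jFull N) b = aeval (jFull N) a := by
  obtain ⟨_, ⟨a, rfl⟩, _, ⟨b, rfl⟩, hb, h⟩ := exists_frac_of_mem_adjoin
    (aeval (R := ℤ) (jFull N)).toRingHom.range {jFull N} (by
      rintro _ rfl
      exact ⟨X, by simp⟩) z.2
  refine ⟨a, b, fun h0 => hb ?_, h⟩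
  rw [h0]; simp

theorem trace_evF (P : MvPolynomial (Dv N) Kb) :
    ∃ R : ℂ[X], ∑ q, (cuspChart N).ΘQ q (evF N P) = aeval (jqNModC ℂ N) R := by
  have hmem := (∑ q : Q N, (cuspChart N).valHom (Quotient.out q) P).2
  obtain ⟨m, hm⟩ := (mem_Mer (N := N)).1 hmem
  obtain ⟨R, hR⟩ := exists_polynomial_of_invariant (UnifDeg.trFun N P) (UnifDeg.mdiff_trFun N P)
    (UnifDeg.trFun_smul N P) ⟨m, by
      have := ((mem_Bd (N := N)).1 hm).2.2
      rwa [UnifDeg.trFun_eq] at this⟩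
  refine ⟨R, ?_⟩
  rw [← E_jfun_eq', ← UnifDeg.E_poly N (cuspChart N) R
    (∑ q : Q N, (cuspChart N).valHom (Quotient.out q) P)
    (fun τ => by rw [UnifDeg.trFun_eq]; exact hR τ), map_sum]
  refine Finset.sum_congr rfl fun q _ => ?_
  exact (cuspChart N).Θ_evF _ P

theorem toFF_aeval (P : MvPolynomial (Dv N) ℚ) :
    toFF N (MvPolynomial.aeval (genQ N) P) = evF N (MvPolynomial.map (algebraMap ℚ Kb) P) := by
  have h : (toFF N).comp (MvPolynomial.aeval (R := ℚ) (genQ N)).toRingHom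
      = (evF N).toRingHom.comp (MvPolynomial.map (algebraMap ℚ Kb)) := by
    apply MvPolynomial.ringHom_ext
    · intro a
      simp
    · intro d
      simp [evF, toFF_genQ]
  exact congrArg (fun φ => φ P) h

theorem coe_aeval_jFull (d : ℚ[X]) :
    ((aeval (jFull N) d : FQ N) : LaurentSeries ℚ) = aeval jq d := by
  change algebraMap (FQ N) (LaurentSeries ℚ) (aeval (jFull N) d) = _
  rw [aeval_def, hom_eval₂, aeval_def]
  congr 1
  exact Subsingleton.elim _ _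

theorem hLDQ (r : ℕ) (f : Fin r → FQ N) (c : Fin r → ℂ[X]) (hc : ∃ i, c i ≠ 0)
    (h : ∑ i, aeval (jqNModC ℂ N) (c i) * Th N (q0 N) (f i) = 0) :
    ∃ d : Fin r → ℚ[X], (∃ i, d i ≠ 0) ∧ ∑ i, aeval (jFull N) (d i) * f i = 0 := by
  have hJ : jqNModC ℂ N = qExpand ℂ N (coeffMap (algebraMap ℚ ℂ) jq) := by
    rw [← jqModC_rat, coeffMap_jqModC]; rfl
  rw [hJ] at h
  have h1 : ∀ i, aeval (qExpand ℂ N (coeffMap (algebraMap ℚ ℂ) jq)) (c i)
      = qExpand ℂ N (aeval (coeffMap (algebraMap ℚ ℂ) jq) (c i)) := by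
    intro i
    let φ : LaurentSeries ℂ →ₐ[ℂ] LaurentSeries ℂ :=
      { qExpand ℂ N with
        commutes' := fun c => by
          change qExpand ℂ N (algebraMap ℂ (LaurentSeries ℂ) c)
            = algebraMap ℂ (LaurentSeries ℂ) c
          rw [algebraMap_laurentSeries_eq_single, qExpand_single, mul_zero] }
    exact aeval_algHom_apply φ _ _
  simp only [h1, Th_q0, ← map_mul, ← map_sum] at h
  have h2 := (map_eq_zero_iff _ (qExpand_injective (R := ℂ) N)).1 h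
  obtain ⟨d, hd0, hd⟩ := exists_relation_of_coeffMap (algebraMap ℚ ℂ) jq r (fun i => (f i).1) c hc h2
  refine ⟨d, hd0, ?_⟩
  apply Subtype.ext
  rw [IntermediateField.coe_zero, ← hd]
  simp only [IntermediateField.coe_sum, IntermediateField.coe_mul, coe_aeval_jFull]

theorem FieldQ.main : FiniteDimensional ℚ⟮jFull N⟯ (FQ N) ∧
    Module.finrank ℚ⟮jFull N⟯ (FQ N) ≤ Fintype.card (Q N) := by
  refine finrank_le_of_trace (K := ℚ) (F := FQ N) (C := ℂ) (L := LaurentSeries ℂ) (Q := Q N)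
    (jFull N) (genQ N ⟨N, dvd_rfl⟩) (MvPolynomial.aeval (R := ℚ) (genQ N)).range
    ⟨MvPolynomial.X ⟨N, dvd_rfl⟩, by simp⟩ ?_
    (Th N) (jqNModC ℂ N) ?_ ?_ (q0 N) (hLDQ N) (transcendental_jFull N)
  · intro f
    obtain ⟨P, R, hR, hf⟩ := exists_fracQ N f
    have key : ∀ P : MvPolynomial (Dv N) ℤ, MvPolynomial.aeval (genQ N) P
        ∈ (MvPolynomial.aeval (R := ℚ) (genQ N)).range := fun P =>
      ⟨MvPolynomial.map (algebraMap ℤ ℚ) P, MvPolynomial.aeval_map_algebraMap _ _ _⟩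
    exact ⟨_, key P, _, key R, hR, by rw [← hf, mul_div_cancel_right₀ _ hR]⟩
  · intro q q' h
    exact ΘQ_genF_inj N q q' h
  · rintro _ ⟨P, rfl⟩
    obtain ⟨R, hR⟩ := trace_evF N (MvPolynomial.map (algebraMap ℚ Kb) P)
    refine ⟨R, ?_⟩
    rw [← hR]
    refine Finset.sum_congr rfl fun q _ => ?_
    change (cuspChart N).ΘQ q (toFF N (MvPolynomial.aeval (genQ N) P)) = _
    rw [toFF_aeval]

theorem finiteDimensional_FQ : FiniteDimensional ℚ⟮jFull N⟯ (FQ N) := (FieldQ.main N).1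

theorem finrank_FQ : Module.finrank ℚ⟮jFull N⟯ (FQ N) = Fintype.card (Q N) := by
  have := finiteDimensional_FQ N
  refine le_antisymm (FieldQ.main N).2 ?_
  refine card_le_finrank (K := ℚ) (jFull N) (Th N) (Th_injective N) ?_ ?_
  · intro q q'
    rw [Th_jFull, Th_jFull]
  · intro q q' a
    rw [Th_algebraMap, Th_algebraMap]

theorem adjoin_jFull_inv : ℚ⟮(jFull N)⁻¹⟯ = ℚ⟮jFull N⟯ := by
  apply le_antisymm
  · rw [adjoin_simple_le_iff]
    exact inv_mem (mem_adjoin_simple_self ℚ _)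
  · rw [adjoin_simple_le_iff]
    have := inv_mem (mem_adjoin_simple_self ℚ (jFull N)⁻¹)
    rwa [inv_inv] at this

theorem finiteDimensional_FQ_inv : FiniteDimensional ℚ⟮(jFull N)⁻¹⟯ (FQ N) := by
  rw [adjoin_jFull_inv]
  exact finiteDimensional_FQ N

theorem finrank_FQ_inv : Module.finrank ℚ⟮(jFull N)⁻¹⟯ (FQ N) = Fintype.card (Q N) := by
  rw [adjoin_jFull_inv]
  exact finrank_FQ N

end Fermat.Agent.S28
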