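/-
S28, module **Subst**: the expansion at `i∞` (in `s = exp(2πiτ/N)`) of `F((aτ+B)/D)` for a
`1`-periodic `F`, meromorphic at `i∞`, whose `q`-expansion has integral coefficients.
General form: `Tri.cuspExp_aff` (`cuspExp N (F ∘ aff) = t.subC (cuspExp 1 F)` for every `F ∈ Mer 1`).
-/
import Fermat.Agent.S28.Defs
import Fermat.Agent.S24.Bridge

set_option autoImplicit false
set_option linter.unusedSectionVars false

open ModularCurve Fermat.Agent.S24 UpperHalfPlane Function Filter Topology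
open scoped Manifold MatrixGroups

namespace Fermat.Agent.S28

section

variable {N : ℕ} [NeZero N] (t : Tri N)

/-- the root of unity `exp(2πi B/D)` -/
noncomputable def Tri.eta : ℂˣ := zetaU N ^ (t.B * ((N / t.D : ℕ) : ℤ))

/-- the substitution on complex Laurent series -/
noncomputable def Tri.subC : LaurentSeries ℂ →+* LaurentSeries ℂ :=
  (qExpand ℂ t.m).comp (rotU t.eta)

lemma Tri.sub_eq (f : LaurentSeries ℤ) :
    t.sub (zetaU N) f = t.subC (coeffMap (Int.castRingHom ℂ) f) := rfl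

lemma Tri.aff_coe (τ : ℍ) : ((t.aff τ : ℍ) : ℂ) = ((t.a : ℂ) * τ + t.B) / t.D := by
  rw [Tri.aff, jfacts_aff_coe]
  push_cast
  rfl

lemma Tri.m_pos : 0 < t.m := Nat.pos_of_ne_zero (NeZero.ne _)

lemma Tri.qParam_aff (τ : ℍ) :
    Periodic.qParam 1 ((t.aff τ : ℍ) : ℂ) = (t.eta : ℂ) * Periodic.qParam (N : ℝ) τ ^ t.m := by
  obtain ⟨k, hk⟩ := t.D_dvd
  have hD : (t.D : ℂ) ≠ 0 := by exact_mod_cast t.D_pos.ne'
  have hN : (N : ℂ) ≠ 0 := by exact_mod_cast NeZero.ne N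
  have hNc : (N : ℂ) = t.D * k := by exact_mod_cast hk
  have hk0 : (k : ℂ) ≠ 0 := by
    intro h
    apply hN
    rw [hNc, h, mul_zero]
  have hdiv : N / t.D = k := Nat.div_eq_of_eq_mul_right t.D_pos hk
  rw [Tri.aff_coe, Tri.eta, Tri.m, hdiv, Units.val_zpow_eq_zpow_val, zetaU, Units.val_mk0, zetaN,
    ← Complex.exp_int_mul, Periodic.qParam, Periodic.qParam, ← Complex.exp_nat_mul,
    ← Complex.exp_add]
  congr 1
  push_cast
  rw [hNc]
  field_simp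
  ring

lemma Tri.hasSum_aff (g : ℍ → ℂ) (hper : Periodic (g ∘ ofComplex) ((1 : ℝ) : ℂ)) (hol : MDiff g)
    (hbdd : IsBoundedAtImInfty g) (τ : ℍ) :
    HasSum (fun k : ℕ => (if t.m ∣ k then (t.eta : ℂ) ^ (k / t.m) *
      (qExpansion 1 g).coeff (k / t.m) else 0) • Periodic.qParam (N : ℝ) τ ^ k) (g (t.aff τ)) := by
  have h0 := hasSum_qExpansion one_pos hper hol hbdd (t.aff τ)
  have hinj : Function.Injective (fun n : ℕ => t.m * n) :=
    fun a b h => Nat.eq_of_mul_eq_mul_left t.m_pos h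
  rw [← hinj.hasSum_iff]
  · convert h0 using 2 with n
    simp only [Function.comp_apply, dvd_mul_right, if_true, Nat.mul_div_cancel_left _ t.m_pos,
      t.qParam_aff, smul_eq_mul, pow_mul, mul_pow]
    ring
  · intro n hn
    have : ¬ t.m ∣ n := fun ⟨m, hm⟩ => hn ⟨m, hm.symm⟩
    simp [this]

lemma Tri.aff_add (τ τ' : ℍ) (hτ : (τ' : ℂ) = τ + N) :
    ((t.aff τ' : ℍ) : ℂ) = (t.aff τ : ℍ) + ((t.a * (N / t.D) : ℕ) : ℂ) * ((1 : ℝ) : ℂ) := by
  obtain ⟨k, hk⟩ := t.D_dvd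
  have hD : (t.D : ℂ) ≠ 0 := by exact_mod_cast t.D_pos.ne'
  have hNc : (N : ℂ) = t.D * k := by exact_mod_cast hk
  have hdiv : N / t.D = k := Nat.div_eq_of_eq_mul_right t.D_pos hk
  rw [Tri.aff_coe, Tri.aff_coe, hτ, hdiv, hNc]
  push_cast
  field_simp
  ring

lemma Tri.periodic_aff (g : ℍ → ℂ) (hper : Periodic (g ∘ ofComplex) ((1 : ℝ) : ℂ)) :
    Periodic ((fun τ => g (t.aff τ)) ∘ ofComplex) (N : ℂ) := by
  apply jfacts_periodic_of
  intro τ τ' hτ
  have := (hper.nat_mul (t.a * (N / t.D))) (t.aff τ : ℂ)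
  rw [← t.aff_add τ τ' hτ] at this
  simpa only [comp_apply, ofComplex_apply] using this

lemma Tri.mdiff_aff (g : ℍ → ℂ) (hol : MDiff g) : MDiff (fun τ => g (t.aff τ)) :=
  jfacts_mdiff_comp_aff hol _ _ _ _ _

lemma mem_Bd_one {g : ℍ → ℂ} (hg : g ∈ Bd 1) :
    Periodic (g ∘ ofComplex) ((1 : ℝ) : ℂ) ∧ MDiff g ∧ IsBoundedAtImInfty g := by
  obtain ⟨h1, h2, h3⟩ := hg
  exact ⟨by simpa using h1, h2, h3⟩

lemma Tri.aff_mem_Bd (g : ℍ → ℂ) (hg : g ∈ Bd 1) : (fun τ => g (t.aff τ)) ∈ Bd N := by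
  obtain ⟨h1, h2, h3⟩ := mem_Bd_one hg
  exact ⟨t.periodic_aff g h1, t.mdiff_aff g h2,
    isBoundedAtImInfty_of_hasSum_qExpansion (cuspChart_N_pos N) (t.hasSum_aff g h1 h2 h3)⟩

lemma Tri.subC_coeff_mul (u : LaurentSeries ℂ) (k : ℤ) :
    (t.subC u).coeff ((t.m : ℤ) * k) = ((t.eta ^ k : ℂˣ) : ℂ) * u.coeff k := by
  rw [Tri.subC, RingHom.comp_apply, qExpand_coeff_mul, rotU_coeff]

lemma Tri.subC_coeff_of_not_dvd (u : LaurentSeries ℂ) {k : ℤ} (hk : ¬ (t.m : ℤ) ∣ k) :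
    (t.subC u).coeff k = 0 := by
  rw [Tri.subC, RingHom.comp_apply, qExpand_coeff_of_not_dvd _ _ hk]

lemma Tri.qExpansion_aff (g : ℍ → ℂ) (hg : g ∈ Bd 1) :
    HahnSeries.ofPowerSeries ℤ ℂ (qExpansion (N : ℝ) (fun τ => g (t.aff τ))) =
      t.subC (HahnSeries.ofPowerSeries ℤ ℂ (qExpansion 1 g)) := by
  obtain ⟨h1, h2, h3⟩ := mem_Bd_one hg
  have hs := t.hasSum_aff g h1 h2 h3
  have han := cuspChart_analytic (t.aff_mem_Bd g hg)
  have hc := formalBridge_coeff_unique (cuspChart_N_pos N) han hs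
  have hm := t.m_pos
  ext k
  by_cases hk : 0 ≤ k
  · obtain ⟨n, rfl⟩ := Int.eq_ofNat_of_zero_le hk
    rw [HahnSeries.ofPowerSeries_apply_coeff, ← hc n]
    split_ifs with hdvd
    · obtain ⟨c, rfl⟩ := hdvd
      rw [Nat.mul_div_cancel_left _ hm]
      have : (((t.m * c : ℕ)) : ℤ) = (t.m : ℤ) * (c : ℤ) := by push_cast; ring
      rw [this, t.subC_coeff_mul, HahnSeries.ofPowerSeries_apply_coeff]
      simp
    · rw [t.subC_coeff_of_not_dvd]
      exact_mod_cast hdvd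
  · have hk' : k < 0 := not_le.mp hk
    rw [ModularCurve.ofPowerSeries_coeff_of_neg _ hk']
    by_cases hdvd : (t.m : ℤ) ∣ k
    · obtain ⟨c, rfl⟩ := hdvd
      rw [t.subC_coeff_mul, ModularCurve.ofPowerSeries_coeff_of_neg, mul_zero]
      have : (0 : ℤ) < (t.m : ℤ) := by exact_mod_cast hm
      by_contra hc0
      exact absurd hk' (not_lt.mpr (mul_nonneg this.le (not_lt.mp hc0)))
    · rw [t.subC_coeff_of_not_dvd _ hdvd]

lemma Tri.cuspExp_aff_of_mem_Bd (g : ℍ → ℂ) (hg : g ∈ Bd 1) :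
    cuspExp N ⟨fun τ => g (t.aff τ), Bd_le_Mer N (t.aff_mem_Bd g hg)⟩ =
      t.subC (cuspExp 1 ⟨g, Bd_le_Mer 1 hg⟩) := by
  rw [cuspExp_of_mem_Bd N _ (t.aff_mem_Bd g hg), cuspExp_of_mem_Bd 1 _ hg, t.qExpansion_aff g hg]
  simp

lemma Tri.bdd_disc_inv_aff :
    IsBoundedAtImInfty
      (fun τ => ModularForm.discriminant τ ^ t.a * (ModularForm.discriminant (t.aff τ))⁻¹) := by
  have ha : (0 : ℤ) < (t.a : ℤ) := by exact_mod_cast t.a_pos
  have hD : (0 : ℤ) < (t.D : ℤ) := by exact_mod_cast t.D_pos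
  have h1 : IsBoundedAtImInfty
      (fun τ : ℍ => (ModularForm.discriminant τ / Periodic.qParam 1 τ) ^ t.a) :=
    jfacts_bdd_of_tendsto (jfacts_tendsto_disc_div_q.pow t.a)
  have h2 : IsBoundedAtImInfty (fun τ : ℍ => (ModularForm.discriminant (t.aff τ) /
      Periodic.qParam 1 (t.aff τ))⁻¹) :=
    jfacts_bdd_of_tendsto ((jfacts_tendsto_disc_div_q.inv₀ one_ne_zero).comp
      (jfacts_tendsto_aff t.a t.B t.D ha hD))
  have h3 : IsBoundedAtImInfty (fun τ : ℍ => Periodic.qParam 1 τ ^ t.a /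
      Periodic.qParam 1 (t.aff τ)) := by
    rw [isBoundedAtImInfty_iff]
    refine ⟨1, 0, fun τ _ => ?_⟩
    rw [norm_div, norm_pow, Periodic.norm_qParam, Periodic.norm_qParam, ← Real.exp_nat_mul,
      ← Real.exp_sub, Real.exp_le_one_iff]
    have e : ((t.aff τ : ℍ) : ℂ).im = (t.a : ℝ) * τ.im / t.D := by
      have := jfacts_im_aff t.a t.B t.D ha hD τ
      simp only [Int.cast_natCast] at this
      exact this
    rw [e]
    have hy := τ.im_pos
    have hD1 : (1 : ℝ) ≤ t.D := by exact_mod_cast t.D_pos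
    have ha0 : (0 : ℝ) < t.a := by exact_mod_cast t.a_pos
    have : (t.a : ℝ) * (-2 * Real.pi * (τ : ℂ).im / 1) - -2 * Real.pi * ((t.a : ℝ) * τ.im / t.D) / 1
        = -(2 * Real.pi * τ.im * (t.a - (t.a : ℝ) / t.D)) := by
      rw [coe_im]; ring
    rw [this]
    have := Real.pi_pos
    have h0 : 0 ≤ (t.a : ℝ) - (t.a : ℝ) / t.D := sub_nonneg.mpr (div_le_self ha0.le hD1)
    have : 0 ≤ 2 * Real.pi * τ.im * (t.a - (t.a : ℝ) / t.D) := by positivity
    linarith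
  have := (h1.mul h2).mul h3
  refine this.congr' (Eventually.of_forall fun τ => ?_) (EventuallyEq.refl _ _)
  have n1 := jfacts_q_ne_zero τ
  have n2 := jfacts_q_ne_zero (t.aff τ)
  have n3 := ModularForm.discriminant_ne_zero (t.aff τ)
  simp only [Pi.mul_apply, div_pow]
  field_simp

lemma Tri.disc_inv_aff_mem_Mer :
    (fun τ => (ModularForm.discriminant (t.aff τ))⁻¹) ∈ Mer N := by
  rw [mem_Mer]
  refine ⟨t.a, ?_, ?_, t.bdd_disc_inv_aff⟩
  · apply jfacts_periodic_of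
    intro τ τ' hτ
    rw [jfacts_disc_add_nat τ τ' N hτ,
      jfacts_disc_add_nat (t.aff τ) (t.aff τ') (t.a * (N / t.D)) (by
        rw [t.aff_add τ τ' hτ]; simp)]
  · exact (jfacts_mdiff_disc.pow _).mul (jfacts_mdiff_inv (t.mdiff_aff _ jfacts_mdiff_disc)
      (fun τ => ModularForm.discriminant_ne_zero _))

/-- general form of the substitution theorem -/
theorem Tri.cuspExp_aff (F : ℍ → ℂ) (hF : F ∈ Mer 1) :
    ∃ h : (fun τ => F (t.aff τ)) ∈ Mer N, cuspExp N ⟨_, h⟩ = t.subC (cuspExp 1 ⟨F, hF⟩) := by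
  have hF' := hF
  obtain ⟨m, hm⟩ := hF'
  set g : ℍ → ℂ := fun τ => ModularForm.discriminant τ ^ m * F τ with hg
  -- the three elements of `Mer N`
  set G : Mer N := ⟨fun τ => g (t.aff τ), Bd_le_Mer N (t.aff_mem_Bd g hm)⟩ with hG
  set Di : Mer N := ⟨_, t.disc_inv_aff_mem_Mer⟩ with hDi
  set D : Mer N := ⟨fun τ => ModularForm.discriminant (t.aff τ),
    Bd_le_Mer N (t.aff_mem_Bd _ (discriminant_mem_Bd 1))⟩ with hD
  have hmem : (fun τ => F (t.aff τ)) ∈ Mer N := by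
    have := (G * Di ^ m).2
    convert this using 1
    funext τ
    have n3 := ModularForm.discriminant_ne_zero (t.aff τ)
    simp only [hG, hDi, hg, Subring.coe_mul, Subring.coe_pow, Pi.mul_apply, Pi.pow_apply]
    rw [inv_pow, mul_comm (_ ^ m) (F _), mul_assoc, mul_inv_cancel₀ (pow_ne_zero m n3), mul_one]
  refine ⟨hmem, ?_⟩
  have key : (⟨_, hmem⟩ : Mer N) * D ^ m = G := by
    apply Subtype.ext
    funext τ
    simp only [hG, hD, hg, Subring.coe_mul, Subring.coe_pow, Pi.mul_apply, Pi.pow_apply]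
    ring
  have hGexp : cuspExp N G = t.subC (cuspExp 1 ⟨g, Bd_le_Mer 1 hm⟩) :=
    t.cuspExp_aff_of_mem_Bd g hm
  have hDexp : cuspExp N D = t.subC (cuspExp 1 ⟨_, Bd_le_Mer 1 (discriminant_mem_Bd 1)⟩) :=
    t.cuspExp_aff_of_mem_Bd _ (discriminant_mem_Bd 1)
  have key1 : (⟨F, hF⟩ : Mer 1) * (⟨_, Bd_le_Mer 1 (discriminant_mem_Bd 1)⟩ : Mer 1) ^ m =
      ⟨g, Bd_le_Mer 1 hm⟩ := by
    apply Subtype.ext
    funext τ
    simp only [hg, Subring.coe_mul, Subring.coe_pow, Pi.mul_apply, Pi.pow_apply]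
    ring
  have hD0 : cuspExp N D ≠ 0 := by
    intro h
    have h1 := (map_eq_zero_iff _ (cuspExp_injective N)).1 h
    have h2 := congrFun (congrArg Subtype.val h1) UpperHalfPlane.I
    exact ModularForm.discriminant_ne_zero _ h2
  have h1 := congrArg (cuspExp N) key
  rw [map_mul, map_pow, hGexp, ← key1, map_mul, map_mul, map_pow, map_pow, ← hDexp] at h1
  exact mul_right_cancel₀ (pow_ne_zero m hD0) h1

end

theorem cuspExp_comp_aff (N : ℕ) [NeZero N] (t : Tri N) (F : ℍ → ℂ) (hF : F ∈ Mer 1)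
    (f : LaurentSeries ℤ) (hf : cuspExp 1 ⟨F, hF⟩ = coeffMap (Int.castRingHom ℂ) f) :
    ∃ h : (fun τ => F (t.aff τ)) ∈ Mer N, cuspExp N ⟨_, h⟩ = t.sub (zetaU N) f := by
  obtain ⟨h, he⟩ := t.cuspExp_aff F hF
  exact ⟨h, by rw [he, hf, t.sub_eq]⟩

theorem cuspExp_one_jfun :
    ∃ h : jfun ∈ Mer 1, cuspExp 1 ⟨jfun, h⟩ = coeffMap (Int.castRingHom ℂ) (jqModC ℤ) := by
  have h1 := cuspExp_jd 1 ⟨1, one_dvd 1⟩
  have e : (fun τ => jfun (dmul (⟨1, one_dvd 1⟩ : Dv 1) τ)) = jfun := by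
    funext τ
    congr 1
    apply UpperHalfPlane.ext
    rw [jfacts_dmul_coe]
    simp
  have hmem : jfun ∈ Mer 1 := by
    have := jd_mem_Mer' 1 ⟨1, one_dvd 1⟩
    rwa [e] at this
  refine ⟨hmem, ?_⟩
  have e2 : (⟨jfun, hmem⟩ : Mer 1) =
      ⟨fun τ => jfun (dmul (⟨1, one_dvd 1⟩ : Dv 1) τ), jd_mem_Mer' 1 ⟨1, one_dvd 1⟩⟩ :=
    Subtype.ext e.symm
  rw [e2, h1, bridge_target, coeffMap_jqModC]
  exact qExpand_one_apply _

theorem cuspExp_one_disc :
    ∃ h : (ModularForm.discriminant : ℍ → ℂ) ∈ Mer 1,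
      cuspExp 1 ⟨_, h⟩ = coeffMap (Int.castRingHom ℂ) DlZ := by
  refine ⟨Bd_le_Mer 1 (discriminant_mem_Bd 1), ?_⟩
  rw [cuspExp_of_mem_Bd 1 _ (discriminant_mem_Bd 1)]
  have : qExpansion ((1 : ℕ) : ℝ) ModularForm.discriminant =
      PowerSeries.X * dedekindEtaUnit.map (Int.castRingHom ℂ) := by
    rw [Nat.cast_one]; exact qExpansion_discriminant
  rw [this, map_mul, HahnSeries.ofPowerSeries_X, DlZ, map_mul, coeffMap_single,
    map_one (Int.castRingHom ℂ), coeffMap_ofPowerSeries]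

theorem cuspExp_one_disc_inv :
    ∃ h : (fun τ : ℍ => (ModularForm.discriminant τ)⁻¹) ∈ Mer 1,
      cuspExp 1 ⟨_, h⟩ = coeffMap (Int.castRingHom ℂ) DlInvZ := by
  have hmem : (fun τ : ℍ => (ModularForm.discriminant τ)⁻¹) ∈ Mer 1 := by
    refine ⟨1, ?_⟩
    have := (Bd 1).one_mem
    convert this using 1
    funext τ
    rw [pow_one, mul_inv_cancel₀ (ModularForm.discriminant_ne_zero τ)]
    rfl
  refine ⟨hmem, ?_⟩
  obtain ⟨h, he⟩ := cuspExp_one_disc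
  have key : (⟨_, hmem⟩ : Mer 1) * ⟨_, h⟩ = 1 := by
    apply Subtype.ext
    funext τ
    simp only [Subring.coe_mul, Pi.mul_apply, Subring.coe_one, Pi.one_apply]
    exact inv_mul_cancel₀ (ModularForm.discriminant_ne_zero τ)
  have h1 := congrArg (cuspExp 1) key
  rw [map_mul, map_one, he] at h1
  have h2 := congrArg (coeffMap (Int.castRingHom ℂ)) DlZ_mul_DlInvZ
  rw [map_mul, map_one] at h2
  calc cuspExp 1 ⟨_, hmem⟩ = cuspExp 1 ⟨_, hmem⟩ * (coeffMap (Int.castRingHom ℂ) DlZ *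
        coeffMap (Int.castRingHom ℂ) DlInvZ) := by rw [h2, mul_one]
    _ = _ := by rw [← mul_assoc, h1, one_mul]

end Fermat.Agent.S28
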