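/-
S28, module **FamTheta**: the conjugates of the generators `j(q^d)`.
-/
import Fermat.Agent.S28.FamDefs
import Fermat.Agent.S28.Subst
import Fermat.Agent.S28.FieldQ

set_option autoImplicit false

open ModularCurve Fermat.Agent.S24 UpperHalfPlane Polynomial
open scoped MatrixGroups

namespace Fermat.Agent.S28

variable (N : ℕ) [NeZero N]

theorem coeffMap_rotU {O O' : Type*} [CommRing O] [CommRing O'] (f : O →+* O') (η : Oˣ)
    (u : LaurentSeries O) :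
    coeffMap f (rotU η u) = rotU (Units.map (f : O →* O') η) (coeffMap f u) := by
  ext k
  rw [coeffMap_coeff, rotU_coeff, rotU_coeff, coeffMap_coeff, map_mul, ← map_zpow]
  rfl

theorem coeffMap_sub {O O' : Type*} [CommRing O] [CommRing O'] (f : O →+* O') (ζ : Oˣ) (t : Tri N)
    (x : LaurentSeries ℤ) : coeffMap f (t.sub ζ x) = t.sub (Units.map (f : O →* O') ζ) x := by
  simp only [Tri.sub, RingHom.comp_apply]
  rw [coeffMap_qExpand, coeffMap_rotU, coeffMap_coeffMap, map_zpow,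
    show f.comp (Int.castRingHom O) = Int.castRingHom O' from Subsingleton.elim _ _]

/-- the analytic function whose expansion is `ΘQ q (genF N d)` -/
theorem ΘQ_genF (q : Q N) (d : Dv N) :
    (cuspChart N).ΘQ q (genF N d) =
      cuspExp N ⟨fun τ => jfun (dmul d ((Quotient.out q : SL(2, ℤ))⁻¹ • τ)),
        jd_mem_Mer N d (Quotient.out q : SL(2, ℤ))⁻¹⟩ := by
  rw [Chart.ΘQ, Chart.Θ_genF]
  rfl

theorem sub_zetaU_eq (q : Q N) (d : Dv N) :
    (tri N q d).sub (zetaU N) (jqModC ℤ) = (cuspChart N).ΘQ q (genF N d) := by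
  obtain ⟨h1, e1⟩ := cuspExp_one_jfun
  obtain ⟨h, e⟩ := cuspExp_comp_aff N (tri N q d) jfun h1 (jqModC ℤ) e1
  rw [ΘQ_genF, ← e]
  congr 1
  apply Subtype.ext
  funext τ
  obtain ⟨γ', -, -, hγ⟩ := tri_spec N q d
  change jfun _ = jfun _
  rw [(hγ τ).1, jfun_smul]

theorem coeffMap_gs {O : Type*} [CommRing O] (emb : O →+* ℂ) (ζ : Oˣ)
    (hζ : emb (ζ : O) = zetaN N) (q : Q N) (d : Dv N) :
    coeffMap emb (gs N ζ q d) = (cuspChart N).ΘQ q (genF N d) := by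
  rw [gs, coeffMap_sub, ← sub_zetaU_eq,
    show Units.map (emb : O →* ℂ) ζ = zetaU N from Units.ext hζ]

variable {N}

theorem Tri.sub_coeff_mul {O : Type*} [CommRing O] (ζ : Oˣ) (t : Tri N) (x : LaurentSeries ℤ)
    (k : ℤ) : (t.sub ζ x).coeff ((t.m : ℤ) * k)
      = (((ζ ^ (t.B * ((N / t.D : ℕ) : ℤ))) ^ k : Oˣ) : O) * ((x.coeff k : ℤ) : O) := by
  simp only [Tri.sub, RingHom.comp_apply]
  rw [qExpand_coeff_mul, rotU_coeff, coeffMap_coeff]
  rfl

theorem Tri.sub_coeff_of_not_dvd {O : Type*} [CommRing O] (ζ : Oˣ) (t : Tri N)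
    (x : LaurentSeries ℤ) {n : ℤ} (hn : ¬ (t.m : ℤ) ∣ n) : (t.sub ζ x).coeff n = 0 := by
  simp only [Tri.sub, RingHom.comp_apply]
  rw [qExpand_coeff_of_not_dvd _ _ hn]

theorem Tri.sub_jq_coeff_neg {O : Type*} [CommRing O] (ζ : Oˣ) (t : Tri N) :
    (t.sub ζ (jqModC ℤ)).coeff (-(t.m : ℤ))
      = (((ζ ^ (t.B * ((N / t.D : ℕ) : ℤ)))⁻¹ : Oˣ) : O) := by
  have := t.sub_coeff_mul ζ (jqModC ℤ) (-1)
  rw [coeff_jqModC_neg_one, mul_neg_one, zpow_neg_one] at this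
  simpa using this

theorem Tri.sub_jq_coeff_of_lt {O : Type*} [CommRing O] (ζ : Oˣ) (t : Tri N) {n : ℤ}
    (hn : n < -(t.m : ℤ)) : (t.sub ζ (jqModC ℤ)).coeff n = 0 := by
  by_cases h : (t.m : ℤ) ∣ n
  · obtain ⟨k, rfl⟩ := h
    have hm : (0 : ℤ) < t.m := by exact_mod_cast Nat.pos_of_ne_zero (NeZero.ne t.m)
    have hk : k < -((1 : ℕ) : ℤ) := by
      by_contra hcon
      push Not at hcon
      have : (t.m : ℤ) * (-1) ≤ t.m * k := mul_le_mul_of_nonneg_left (by simpa using hcon) hm.le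
      linarith
    have h0 := coeff_jqModC_pow_of_lt ℤ hk
    rw [pow_one] at h0
    rw [t.sub_coeff_mul, h0]
    simp
  · exact t.sub_coeff_of_not_dvd ζ _ h

theorem Tri.m_le_of_sub_eq {k : Type*} [Field k] (ζ : kˣ) (t t' : Tri N)
    (h : t.sub ζ (jqModC ℤ) = t'.sub ζ (jqModC ℤ)) : t.m ≤ t'.m := by
  by_contra hcon
  push Not at hcon
  have h1 := t.sub_jq_coeff_neg ζ
  rw [h, t'.sub_jq_coeff_of_lt ζ (by omega)] at h1
  exact (Units.ne_zero _) h1.symm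

variable (N)

theorem gs_red_inj {O k : Type*} [CommRing O] [Field k] (emb : O →+* ℂ) (ζ : Oˣ)
    (hζ : emb (ζ : O) = zetaN N) (res : O →+* k) (hres : IsPrimitiveRoot (res (ζ : O)) N)
    (q q' : Q N)
    (h : coeffMap res (gs N ζ q ⟨N, dvd_rfl⟩) = coeffMap res (gs N ζ q' ⟨N, dvd_rfl⟩)) : q = q' := by
  rw [gs, gs, coeffMap_sub, coeffMap_sub] at h
  apply ΘQ_genF_inj N
  rw [← sub_zetaU_eq, ← sub_zetaU_eq]
  obtain ⟨-, haD, -, -⟩ := tri_spec N q ⟨N, dvd_rfl⟩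
  obtain ⟨-, haD', -, -⟩ := tri_spec N q' ⟨N, dvd_rfl⟩
  generalize tri N q ⟨N, dvd_rfl⟩ = t at *
  generalize tri N q' ⟨N, dvd_rfl⟩ = t' at *
  change t.a * t.D = N at haD
  change t'.a * t'.D = N at haD'
  have hm : t.m = t'.m := le_antisymm (Tri.m_le_of_sub_eq _ t t' h) (Tri.m_le_of_sub_eq _ t' t h.symm)
  have hND : N / t.D = t.a := Nat.div_eq_of_eq_mul_left t.D_pos haD.symm
  have hND' : N / t'.D = t'.a := Nat.div_eq_of_eq_mul_left t'.D_pos haD'.symm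
  have ha : t.a = t'.a := by
    have : t.a * t.a = t'.a * t'.a := by
      have := hm
      rwa [Tri.m, Tri.m, hND, hND'] at this
    exact Nat.mul_self_inj.1 this
  have hc := t.sub_jq_coeff_neg (Units.map (res : O →* k) ζ)
  rw [h, hm, t'.sub_jq_coeff_neg, hND, hND', ← ha] at hc
  have hc2 : (Units.map (res : O →* k) ζ) ^ ((t.B - t'.B) * (t.a : ℤ)) = 1 := by
    have := inv_injective (Units.ext hc)
    rw [sub_mul, zpow_sub, this, mul_inv_cancel]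
  have hprim : IsPrimitiveRoot (Units.map (res : O →* k) ζ) N :=
    IsPrimitiveRoot.coe_units_iff.1 hres
  have hdvd : (N : ℤ) ∣ (t.B - t'.B) * (t.a : ℤ) := (hprim.zpow_eq_one_iff_dvd _).1 hc2
  have hprimU : IsPrimitiveRoot (zetaU N) N :=
    IsPrimitiveRoot.coe_units_iff.1 (isPrimitiveRoot_zetaN N)
  have hz : (zetaU N) ^ (t.B * (t.a : ℤ)) = (zetaU N) ^ (t'.B * (t.a : ℤ)) := by
    have := (hprimU.zpow_eq_one_iff_dvd _).2 hdvd
    rw [sub_mul, zpow_sub, mul_inv_eq_one] at this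
    exact this
  ext n
  by_cases hn : (t.m : ℤ) ∣ n
  · obtain ⟨j, rfl⟩ := hn
    rw [t.sub_coeff_mul, hm, t'.sub_coeff_mul, hND, hND', ← ha, hz]
  · rw [t.sub_coeff_of_not_dvd _ _ hn, t'.sub_coeff_of_not_dvd _ _ (hm ▸ hn)]

end Fermat.Agent.S28
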