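/-
S28, module **FamUnit**: the modular unit
`U(τ) = ∏_{e ∣ N} Δ(eτ)^(μ(N/e) e) / Δ(τ)^φ(N)` and its conjugates.

Recipe.  Put `r e = μ(N/e) e`, so `∑_{e ∣ N} r e = φ(N)` (`Arith.sum_moebius_mul_self`).  For `g ∈ SL₂(ℤ)`, with
`t_e, γ'_e` from `Hermite.exists_tri N e g`:
`Δ(e (g τ)) = Δ(γ'_e (t_e.aff τ)) = denom(γ'_e, t_e.aff τ)^12 Δ(t_e.aff τ) = (denom(g,τ)/D_e)^12 Δ(t_e.aff τ)`
(`jfacts_disc_smul`), `Δ(g τ) = denom(g,τ)^12 Δ(τ)`, hence
`U(g τ) = ∏_e D_e^(-12 r e) * ∏_e Δ(t_e.aff τ)^(r e) * Δ(τ)^(-φ(N))`.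
* `Γ₀(N)`-invariance of `U`: directly (`Δ(e γ τ) = Δ(γ'' (e τ))`, cf. the proof of
  `jfun_dmul_smul_of_mem_Gamma0`), or from the formula (`a_e = gcd(e, g 1 0) = e`, `D_e = 1`).
  Then `FamInv.equivariant_of_invariant` for `U q τ := U((out q)⁻¹ τ)`, `V q τ := (U q τ)⁻¹`.
* formal side: `DlU : (LaurentSeries ℤ)ˣ` from `DlZ_mul_DlInvZ`; for `t : Tri N`,
  `Units.map (t.sub ζ) DlU : (LaurentSeries O)ˣ`; `(D_e : O)` is a unit since `D_e ∣ N`;
  `u q := ∏_e C(D_e)^(-12 r e) * ∏_e (Units.map ((tri N q e).sub ζ) DlU)^(r e) * (Units.map (triv.sub ζ) DlU)^(-φ(N))`,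
  `v q := (u q)⁻¹`.  `coeffMap emb (u q) = cuspExp N (U q)`: `cuspExp N` is a ring hom, `Subst.cuspExp_comp_aff`
  with `cuspExp_one_disc`, `cuspExp_one_disc_inv`, `FamTheta.coeffMap_sub`.
* order: `O((s))` is a domain, `order` is additive on nonzero elements; `order (t.sub ζ DlZ) = t.m = N a/D`,
  and `r e * (N a_e/D_e) = N μ(N/e) a_e²` (`a_e D_e = e`), so
  `order (u q) = N (∑_e μ(N/e) gcd(e, c)² - φ(N))`, `c = (out q)⁻¹ 1 0`.  If `q ≠ q0` then `N ∤ c`
  (else `(out q)⁻¹ ∈ Γ₀(N)`), and the sum vanishes (`Arith.sum_moebius_mul_gcd_sq`).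
-/
import Fermat.Agent.S28.FamDefs
import Fermat.Agent.S28.FamTheta
import Fermat.Agent.S28.FamInv
import Fermat.Agent.S28.Arith

set_option autoImplicit false

open ModularCurve Fermat.Agent.S24 UpperHalfPlane Polynomial CongruenceSubgroup
open scoped MatrixGroups

namespace Fermat.Agent.S28

theorem famUnit_order_eq {R : Type*} [Zero R] (x : LaurentSeries R) (n : ℤ) (h1 : x.coeff n ≠ 0)
    (h2 : ∀ k < n, x.coeff k = 0) : x.order = n := by
  have hx : x ≠ 0 := by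
    rintro rfl
    exact h1 rfl
  refine le_antisymm (HahnSeries.order_le_of_coeff_ne_zero h1) ?_
  by_contra hlt
  push Not at hlt
  exact hx (HahnSeries.coeff_order_eq_zero.mp (h2 _ hlt))

theorem famUnit_DlZ_coeff_one : DlZ.coeff 1 = 1 := by
  have h := HahnSeries.coeff_single_mul_add (r := (1 : ℤ))
    (x := HahnSeries.ofPowerSeries ℤ ℤ dedekindEtaUnit) (a := 0) (b := 1)
  rw [show (0 : ℤ) + 1 = 1 from rfl] at h
  rw [DlZ, h, one_mul]
  have := HahnSeries.ofPowerSeries_apply_coeff (Γ := ℤ) dedekindEtaUnit 0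
  simp only [Nat.cast_zero] at this
  rw [this, PowerSeries.coeff_zero_eq_constantCoeff_apply, constantCoeff_dedekindEtaUnit]

theorem famUnit_DlZ_coeff_lt {k : ℤ} (hk : k < 1) : DlZ.coeff k = 0 := by
  have h := HahnSeries.coeff_single_mul_add (r := (1 : ℤ))
    (x := HahnSeries.ofPowerSeries ℤ ℤ dedekindEtaUnit) (a := k - 1) (b := 1)
  rw [show k - 1 + 1 = k by ring] at h
  rw [DlZ, h, one_mul, ofPowerSeries_coeff_of_neg _ (by omega)]

theorem famUnit_sub_apply {N : ℕ} [NeZero N] {O : Type*} [CommRing O] (ζ : Oˣ)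
    (t : Tri N) (x : LaurentSeries ℤ) : t.sub ζ x = qExpand O t.m
      ((rotU (ζ ^ (t.B * ((N / t.D : ℕ) : ℤ)))) (coeffMap (Int.castRingHom O) x)) := rfl

theorem famUnit_order_sub {N : ℕ} [NeZero N] {O : Type*} [CommRing O] [Nontrivial O] (ζ : Oˣ)
    (t : Tri N) : (t.sub ζ DlZ).order = (t.m : ℤ) := by
  have hm : (0 : ℤ) < t.m := by exact_mod_cast Nat.pos_of_ne_zero (NeZero.ne t.m)
  apply famUnit_order_eq
  · have := qExpand_coeff_mul (R := O) t.m ((rotU (ζ ^ (t.B * ((N / t.D : ℕ) : ℤ))))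
      (coeffMap (Int.castRingHom O) DlZ)) 1
    rw [mul_one] at this
    rw [famUnit_sub_apply, this, rotU_coeff, coeffMap_coeff, famUnit_DlZ_coeff_one]
    simp
  · intro k hk
    rw [famUnit_sub_apply]
    by_cases hd : (t.m : ℤ) ∣ k
    · obtain ⟨c, rfl⟩ := hd
      rw [qExpand_coeff_mul, rotU_coeff, coeffMap_coeff, famUnit_DlZ_coeff_lt, map_zero, mul_zero]
      by_contra hc
      push Not at hc
      nlinarith
    · exact qExpand_coeff_of_not_dvd _ _ hd

theorem famUnit_prod_zpow {G ι : Type*} [CommGroup G] (a : G) (f : ι → ℤ) (s : Finset ι) :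
    ∏ i ∈ s, a ^ f i = a ^ ∑ i ∈ s, f i := by
  classical
  induction s using Finset.induction_on with
  | empty => simp
  | insert i s hi ih => rw [Finset.prod_insert hi, Finset.sum_insert hi, ih, zpow_add]

theorem famUnit_cancel {G ι : Type*} [CommGroup G] (s : Finset ι) (r : ι → ℤ) (φ : ℤ)
    (hr : ∑ i ∈ s, r i = φ) (d : G) (A c B : ι → G) (A₀ B₀ : G)
    (hA : ∀ i ∈ s, A i = d * (c i * B i)) (hA₀ : A₀ = d * B₀) :
    (∏ i ∈ s, A i ^ r i) * A₀ ^ (-φ) = (∏ i ∈ s, (c i * B i) ^ r i) * B₀ ^ (-φ) := by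
  have h1 : ∏ i ∈ s, A i ^ r i = d ^ φ * ∏ i ∈ s, (c i * B i) ^ r i := by
    rw [← hr, ← famUnit_prod_zpow, ← Finset.prod_mul_distrib]
    exact Finset.prod_congr rfl fun i hi => by rw [hA i hi, mul_zpow]
  rw [h1, hA₀, mul_zpow, zpow_neg, zpow_neg]
  have : d ^ φ * (d ^ φ)⁻¹ = 1 := mul_inv_cancel _
  calc (d ^ φ * ∏ i ∈ s, (c i * B i) ^ r i) * ((d ^ φ)⁻¹ * (B₀ ^ φ)⁻¹)
      = (d ^ φ * (d ^ φ)⁻¹) * ((∏ i ∈ s, (c i * B i) ^ r i) * (B₀ ^ φ)⁻¹) := by
        simp only [mul_assoc, mul_left_comm, mul_comm]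
    _ = _ := by rw [this, one_mul]

/-- `Δ(τ)` as a unit -/
noncomputable def famUnitΔ (τ : ℍ) : ℂˣ :=
  Units.mk0 (ModularForm.discriminant τ) (ModularForm.discriminant_ne_zero τ)

/-- `denom g τ` as a unit -/
noncomputable def famUnitDen (g : SL(2, ℤ)) (τ : ℍ) : ℂˣ :=
  Units.mk0 (denom g τ) (denom_ne_zero g τ)

theorem famUnitΔ_smul (g : SL(2, ℤ)) (τ : ℍ) :
    famUnitΔ (g • τ) = famUnitDen g τ ^ (12 : ℤ) * famUnitΔ τ := by
  apply Units.ext
  rw [Units.val_mul, Units.val_zpow_eq_zpow_val]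
  exact jfacts_disc_smul g τ

section Main

variable (N : ℕ) [NeZero N]

theorem famUnit_dmul_Gamma0 (d : Dv N) (γ : SL(2, ℤ)) (hγ : γ ∈ Gamma0 N) (τ : ℍ) :
    ∃ γ' : SL(2, ℤ), dmul d (γ • τ) = γ' • dmul d τ ∧ denom γ' (dmul d τ) = denom γ τ := by
  rw [Gamma0_mem, ZMod.intCast_zmod_eq_zero_iff_dvd] at hγ
  have hd : (d.1 : ℤ) ∣ γ 1 0 := (Int.natCast_dvd_natCast.mpr d.2).trans hγ
  obtain ⟨c', hc'⟩ := hd
  have hdet : γ 0 0 * γ 1 1 - γ 0 1 * γ 1 0 = 1 := by
    have := γ.det_coe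
    rw [Matrix.det_fin_two] at this
    exact this
  let γ' : SL(2, ℤ) := ⟨!![γ 0 0, γ 0 1 * d.1; c', γ 1 1], by
    rw [Matrix.det_fin_two_of]; rw [hc'] at hdet; linear_combination hdet⟩
  have c10 : (γ 1 0 : ℂ) = d.1 * c' := by exact_mod_cast hc'
  refine ⟨γ', ?_, ?_⟩
  · rw [UpperHalfPlane.ext_iff, jfacts_dmul_coe, coe_specialLinearGroup_apply,
      coe_specialLinearGroup_apply, jfacts_dmul_coe]
    have n1 := denom_ne_zero γ τ
    have n2 := denom_ne_zero γ' (dmul d τ)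
    simp only [denom, jfacts_dmul_coe] at n1 n2
    simp only [Matrix.SpecialLinearGroup.coe_GL_coe_matrix, Matrix.SpecialLinearGroup.map_apply_coe,
      RingHom.mapMatrix_apply, Int.coe_castRingHom, Matrix.map_apply, Complex.ofReal_intCast,
      algebraMap_int_eq, eq_intCast] at n1 n2 ⊢
    simp only [γ', Matrix.of_apply, Matrix.cons_val', Matrix.cons_val_zero,
      Matrix.cons_val_fin_one, Matrix.cons_val_one] at n2 ⊢
    rw [← mul_div_assoc, div_eq_div_iff n1 n2]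
    push_cast
    rw [c10]
    ring
  · simp only [denom, jfacts_dmul_coe]
    simp only [Matrix.SpecialLinearGroup.coe_GL_coe_matrix, Matrix.SpecialLinearGroup.map_apply_coe,
      RingHom.mapMatrix_apply, Int.coe_castRingHom, Matrix.map_apply, Complex.ofReal_intCast]
    simp only [γ', Matrix.of_apply, Matrix.cons_val', Matrix.cons_val_zero,
      Matrix.cons_val_fin_one, Matrix.cons_val_one]
    rw [c10]
    ring

/-- index set -/
abbrev FamIdx := {x // x ∈ N.divisors}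

/-- the divisor -/
def famDv (x : FamIdx N) : Dv N := ⟨x.1, Nat.dvd_of_mem_divisors x.2⟩

/-- the exponents `μ(N/e) e` -/
def famR (x : FamIdx N) : ℤ := (ArithmeticFunction.moebius (N / x.1) : ℤ) * (x.1 : ℤ)

theorem famR_sum : ∑ x ∈ N.divisors.attach, famR N x = (N.totient : ℤ) := by
  rw [← sum_moebius_mul_self N (Nat.pos_of_ne_zero (NeZero.ne N))]
  exact Finset.sum_attach N.divisors
    (fun e => (ArithmeticFunction.moebius (N / e) : ℤ) * (e : ℤ))

/-- the modular unit, as a unit of `ℂ` -/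
noncomputable def famU0 (τ : ℍ) : ℂˣ :=
  (∏ x ∈ N.divisors.attach, famUnitΔ (dmul (famDv N x) τ) ^ famR N x) *
    famUnitΔ τ ^ (-(N.totient : ℤ))

theorem famU0_Gamma0 (γ : SL(2, ℤ)) (hγ : γ ∈ Gamma0 N) (τ : ℍ) :
    famU0 N (γ • τ) = famU0 N τ := by
  have h := famUnit_cancel N.divisors.attach (famR N) _ (famR_sum N) (famUnitDen γ τ ^ (12 : ℤ))
    (fun x => famUnitΔ (dmul (famDv N x) (γ • τ))) (fun _ => 1)
    (fun x => famUnitΔ (dmul (famDv N x) τ)) (famUnitΔ (γ • τ)) (famUnitΔ τ)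
    (fun x _ => by
      obtain ⟨γ', h1, h2⟩ := famUnit_dmul_Gamma0 N (famDv N x) γ hγ τ
      rw [h1, famUnitΔ_smul, one_mul]
      congr 2
      exact Units.ext h2)
    (famUnitΔ_smul γ τ)
  simp only [one_mul] at h
  exact h

/-- the formal `Δ` as a unit -/
noncomputable def DlU : (LaurentSeries ℤ)ˣ :=
  ⟨DlZ, DlInvZ, DlZ_mul_DlInvZ, by rw [mul_comm]; exact DlZ_mul_DlInvZ⟩

/-- `τ ↦ Δ(t.aff τ)` as a unit of `Mer N` -/
noncomputable def famX (t : Tri N) : (Mer N)ˣ where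
  val := ⟨fun τ => ModularForm.discriminant (t.aff τ),
    (cuspExp_comp_aff N t _ cuspExp_one_disc.choose DlZ cuspExp_one_disc.choose_spec).choose⟩
  inv := ⟨fun τ => (ModularForm.discriminant (t.aff τ))⁻¹,
    (cuspExp_comp_aff N t _ cuspExp_one_disc_inv.choose DlInvZ
      cuspExp_one_disc_inv.choose_spec).choose⟩
  val_inv := Subtype.ext (funext fun τ => mul_inv_cancel₀ (ModularForm.discriminant_ne_zero _))
  inv_val := Subtype.ext (funext fun τ => inv_mul_cancel₀ (ModularForm.discriminant_ne_zero _))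

theorem famX_cuspExp (t : Tri N) :
    Units.map (cuspExp N : Mer N →* LaurentSeries ℂ) (famX N t) =
      Units.map (t.sub (zetaU N) : LaurentSeries ℤ →* LaurentSeries ℂ) DlU :=
  Units.ext
    (cuspExp_comp_aff N t _ cuspExp_one_disc.choose DlZ cuspExp_one_disc.choose_spec).choose_spec

/-- constants as units of `Mer N` -/
noncomputable def famC (c : ℂˣ) : (Mer N)ˣ where
  val := ⟨fun _ => (c : ℂ), Bd_le_Mer N (const_mem_Bd N c)⟩
  inv := ⟨fun _ => ((c⁻¹ : ℂˣ) : ℂ), Bd_le_Mer N (const_mem_Bd N _)⟩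
  val_inv := Subtype.ext (funext fun _ => c.mul_inv)
  inv_val := Subtype.ext (funext fun _ => c.inv_mul)

theorem famC_cuspExp (c : ℂˣ) :
    Units.map (cuspExp N : Mer N →* LaurentSeries ℂ) (famC N c) =
      Units.map ((HahnSeries.C : ℂ →+* LaurentSeries ℂ) : ℂ →* LaurentSeries ℂ) c :=
  Units.ext (cuspExp_const N c)

/-- evaluation at `τ` -/
def famEv (τ : ℍ) : Mer N →+* ℂ := (Pi.evalRingHom (fun _ : ℍ => ℂ) τ).comp (Mer N).subtype

theorem famEv_famX (t : Tri N) (τ : ℍ) :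
    Units.map (famEv N τ : Mer N →* ℂ) (famX N t) = famUnitΔ (t.aff τ) := Units.ext rfl

theorem famEv_famC (c : ℂˣ) (τ : ℍ) :
    Units.map (famEv N τ : Mer N →* ℂ) (famC N c) = c := Units.ext rfl

/-- the trivial triangle -/
def famTriv : Tri N := ⟨1, 0, 1, one_pos, one_pos, one_dvd N⟩

theorem famTriv_aff (τ : ℍ) : (famTriv N).aff τ = τ := by
  rw [UpperHalfPlane.ext_iff]
  change ((((1 : ℕ) : ℤ) : ℂ) * (τ : ℂ) + ((0 : ℤ) : ℂ)) / (((1 : ℕ) : ℤ) : ℂ) = τ
  simp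

theorem famTriv_m : (famTriv N).m = N := by
  simp [Tri.m, famTriv]

/-- the analytic unit attached to a coset -/
noncomputable def famW (dC : Tri N → ℂˣ) (q : Q N) : (Mer N)ˣ :=
  (∏ x ∈ N.divisors.attach,
    (famC N (dC (tri N q (famDv N x))) ^ (-12 : ℤ) * famX N (tri N q (famDv N x))) ^ famR N x) *
    famX N (famTriv N) ^ (-(N.totient : ℤ))

theorem famEv_famW (dC : Tri N → ℂˣ) (hdC : ∀ t, ((dC t : ℂˣ) : ℂ) = t.D) (q : Q N) (τ : ℍ) :
    Units.map (famEv N τ : Mer N →* ℂ) (famW N dC q) =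
      famU0 N ((Quotient.out q : SL(2, ℤ))⁻¹ • τ) := by
  rw [famW, map_mul, map_prod, map_zpow, famEv_famX, famTriv_aff]
  simp only [map_zpow, map_mul, famEv_famX, famEv_famC]
  symm
  refine famUnit_cancel N.divisors.attach (famR N) _ (famR_sum N)
    (famUnitDen (Quotient.out q : SL(2, ℤ))⁻¹ τ ^ (12 : ℤ)) _ _ _ _ _ (fun x _ => ?_)
    (famUnitΔ_smul _ τ)
  obtain ⟨γ', -, -, h⟩ := tri_spec N q (famDv N x)
  obtain ⟨h1, h2⟩ := h τ
  rw [h1, famUnitΔ_smul, ← mul_assoc]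
  congr 1
  have h3 : famUnitDen γ' ((tri N q (famDv N x)).aff τ) * dC (tri N q (famDv N x)) =
      famUnitDen (Quotient.out q : SL(2, ℤ))⁻¹ τ := by
    apply Units.ext
    rw [Units.val_mul, hdC]
    exact h2
  rw [← h3, mul_zpow, mul_assoc, ← zpow_add]
  simp

section Formal

variable {O : Type} [CommRing O] [IsDomain O]

theorem famUnit_order_inv (x : (LaurentSeries O)ˣ) :
    ((x⁻¹ : (LaurentSeries O)ˣ) : LaurentSeries O).order = -(x : LaurentSeries O).order := by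
  have h := HahnSeries.order_mul x.ne_zero (x⁻¹).ne_zero
  rw [← Units.val_mul, mul_inv_cancel, Units.val_one, HahnSeries.order_one] at h
  linarith

theorem famUnit_order_zpow (x : (LaurentSeries O)ˣ) (n : ℤ) :
    ((x ^ n : (LaurentSeries O)ˣ) : LaurentSeries O).order = n * (x : LaurentSeries O).order := by
  induction n using Int.induction_on with
  | zero => simp
  | succ n ih =>
    rw [zpow_add_one, Units.val_mul, HahnSeries.order_mul (Units.ne_zero _) x.ne_zero, ih]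
    ring
  | pred n ih =>
    rw [zpow_sub_one, Units.val_mul, HahnSeries.order_mul (Units.ne_zero _) (Units.ne_zero _), ih,
      famUnit_order_inv]
    ring

theorem famUnit_order_prod {ι : Type*} (s : Finset ι) (f : ι → (LaurentSeries O)ˣ) :
    ((∏ i ∈ s, f i : (LaurentSeries O)ˣ) : LaurentSeries O).order =
      ∑ i ∈ s, (f i : LaurentSeries O).order := by
  classical
  induction s using Finset.induction_on with
  | empty => simp
  | insert i s hi ih =>
    rw [Finset.prod_insert hi, Finset.sum_insert hi, Units.val_mul,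
      HahnSeries.order_mul (Units.ne_zero _) (Units.ne_zero _), ih]

/-- the formal unit attached to a coset -/
noncomputable def famu (ζ : Oˣ) (dO : Tri N → Oˣ) (q : Q N) : (LaurentSeries O)ˣ :=
  (∏ x ∈ N.divisors.attach,
    (Units.map ((HahnSeries.C : O →+* LaurentSeries O) : O →* LaurentSeries O)
        (dO (tri N q (famDv N x))) ^ (-12 : ℤ) *
      Units.map ((tri N q (famDv N x)).sub ζ : LaurentSeries ℤ →* LaurentSeries O) DlU) ^
        famR N x) *
    Units.map ((famTriv N).sub ζ : LaurentSeries ℤ →* LaurentSeries O) DlU ^ (-(N.totient : ℤ))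

theorem famu_transfer (emb : O →+* ℂ) (ζ : Oˣ) (hζ : emb (ζ : O) = zetaN N) (dO : Tri N → Oˣ)
    (q : Q N) :
    Units.map (coeffMap emb : LaurentSeries O →* LaurentSeries ℂ) (famu N ζ dO q) =
      Units.map (cuspExp N : Mer N →* LaurentSeries ℂ)
        (famW N (fun t => Units.map (emb : O →* ℂ) (dO t)) q) := by
  have hz : Units.map (emb : O →* ℂ) ζ = zetaU N := Units.ext hζ
  have ha : ∀ a : Oˣ, Units.map (coeffMap emb : LaurentSeries O →* LaurentSeries ℂ)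
      (Units.map ((HahnSeries.C : O →+* LaurentSeries O) : O →* LaurentSeries O) a) =
      Units.map ((HahnSeries.C : ℂ →+* LaurentSeries ℂ) : ℂ →* LaurentSeries ℂ)
        (Units.map (emb : O →* ℂ) a) := by
    intro a
    apply Units.ext
    change coeffMap emb (HahnSeries.C (a : O)) = HahnSeries.C (emb (a : O))
    rw [HahnSeries.C_apply, coeffMap_single, HahnSeries.C_apply]
  have hb : ∀ t : Tri N, Units.map (coeffMap emb : LaurentSeries O →* LaurentSeries ℂ)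
      (Units.map (t.sub ζ : LaurentSeries ℤ →* LaurentSeries O) DlU) =
      Units.map (t.sub (zetaU N) : LaurentSeries ℤ →* LaurentSeries ℂ) DlU := by
    intro t
    apply Units.ext
    change coeffMap emb (t.sub ζ DlZ) = t.sub (zetaU N) DlZ
    rw [coeffMap_sub, hz]
  simp only [famu, famW, map_mul, map_prod, map_zpow, ha, hb, famX_cuspExp, famC_cuspExp]

theorem famu_order (ζ : Oˣ) (dO : Tri N → Oˣ) (q : Q N) (hq : q ≠ q0 N) :
    ((famu N ζ dO q : (LaurentSeries O)ˣ) : LaurentSeries O).order < 0 := by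
  have hN : 0 < N := Nat.pos_of_ne_zero (NeZero.ne N)
  set c : ℤ := (Quotient.out q : SL(2, ℤ))⁻¹ 1 0 with hc
  have hcN : ¬ (N : ℤ) ∣ c := by
    intro hdvd
    apply hq
    have hmem : (Quotient.out q : SL(2, ℤ))⁻¹ ∈ Gamma0 N := by
      rw [Gamma0_mem, ZMod.intCast_zmod_eq_zero_iff_dvd]
      exact hdvd
    have : (QuotientGroup.mk (Quotient.out q : SL(2, ℤ)) : Q N) = QuotientGroup.mk 1 := by
      rw [QuotientGroup.eq, mul_one]
      exact hmem
    exact (QuotientGroup.out_eq' q).symm.trans this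
  have hterm : ∀ x ∈ N.divisors.attach,
      (((Units.map ((HahnSeries.C : O →+* LaurentSeries O) : O →* LaurentSeries O)
        (dO (tri N q (famDv N x))) ^ (-12 : ℤ) *
      Units.map ((tri N q (famDv N x)).sub ζ : LaurentSeries ℤ →* LaurentSeries O) DlU) ^
        famR N x : (LaurentSeries O)ˣ) : LaurentSeries O).order =
      (N : ℤ) * ((ArithmeticFunction.moebius (N / x.1) : ℤ) * ((Int.gcd (x.1 : ℤ) c : ℤ)) ^ 2) := by
    intro x _
    obtain ⟨γ', h1, h2, -⟩ := tri_spec N q (famDv N x)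
    set t := tri N q (famDv N x) with ht
    rw [famUnit_order_zpow, Units.val_mul,
      HahnSeries.order_mul (Units.ne_zero _) (Units.ne_zero _), famUnit_order_zpow]
    have e1 : ((Units.map ((HahnSeries.C : O →+* LaurentSeries O) : O →* LaurentSeries O)
        (dO t) : (LaurentSeries O)ˣ) : LaurentSeries O).order = 0 := HahnSeries.order_C
    have e2 : ((Units.map (t.sub ζ : LaurentSeries ℤ →* LaurentSeries O) DlU :
        (LaurentSeries O)ˣ) : LaurentSeries O).order = (t.m : ℤ) := famUnit_order_sub ζ t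
    have h2' : ((Int.gcd (x.1 : ℤ) c : ℕ) : ℤ) = t.a := h2.symm
    rw [e1, e2, h2', famR, Tri.m]
    obtain ⟨k, hk⟩ := t.D_dvd
    have hk' : N / t.D = k := Nat.div_eq_of_eq_mul_right t.D_pos hk
    have h1' : (x.1 : ℤ) = t.a * t.D := by
      have : (famDv N x).1 = x.1 := rfl
      rw [← this, ← h1]; push_cast; ring
    have hNk : (N : ℤ) = t.D * k := by exact_mod_cast hk
    rw [hk', h1']
    generalize (ArithmeticFunction.moebius (N / x.1) : ℤ) = μ
    rw [hNk]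
    push_cast
    ring
  rw [famu, Units.val_mul, HahnSeries.order_mul (Units.ne_zero _) (Units.ne_zero _),
    famUnit_order_prod, Finset.sum_congr rfl hterm, ← Finset.mul_sum, famUnit_order_zpow]
  have hsum : ∑ x ∈ N.divisors.attach,
      (ArithmeticFunction.moebius (N / x.1) : ℤ) * ((Int.gcd (x.1 : ℤ) c : ℤ)) ^ 2 = 0 := by
    rw [← sum_moebius_mul_gcd_sq N hN c hcN]
    exact Finset.sum_attach N.divisors
      (fun e => (ArithmeticFunction.moebius (N / e) : ℤ) * ((Int.gcd (e : ℤ) c : ℤ)) ^ 2)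
  have e3 : ((Units.map ((famTriv N).sub ζ : LaurentSeries ℤ →* LaurentSeries O) DlU :
      (LaurentSeries O)ˣ) : LaurentSeries O).order = (N : ℤ) := by
    have := famUnit_order_sub ζ (famTriv N)
    rw [famTriv_m] at this
    exact this
  rw [hsum, e3, mul_zero, zero_add]
  have h1 : (0 : ℤ) < N.totient := by exact_mod_cast Nat.totient_pos.mpr hN
  have h2 : (0 : ℤ) < N := by exact_mod_cast hN
  nlinarith

end Formal

end Main

theorem exists_unit_family (N : ℕ) [NeZero N] {O : Type} [CommRing O] [IsDomain O]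
    (emb : O →+* ℂ) (ζ : Oˣ) (hζ : emb (ζ : O) = zetaN N) (hN : IsUnit (N : O)) :
    ∃ (u v : Q N → LaurentSeries O) (U V : Q N → ℍ → ℂ)
      (hU : ∀ q, U q ∈ Mer N) (hV : ∀ q, V q ∈ Mer N),
      (∀ q, u q * v q = 1) ∧
      (∀ q, q ≠ q0 N → (u q).order < 0) ∧
      (∀ (g : SL(2, ℤ)) (q : Q N) (τ : ℍ), U (g • q) τ = U q (g⁻¹ • τ)) ∧
      (∀ (g : SL(2, ℤ)) (q : Q N) (τ : ℍ), V (g • q) τ = V q (g⁻¹ • τ)) ∧
      (∀ q, coeffMap emb (u q) = cuspExp N ⟨U q, hU q⟩) ∧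
      (∀ q, coeffMap emb (v q) = cuspExp N ⟨V q, hV q⟩) := by
  have hD : ∀ t : Tri N, IsUnit ((t.D : ℕ) : O) := fun t =>
    isUnit_of_dvd_unit (Nat.cast_dvd_cast t.D_dvd) hN
  let dO : Tri N → Oˣ := fun t => (hD t).unit
  let dC : Tri N → ℂˣ := fun t => Units.map (emb : O →* ℂ) (dO t)
  have hdC : ∀ t, ((dC t : ℂˣ) : ℂ) = t.D := by
    intro t
    change emb ((hD t).unit : O) = t.D
    rw [IsUnit.unit_spec, map_natCast]
  have hval : ∀ q τ, ((famW N dC q : (Mer N)ˣ) : Mer N).1 τ =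
      ((famU0 N ((Quotient.out q : SL(2, ℤ))⁻¹ • τ) : ℂˣ) : ℂ) := fun q τ =>
    congrArg Units.val (famEv_famW N dC hdC q τ)
  have hinv : ∀ q τ, (((famW N dC q)⁻¹ : (Mer N)ˣ) : Mer N).1 τ =
      (((famU0 N ((Quotient.out q : SL(2, ℤ))⁻¹ • τ))⁻¹ : ℂˣ) : ℂ) := fun q τ => by
    have := congrArg (fun z : ℂˣ => ((z⁻¹ : ℂˣ) : ℂ)) (famEv_famW N dC hdC q τ)
    simp only [← map_inv] at this
    exact this
  refine ⟨fun q => (famu N ζ dO q : (LaurentSeries O)ˣ),
    fun q => ((famu N ζ dO q)⁻¹ : (LaurentSeries O)ˣ),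
    fun q => ((famW N dC q : (Mer N)ˣ) : Mer N).1,
    fun q => (((famW N dC q)⁻¹ : (Mer N)ˣ) : Mer N).1,
    fun q => ((famW N dC q : (Mer N)ˣ) : Mer N).2,
    fun q => (((famW N dC q)⁻¹ : (Mer N)ˣ) : Mer N).2,
    fun q => (famu N ζ dO q).mul_inv, fun q hq => famu_order N ζ dO q hq, ?_, ?_, ?_, ?_⟩
  · intro g q τ
    show ((famW N dC (g • q) : (Mer N)ˣ) : Mer N).1 τ =
      ((famW N dC q : (Mer N)ˣ) : Mer N).1 (g⁻¹ • τ)
    rw [hval, hval]
    exact equivariant_of_invariant N (fun τ => ((famU0 N τ : ℂˣ) : ℂ))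
      (fun γ hγ τ => by simp only [famU0_Gamma0 N γ hγ τ]) g q τ
  · intro g q τ
    show (((famW N dC (g • q))⁻¹ : (Mer N)ˣ) : Mer N).1 τ =
      (((famW N dC q)⁻¹ : (Mer N)ˣ) : Mer N).1 (g⁻¹ • τ)
    rw [hinv, hinv]
    exact equivariant_of_invariant N (fun τ => (((famU0 N τ)⁻¹ : ℂˣ) : ℂ))
      (fun γ hγ τ => by simp only [famU0_Gamma0 N γ hγ τ]) g q τ
  · intro q
    exact congrArg Units.val (famu_transfer N emb ζ hζ dO q)
  · intro q
    have := congrArg (fun z : (LaurentSeries ℂ)ˣ => ((z⁻¹ : (LaurentSeries ℂ)ˣ) : LaurentSeries ℂ))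
      (famu_transfer N emb ζ hζ dO q)
    simp only [← map_inv] at this
    exact this

end Fermat.Agent.S28
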