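/-
S28, module **Families** (assembly): the data needed by `CoreIrr`, `CoreK` and `QEP`.
-/
import Fermat.Agent.S28.FamUnit
import Fermat.Agent.S28.PolJ

set_option autoImplicit false

open ModularCurve Fermat.Agent.S24 UpperHalfPlane Polynomial
open scoped MatrixGroups

namespace Fermat.Agent.S28

/-- coefficients of a product `∏ (X - C (x q))` under a ring hom -/
theorem map_prod_coeff {A B ι : Type*} [CommRing A] [CommRing B] [Fintype ι] (φ : A →+* B)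
    (x : ι → A) (i : ℕ) :
    φ ((∏ q, (X - C (x q))).coeff i) = (∏ q, (X - C (φ (x q)))).coeff i := by
  rw [← Polynomial.coeff_map, Polynomial.map_prod]
  simp

theorem exists_families (N : ℕ) [NeZero N] {O : Type} [CommRing O] [IsDomain O]
    [IsDiscreteValuationRing O]
    (emb : O →+* ℂ) (hemb : Function.Injective emb) (ζ : Oˣ) (hζ : emb (ζ : O) = zetaN N)
    (hN : IsUnit (N : O)) (hres : IsPrimitiveRoot (IsLocalRing.residue O (ζ : O)) N) :
    ∃ (u v : Q N → LaurentSeries O),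
      (∀ q d, coeffMap emb (gs N ζ q d) = (cuspChart N).ΘQ q (genF N d)) ∧
      (∀ q q', coeffMap (IsLocalRing.residue O) (gs N ζ q ⟨N, dvd_rfl⟩)
        = coeffMap (IsLocalRing.residue O) (gs N ζ q' ⟨N, dvd_rfl⟩) → q = q') ∧
      (∀ q, u q * v q = 1) ∧
      (∀ q, q ≠ q0 N → (u q).order < 0) ∧
      (∀ i, IsPol N ((∏ q, (X - C (gs N ζ q ⟨N, dvd_rfl⟩))).coeff i)) ∧
      (∀ i, IsPol N ((∏ q, (X - C (u q))).coeff i)) ∧
      (∀ i, IsPol N ((∏ q, (X - C (v q))).coeff i)) ∧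
      (∀ r : ℕ, IsPol N (∑ q, u q * gs N ζ q ⟨N, dvd_rfl⟩ ^ r)) := by
  obtain ⟨u, v, U, V, hU, hV, huv, hord, hUeq, hVeq, hu, hv⟩ := exists_unit_family N emb ζ hζ hN
  -- the analytic family of `θ`
  set T : Q N → ℍ → ℂ := fun q τ =>
    jfun (dmul (⟨N, dvd_rfl⟩ : Dv N) ((Quotient.out q : SL(2, ℤ))⁻¹ • τ)) with hT
  have hTm : ∀ q, T q ∈ Mer N := fun q => jd_mem_Mer N _ _
  have hTeq : ∀ (g : SL(2, ℤ)) (q : Q N) (τ : ℍ), T (g • q) τ = T q (g⁻¹ • τ) := fun g q τ =>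
    equivariant_of_invariant N (fun τ => jfun (dmul (⟨N, dvd_rfl⟩ : Dv N) τ))
      (fun γ hγ τ => jfun_dmul_smul_of_mem_Gamma0 N _ γ hγ τ) g q τ
  have hθ : ∀ q, coeffMap emb (gs N ζ q ⟨N, dvd_rfl⟩) = cuspExp N ⟨T q, hTm q⟩ := fun q => by
    rw [coeffMap_gs N emb ζ hζ, ΘQ_genF]
  refine ⟨u, v, coeffMap_gs N emb ζ hζ, fun q q' h => gs_red_inj N emb ζ hζ _ hres q q' h, huv, hord,
    fun i => ?_, fun i => ?_, fun i => ?_, fun r => ?_⟩
  · obtain ⟨R, hR⟩ := prod_coeff_eq_aeval N T hTm hTeq i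
    refine isPol_of_map N emb hemb _ R ?_
    rw [map_prod_coeff, ← hR]
    simp only [hθ]
  · obtain ⟨R, hR⟩ := prod_coeff_eq_aeval N U hU hUeq i
    refine isPol_of_map N emb hemb _ R ?_
    rw [map_prod_coeff, ← hR]
    simp only [hu]
  · obtain ⟨R, hR⟩ := prod_coeff_eq_aeval N V hV hVeq i
    refine isPol_of_map N emb hemb _ R ?_
    rw [map_prod_coeff, ← hR]
    simp only [hv]
  · obtain ⟨R, hR⟩ := sum_mul_pow_eq_aeval N U T hU hTm hUeq hTeq r
    refine isPol_of_map N emb hemb _ R ?_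
    rw [map_sum, ← hR]
    simp only [map_mul, map_pow, hu, hθ]

end Fermat.Agent.S28
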