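/-
S28, module **Galois**: a complete set of embeddings computes traces and minimal polynomials
(generic field theory; companions of `Fermat.Agent.S24.norm_eq_prod`).
-/
import Fermat.Agent.S24.DegreeBound

set_option autoImplicit false

open IntermediateField Polynomial

namespace Fermat.Agent.S28

theorem trace_eq_sum {K F L : Type*} [Field K] [CharZero K] [Field F] [Algebra K F] [Field L]
    {Q : Type*} [Fintype Q] (x : F) [FiniteDimensional K⟮x⟯ F] (Θ : Q → F →+* L)
    (hinj : Function.Injective Θ) (hx : ∀ q q', Θ q x = Θ q' x)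
    (hK : ∀ q q' (a : K), Θ q (algebraMap K F a) = Θ q' (algebraMap K F a))
    (hn : Module.finrank K⟮x⟯ F = Fintype.card Q) (q₀ : Q) (b : F) :
    Θ q₀ ((Algebra.trace K⟮x⟯ F b : K⟮x⟯) : F) = ∑ q, Θ q b := by
  let E := AlgebraicClosure L
  let _ : Algebra K⟮x⟯ E := ((algebraMap L E).comp ((Θ q₀).comp (algebraMap K⟮x⟯ F))).toAlgebra
  let Φ : Q → (F →ₐ[K⟮x⟯] E) := fun q =>
    { (algebraMap L E).comp (Θ q) with
      commutes' := fun z => congrArg (algebraMap L E)
        (Fermat.Agent.S24.DegreeBound.agree_adjoin x (Θ q) (Θ q₀) (hx q q₀) (hK q q₀) z) }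
  have hΦ : Function.Injective Φ := by
    intro q q' h
    apply hinj
    ext f
    exact (algebraMap L E).injective (DFunLike.congr_fun h f)
  have : CharZero K⟮x⟯ := charZero_of_injective_algebraMap (algebraMap K K⟮x⟯).injective
  have hcard : Fintype.card (F →ₐ[K⟮x⟯] E) = Fintype.card Q := by
    rw [AlgHom.card, hn]
  have hbij : Function.Bijective Φ :=
    (Fintype.bijective_iff_injective_and_card Φ).2 ⟨hΦ, hcard.symm⟩
  have h := trace_eq_sum_embeddings (K := K⟮x⟯) (L := F) E (x := b)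
  apply (algebraMap L E).injective
  rw [map_sum]
  have h2 : ∑ q, (algebraMap L E) (Θ q b) = ∑ σ : F →ₐ[K⟮x⟯] E, σ b :=
    Fintype.sum_bijective Φ hbij _ _ (fun q => rfl)
  rw [h2, ← h]
  rfl

theorem coeff_minpoly_mem {K F L : Type*} [Field K] [CharZero K] [Field F] [Algebra K F] [Field L]
    {Q : Type*} [Fintype Q] (x : F) [FiniteDimensional K⟮x⟯ F] (Θ : Q → F →+* L)
    (hinj : Function.Injective Θ) (hx : ∀ q q', Θ q x = Θ q' x)
    (hK : ∀ q q' (a : K), Θ q (algebraMap K F a) = Θ q' (algebraMap K F a))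
    (hn : Module.finrank K⟮x⟯ F = Fintype.card Q) (q₀ : Q) (S : Subring L) (b : F)
    (hb : ∀ q, Θ q b ∈ S) (i : ℕ) :
    Θ q₀ (((minpoly K⟮x⟯ b).coeff i : K⟮x⟯) : F) ∈ S := by
  let E := AlgebraicClosure L
  let _ : Algebra K⟮x⟯ E := ((algebraMap L E).comp ((Θ q₀).comp (algebraMap K⟮x⟯ F))).toAlgebra
  let Φ : Q → (F →ₐ[K⟮x⟯] E) := fun q =>
    { (algebraMap L E).comp (Θ q) with
      commutes' := fun z => congrArg (algebraMap L E)
        (Fermat.Agent.S24.DegreeBound.agree_adjoin x (Θ q) (Θ q₀) (hx q q₀) (hK q q₀) z) }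
  have hΦ : Function.Injective Φ := by
    intro q q' h
    apply hinj
    ext f
    exact (algebraMap L E).injective (DFunLike.congr_fun h f)
  have : CharZero K⟮x⟯ := charZero_of_injective_algebraMap (algebraMap K K⟮x⟯).injective
  have hcard : Fintype.card (F →ₐ[K⟮x⟯] E) = Fintype.card Q := by
    rw [AlgHom.card, hn]
  have hbij : Function.Bijective Φ :=
    (Fintype.bijective_iff_injective_and_card Φ).2 ⟨hΦ, hcard.symm⟩
  have hint : IsIntegral K⟮x⟯ b := Algebra.IsIntegral.isIntegral b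
  have hsp : ((minpoly K⟮x⟯ b).map (algebraMap K⟮x⟯ E)).Splits := IsAlgClosed.splits _
  have hmon : ((minpoly K⟮x⟯ b).map (algebraMap K⟮x⟯ E)).Monic := (minpoly.monic hint).map _
  have hroots : ∀ a ∈ ((minpoly K⟮x⟯ b).map (algebraMap K⟮x⟯ E)).roots,
      a ∈ ((algebraMap L E).comp S.subtype).range := by
    intro a ha
    have ha' : a ∈ (minpoly K⟮x⟯ b).rootSet E := by
      rw [Polynomial.rootSet, Polynomial.aroots]
      simpa using ha
    rw [← (Algebra.IsAlgebraic.of_finite K⟮x⟯ F).range_eval_eq_rootSet_minpoly E b] at ha'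
    obtain ⟨ψ, rfl⟩ := ha'
    obtain ⟨q, rfl⟩ := hbij.2 ψ
    exact ⟨⟨Θ q b, hb q⟩, rfl⟩
  have hl := hsp.mem_lift_of_roots_mem_range hmon _ hroots
  obtain ⟨s, hs⟩ := (Polynomial.lifts_iff_coeff_lifts _).1 hl i
  rw [Polynomial.coeff_map] at hs
  have : (s : L) = Θ q₀ (((minpoly K⟮x⟯ b).coeff i : K⟮x⟯) : F) :=
    (algebraMap L E).injective hs
  rw [← this]
  exact s.2

end Fermat.Agent.S28
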