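/-
S28, module **Normal**: `O((s))` is integrally closed for a PID `O`.
-/
import Fermat.Agent.S28.Defs

set_option autoImplicit false

open ModularCurve Polynomial

namespace Fermat.Agent.S28

section
variable {O : Type*} [CommRing O] [IsDomain O] [IsPrincipalIdealRing O]

theorem isIntegrallyClosed_laurentSeries : IsIntegrallyClosed (LaurentSeries O) :=
  isIntegrallyClosed_of_isLocalization (R := PowerSeries O) (LaurentSeries O)
    (Submonoid.powers PowerSeries.X)
    (by
      apply Submonoid.powers_le.mpr
      exact mem_nonZeroDivisors_of_ne_zero PowerSeries.X_ne_zero)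

end

theorem normal_coeffMap_injective {R S : Type*} [CommRing R] [CommRing S] (f : R →+* S)
    (hf : Function.Injective f) : Function.Injective (coeffMap f) := by
  intro x y h
  ext k
  apply hf
  rw [← coeffMap_coeff, ← coeffMap_coeff, h]

theorem mem_range_of_isIntegral {O : Type*} [CommRing O] [IsDomain O] [IsPrincipalIdealRing O]
    {C : Type*} [Field C] (f : O →+* C) (hf : Function.Injective f)
    (z : LaurentSeries C) (a b : LaurentSeries O) (hb : b ≠ 0)
    (hz : z * coeffMap f b = coeffMap f a)
    (hint : IsIntegral (coeffMap f).range z) : z ∈ (coeffMap f).range := by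
  have := isIntegrallyClosed_laurentSeries (O := O)
  set φ := coeffMap f with hφ
  have hφi : Function.Injective φ := normal_coeffMap_injective f hf
  -- step 1: a monic polynomial over `O((s))`
  obtain ⟨p, hp, hp0⟩ := hint
  obtain ⟨P, hPmap, -, hP⟩ := Polynomial.lifts_and_degree_eq_and_monic
    (f := φ.rangeRestrict) (p := p)
    ((Polynomial.mem_lifts _).2 (Polynomial.map_surjective _ φ.rangeRestrict_surjective p)) hp
  have hP0 : eval₂ φ z P = 0 := by
    rw [← hPmap, eval₂_map] at hp0
    exact hp0
  -- step 2: the fraction field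
  let Φ := FractionRing (LaurentSeries O)
  let ψ : Φ →+* LaurentSeries C := IsFractionRing.lift (K := Φ) hφi
  have hψ : ∀ x, ψ (algebraMap (LaurentSeries O) Φ x) = φ x := fun x =>
    IsFractionRing.lift_algebraMap hφi x
  have hb' : algebraMap (LaurentSeries O) Φ b ≠ 0 := by
    rw [Ne, IsFractionRing.to_map_eq_zero_iff]; exact hb
  have hφb : φ b ≠ 0 := by
    rw [Ne, map_eq_zero_iff _ hφi]; exact hb
  set w : Φ := algebraMap (LaurentSeries O) Φ a / algebraMap (LaurentSeries O) Φ b with hw
  have hψw : ψ w = z := by
    rw [hw, map_div₀, hψ, hψ, ← hz, mul_div_cancel_right₀ _ hφb]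
  have hcomp : φ = ψ.comp (algebraMap (LaurentSeries O) Φ) := by
    ext1 x; exact (hψ x).symm
  have hwint : IsIntegral (LaurentSeries O) w := by
    refine ⟨P, hP, ?_⟩
    apply ψ.injective
    rw [map_zero, Polynomial.hom_eval₂, ← hcomp, hψw, hP0]
  obtain ⟨y, hy⟩ := IsIntegrallyClosed.isIntegral_iff.mp hwint
  exact ⟨y, by rw [← hψ, hy, hψw]⟩

end Fermat.Agent.S28
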