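/-
S28 (Igusa), module **Tensor**: `A ⊗_{ℤ_(ℓ)} K` is a domain if `A ⊆ ℚ((q))` satisfies the
`q`-expansion principle.

Recipe.  Let `R = ℤ_(ℓ)`, `ρ : R → K` the structure map (kernel `ℓR`, image `𝔽_ℓ`).  Reduction of
coefficients gives a ring hom `A → K((q))` and hence `Φ : A ⊗_R K → K((q))`, `a ⊗ c ↦ c • ρ(a)`.
`Φ` is injective: choose a basis `(c_i)` of `K` over `R/ℓR` (or over `ZMod ℓ`); every element of
`A ⊗ K` is `∑ a_i ⊗ c_i`; if `∑ c_i ρ(a_i) = 0` then every coefficient of every `a_i` is in `ℓR`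
(linear independence), so `a_i = ℓ b_i` with `b_i ∈ A` by `hqep`, and `a_i ⊗ c_i = b_i ⊗ ℓ c_i = 0`.
`K((q))` is a field.
-/
import Fermat.Statements.S28

set_option autoImplicit false
set_option linter.unusedSectionVars false
open ModularCurve ModularCurve.IgusaScheme
open scoped TensorProduct

noncomputable section

namespace Fermat.Agent.S28

variable (N : ℕ) [NeZero N] (ℓ : ℕ) [Fact ℓ.Prime]
  (K : Type) [Field K] [CharP K ℓ] [Algebra ↥(GaloisRep.ratLocalizedAt ℓ) K]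

/-- all coefficients of `x ∈ ℚ((q))` are `ℓ`-integral -/
def IsIntegralSeries (x : LaurentSeries ℚ) : Prop :=
  ∀ n : ℤ, x.coeff n ∈ GaloisRep.ratLocalizedAt ℓ

namespace Tensor

variable {ℓ}

/-- the series over `ℤ_(ℓ)` underlying an integral series -/
def liftSeries (x : LaurentSeries ℚ) (hx : IsIntegralSeries ℓ x) :
    LaurentSeries ↥(GaloisRep.ratLocalizedAt ℓ) where
  coeff n := ⟨x.coeff n, hx n⟩
  isPWO_support' := x.isPWO_support.mono (by
    intro n hn h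
    exact hn (Subtype.ext h))

theorem coeffMap_liftSeries (x : LaurentSeries ℚ) (hx : IsIntegralSeries ℓ x) :
    coeffMap (GaloisRep.ratLocalizedAt ℓ).subtype (liftSeries x hx) = x := by
  ext n
  rfl

theorem coeffMap_subtype_injective :
    Function.Injective (coeffMap (GaloisRep.ratLocalizedAt ℓ).subtype) := by
  intro x y h
  ext n
  have := congrArg (fun u => HahnSeries.coeff u n) h
  simpa using this

variable {N}

/-- `A → ℤ_(ℓ)((q))` -/
def liftHom (A : Subalgebra ↥(GaloisRep.ratLocalizedAt ℓ) ↥(modularFunctionFieldFull N))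
    (hcoeff : ∀ x ∈ A, IsIntegralSeries ℓ (x : LaurentSeries ℚ)) :
    ↥A →+* LaurentSeries ↥(GaloisRep.ratLocalizedAt ℓ) where
  toFun x := liftSeries (x.1 : LaurentSeries ℚ) (hcoeff x.1 x.2)
  map_one' := coeffMap_subtype_injective (by rw [coeffMap_liftSeries, map_one]; rfl)
  map_zero' := coeffMap_subtype_injective (by rw [coeffMap_liftSeries, map_zero]; rfl)
  map_mul' x y := coeffMap_subtype_injective (by
    rw [map_mul, coeffMap_liftSeries, coeffMap_liftSeries, coeffMap_liftSeries]; rfl)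
  map_add' x y := coeffMap_subtype_injective (by
    rw [map_add, coeffMap_liftSeries, coeffMap_liftSeries, coeffMap_liftSeries]; rfl)


theorem algebraMap_Zl_laurent (r : ↥(GaloisRep.ratLocalizedAt ℓ)) :
    algebraMap ↥(GaloisRep.ratLocalizedAt ℓ) (LaurentSeries K) r
      = HahnSeries.single 0 (algebraMap ↥(GaloisRep.ratLocalizedAt ℓ) K r) := by
  rw [HahnSeries.algebraMap_apply', PowerSeries.algebraMap_apply, HahnSeries.ofPowerSeries_C]
  rfl

theorem coe_algebraMap_Zl_full (r : ↥(GaloisRep.ratLocalizedAt ℓ)) :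
    ((algebraMap ↥(GaloisRep.ratLocalizedAt ℓ) ↥(modularFunctionFieldFull N) r :
      ↥(modularFunctionFieldFull N)) : LaurentSeries ℚ) = HahnSeries.single 0 (r : ℚ) := by
  rw [IsScalarTower.algebraMap_apply _ ℚ _]
  have h2 : algebraMap ↥(GaloisRep.ratLocalizedAt ℓ) ℚ r = (r : ℚ) := rfl
  rw [h2, ← algebraMap_laurentSeries_eq_single]
  have h3 : (algebraMap ↥(modularFunctionFieldFull N) (LaurentSeries ℚ)).comp
      (algebraMap ℚ ↥(modularFunctionFieldFull N))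
      = algebraMap ℚ (LaurentSeries ℚ) := Subsingleton.elim _ _
  exact congrArg (fun f => f (r : ℚ)) h3

/-- `A → K((q))` -/
def redAlg (A : Subalgebra ↥(GaloisRep.ratLocalizedAt ℓ) ↥(modularFunctionFieldFull N))
    (hcoeff : ∀ x ∈ A, IsIntegralSeries ℓ (x : LaurentSeries ℚ)) :
    ↥A →ₐ[↥(GaloisRep.ratLocalizedAt ℓ)] LaurentSeries K :=
  { (coeffMap (algebraMap ↥(GaloisRep.ratLocalizedAt ℓ) K)).comp (liftHom A hcoeff) with
    commutes' := by
      intro r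
      have h : liftHom A hcoeff (algebraMap _ _ r) = HahnSeries.single 0 r := by
        apply coeffMap_subtype_injective
        rw [coeffMap_single]
        exact (coeffMap_liftSeries _ _).trans (coe_algebraMap_Zl_full r)
      change coeffMap _ (liftHom A hcoeff (algebraMap _ _ r)) = _
      rw [h, coeffMap_single, algebraMap_Zl_laurent] }

theorem redAlg_coeff (A : Subalgebra ↥(GaloisRep.ratLocalizedAt ℓ) ↥(modularFunctionFieldFull N))
    (hcoeff : ∀ x ∈ A, IsIntegralSeries ℓ (x : LaurentSeries ℚ)) (x : ↥A) (n : ℤ) :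
    (redAlg K A hcoeff x).coeff n = algebraMap ↥(GaloisRep.ratLocalizedAt ℓ) K
      ⟨(x.1 : LaurentSeries ℚ).coeff n, hcoeff x.1 x.2 n⟩ := rfl

def constAlg : K →ₐ[↥(GaloisRep.ratLocalizedAt ℓ)] LaurentSeries K :=
  { (HahnSeries.C : K →+* LaurentSeries K) with
    commutes' := fun r => (algebraMap_Zl_laurent K r).symm }

theorem constAlg_apply (c : K) : constAlg (ℓ := ℓ) K c = HahnSeries.C c := rfl

def tensorMap (A : Subalgebra ↥(GaloisRep.ratLocalizedAt ℓ) ↥(modularFunctionFieldFull N))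
    (hcoeff : ∀ x ∈ A, IsIntegralSeries ℓ (x : LaurentSeries ℚ)) :
    ↥A ⊗[↥(GaloisRep.ratLocalizedAt ℓ)] K →ₐ[↥(GaloisRep.ratLocalizedAt ℓ)] LaurentSeries K :=
  Algebra.TensorProduct.productMap (redAlg K A hcoeff) (constAlg K)

theorem tensorMap_tmul_coeff
    (A : Subalgebra ↥(GaloisRep.ratLocalizedAt ℓ) ↥(modularFunctionFieldFull N))
    (hcoeff : ∀ x ∈ A, IsIntegralSeries ℓ (x : LaurentSeries ℚ)) (x : ↥A) (c : K) (n : ℤ) :
    (tensorMap K A hcoeff (x ⊗ₜ c)).coeff n = algebraMap ↥(GaloisRep.ratLocalizedAt ℓ) K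
      ⟨(x.1 : LaurentSeries ℚ).coeff n, hcoeff x.1 x.2 n⟩ * c := by
  rw [tensorMap, Algebra.TensorProduct.productMap_apply_tmul, constAlg_apply, HahnSeries.C_apply,
    HahnSeries.coeff_mul_single_zero, redAlg_coeff]

theorem den_cast_ne_zero (r : ↥(GaloisRep.ratLocalizedAt ℓ)) : ((r : ℚ).den : K) ≠ 0 := by
  intro h
  rw [CharP.cast_eq_zero_iff K ℓ] at h
  have h1 : (r : ℚ).den.Coprime ℓ := r.2
  have h2 : ℓ ∣ Nat.gcd (r : ℚ).den ℓ := Nat.dvd_gcd h (dvd_refl ℓ)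
  rw [h1] at h2
  exact (Fact.out : ℓ.Prime).one_lt.ne' (Nat.dvd_one.mp h2)

theorem algebraMap_Zl_mul_den (r : ↥(GaloisRep.ratLocalizedAt ℓ)) :
    algebraMap ↥(GaloisRep.ratLocalizedAt ℓ) K r * ((r : ℚ).den : K) = ((r : ℚ).num : K) := by
  have h : r * (((r : ℚ).den : ℕ) : ↥(GaloisRep.ratLocalizedAt ℓ))
      = (((r : ℚ).num : ℤ) : ↥(GaloisRep.ratLocalizedAt ℓ)) := by
    apply Subtype.ext
    push_cast
    exact Rat.mul_den_eq_num _
  have := congrArg (algebraMap ↥(GaloisRep.ratLocalizedAt ℓ) K) h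
  rwa [map_mul, map_natCast, map_intCast] at this

/-- arithmetic of `ℤ_(ℓ) → K`, I -/
theorem exists_zmod_of_Zl (r : ↥(GaloisRep.ratLocalizedAt ℓ)) :
    ∃ z : ZMod ℓ, algebraMap ↥(GaloisRep.ratLocalizedAt ℓ) K r = ZMod.castHom (dvd_refl ℓ) K z := by
  refine ⟨((r : ℚ).num : ZMod ℓ) / ((r : ℚ).den : ZMod ℓ), ?_⟩
  rw [map_div₀, map_intCast, map_natCast, eq_div_iff (den_cast_ne_zero K r)]
  exact algebraMap_Zl_mul_den K r

theorem inv_mul_mem_of_algebraMap_eq_zero (r : ↥(GaloisRep.ratLocalizedAt ℓ))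
    (h : algebraMap ↥(GaloisRep.ratLocalizedAt ℓ) K r = 0) :
    (ℓ : ℚ)⁻¹ * (r : ℚ) ∈ GaloisRep.ratLocalizedAt ℓ := by
  have h1 := algebraMap_Zl_mul_den K r
  rw [h, zero_mul] at h1
  obtain ⟨m, hm⟩ := (CharP.intCast_eq_zero_iff K ℓ _).mp h1.symm
  have hℓ : (ℓ : ℚ) ≠ 0 := by exact_mod_cast (Fact.out : ℓ.Prime).ne_zero
  have h2 : (ℓ : ℚ)⁻¹ * (r : ℚ) = (m : ℚ) / ((r : ℚ).den : ℚ) := by
    conv_lhs => rw [← Rat.num_div_den (r : ℚ), hm]
    push_cast
    field_simp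
  rw [h2]
  change ((m : ℚ) / ((r : ℚ).den : ℚ)).den.Coprime ℓ
  have h3 : ((m : ℚ) / ((r : ℚ).den : ℚ)).den ∣ (r : ℚ).den := by
    have := Rat.den_dvd m ((r : ℚ).den : ℤ)
    rw [Rat.divInt_eq_div] at this
    exact_mod_cast this
  exact Nat.Coprime.coprime_dvd_left h3 r.2


theorem exists_finsupp_basis
    (A : Subalgebra ↥(GaloisRep.ratLocalizedAt ℓ) ↥(modularFunctionFieldFull N))
    {ι : Type} (b : ι → K)
    (hb : ∀ c : K, ∃ g : ι →₀ ℕ, c = g.sum fun i n => n • b i)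
    (t : ↥A ⊗[↥(GaloisRep.ratLocalizedAt ℓ)] K) :
    ∃ f : ι →₀ ↥A, t = f.sum fun i a => a ⊗ₜ[↥(GaloisRep.ratLocalizedAt ℓ)] b i := by
  induction t using TensorProduct.induction_on with
  | zero => exact ⟨0, by simp⟩
  | tmul a c =>
    obtain ⟨g, rfl⟩ := hb c
    refine ⟨g.mapRange (fun n : ℕ => ((n : ℕ) : ↥(GaloisRep.ratLocalizedAt ℓ)) • a) (by simp), ?_⟩
    rw [Finsupp.sum_mapRange_index (by intro i; simp), Finsupp.sum, Finsupp.sum,
      TensorProduct.tmul_sum]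
    refine Finset.sum_congr rfl fun i _ => ?_
    rw [TensorProduct.smul_tmul, Nat.cast_smul_eq_nsmul]
  | add x y hx hy =>
    obtain ⟨f, rfl⟩ := hx
    obtain ⟨g, rfl⟩ := hy
    refine ⟨f + g, ?_⟩
    rw [Finsupp.sum_add_index' (by intro i; simp) (by intro i a₁ a₂; rw [TensorProduct.add_tmul])]

theorem coeff_natCast_inv_mul (x : LaurentSeries ℚ) (n : ℤ) :
    ((ℓ : LaurentSeries ℚ)⁻¹ * x).coeff n = (ℓ : ℚ)⁻¹ * x.coeff n := by
  have h : (ℓ : LaurentSeries ℚ)⁻¹ = HahnSeries.single 0 ((ℓ : ℚ)⁻¹) := by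
    have : (HahnSeries.C ((ℓ : ℚ)⁻¹) : LaurentSeries ℚ) = (ℓ : LaurentSeries ℚ)⁻¹ := by
      rw [map_inv₀, map_natCast]
    rw [← this]; rfl
  rw [h, HahnSeries.coeff_single_zero_mul]

theorem tensorMap_injective
    (A : Subalgebra ↥(GaloisRep.ratLocalizedAt ℓ) ↥(modularFunctionFieldFull N))
    (hcoeff : ∀ x ∈ A, IsIntegralSeries ℓ (x : LaurentSeries ℚ))
    (hqep : ∀ x ∈ A, IsIntegralSeries ℓ ((ℓ : LaurentSeries ℚ)⁻¹ * (x : LaurentSeries ℚ)) →
      (ℓ : ↥(modularFunctionFieldFull N))⁻¹ * x ∈ A) :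
    Function.Injective (tensorMap K A hcoeff) := by
  let _ := ZMod.algebra K ℓ
  let b := Module.Basis.ofVectorSpace (ZMod ℓ) K
  have hb : ∀ c : K, ∃ g : _ →₀ ℕ, c = g.sum fun i n => n • b i := by
    intro c
    refine ⟨(b.repr c).mapRange ZMod.val (by simp), ?_⟩
    rw [Finsupp.sum_mapRange_index (by intro i; simp)]
    conv_lhs => rw [← b.linearCombination_repr c, Finsupp.linearCombination_apply]
    refine Finset.sum_congr rfl fun i _ => ?_
    change (b.repr c i) • b i = (b.repr c i).val • b i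
    rw [← Nat.cast_smul_eq_nsmul (ZMod ℓ), ZMod.natCast_zmod_val]
  rw [injective_iff_map_eq_zero]
  intro t ht
  obtain ⟨f, rfl⟩ := exists_finsupp_basis K A b hb t
  refine Finset.sum_eq_zero fun i hi => ?_
  have key : ∀ n : ℤ, algebraMap ↥(GaloisRep.ratLocalizedAt ℓ) K
      ⟨((f i).1 : LaurentSeries ℚ).coeff n, hcoeff (f i).1 (f i).2 n⟩ = 0 := by
    intro n
    have h1 := congrArg (HahnSeries.coeff.addMonoidHom n) ht
    rw [Finsupp.sum, map_sum, map_sum, map_zero] at h1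
    choose z hz using fun j => exists_zmod_of_Zl K
      ⟨((f j).1 : LaurentSeries ℚ).coeff n, hcoeff (f j).1 (f j).2 n⟩
    have h2 : ∑ j ∈ f.support, z j • b j = 0 := by
      rw [← h1]
      refine Finset.sum_congr rfl fun j _ => ?_
      rw [Algebra.smul_def]
      change _ = (tensorMap K A hcoeff ((f j) ⊗ₜ b j)).coeff n
      rw [tensorMap_tmul_coeff, hz j]
      rfl
    have h3 := linearIndependent_iff'.mp b.linearIndependent f.support z h2 i hi
    rw [hz i, h3, map_zero]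
  have hint : IsIntegralSeries ℓ ((ℓ : LaurentSeries ℚ)⁻¹ * ((f i).1 : LaurentSeries ℚ)) := by
    intro n
    rw [coeff_natCast_inv_mul]
    exact inv_mul_mem_of_algebraMap_eq_zero K _ (key n)
  have hmem := hqep (f i).1 (f i).2 hint
  have hℓ : (ℓ : ↥(modularFunctionFieldFull N)) ≠ 0 := by
    exact_mod_cast (Fact.out : ℓ.Prime).ne_zero
  have hfi : f i = (ℓ : ↥(GaloisRep.ratLocalizedAt ℓ)) •
      (⟨(ℓ : ↥(modularFunctionFieldFull N))⁻¹ * (f i).1, hmem⟩ : ↥A) := by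
    apply Subtype.ext
    rw [Nat.cast_smul_eq_nsmul]
    change (f i).1 = ℓ • ((ℓ : ↥(modularFunctionFieldFull N))⁻¹ * (f i).1)
    rw [nsmul_eq_mul, mul_inv_cancel_left₀ hℓ]
  change (f i) ⊗ₜ[↥(GaloisRep.ratLocalizedAt ℓ)] b i = 0
  rw [hfi, TensorProduct.smul_tmul, Nat.cast_smul_eq_nsmul, nsmul_eq_mul, CharP.cast_eq_zero K ℓ,
    zero_mul, TensorProduct.tmul_zero]

end Tensor

open Tensor

theorem nontrivial_tensor (A : Subalgebra ↥(GaloisRep.ratLocalizedAt ℓ) ↥(modularFunctionFieldFull N))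
    (hcoeff : ∀ x ∈ A, IsIntegralSeries ℓ (x : LaurentSeries ℚ)) :
    Nontrivial (↥A ⊗[↥(GaloisRep.ratLocalizedAt ℓ)] K) :=
  (tensorMap K A hcoeff).toRingHom.domain_nontrivial

theorem isDomain_tensor (A : Subalgebra ↥(GaloisRep.ratLocalizedAt ℓ) ↥(modularFunctionFieldFull N))
    (hcoeff : ∀ x ∈ A, IsIntegralSeries ℓ (x : LaurentSeries ℚ))
    (hqep : ∀ x ∈ A, IsIntegralSeries ℓ ((ℓ : LaurentSeries ℚ)⁻¹ * (x : LaurentSeries ℚ)) →
      (ℓ : ↥(modularFunctionFieldFull N))⁻¹ * x ∈ A) :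
    IsDomain (↥A ⊗[↥(GaloisRep.ratLocalizedAt ℓ)] K) :=
  (tensorMap_injective K A hcoeff hqep).isDomain (tensorMap K A hcoeff).toRingHom

end Fermat.Agent.S28
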