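/-
S28, module **QEP** (assembly): the `q`-expansion principle for the charts of the Igusa scheme.
-/
import Fermat.Agent.S28.Families
import Fermat.Agent.S28.CoreIrr
import Fermat.Agent.S28.CoreK
import Fermat.Agent.S28.Coeff
import Fermat.Agent.S28.Normal
import Fermat.Agent.S28.Galois
import Fermat.Agent.S28.FieldQ
import Fermat.Agent.S28.Tensor
import Fermat.Agent.S24.FFFibre

set_option autoImplicit false
set_option linter.unusedSectionVars false

open ModularCurve ModularCurve.IgusaScheme Fermat.Agent.S24 Polynomial IntermediateField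
open IntermediateField.algebraAdjoinAdjoin
open scoped MatrixGroups

namespace Fermat.Agent.S28

variable (N : ℕ) [NeZero N] (ℓ : ℕ) [Fact ℓ.Prime]

section Local

variable {O : Type} [CommRing O] [IsDomain O] [IsDiscreteValuationRing O]
  (emb : O →+* ℂ) (hemb : Function.Injective emb) (ζ : Oˣ) (hζ : emb (ζ : O) = zetaN N)
  (hrat : ∀ r : ℚ, (∃ x : O, emb x = (r : ℂ)) ↔ r ∈ GaloisRep.ratLocalizedAt ℓ)

omit [IsDomain O] [IsDiscreteValuationRing O] in
theorem qep_J_mem : jqNModC ℂ N ∈ (coeffMap emb).range :=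
  ⟨jqNModC O N, coeffMap_jqNModC emb N⟩

omit [IsDomain O] [IsDiscreteValuationRing O] in
theorem qep_Jinv_mem : (jqNModC ℂ N)⁻¹ ∈ (coeffMap emb).range := by
  obtain ⟨Ji, hJi⟩ := exists_jqN_inv N O
  refine ⟨Ji, ?_⟩
  have h := congrArg (coeffMap emb) hJi
  rw [map_mul, map_one, coeffMap_jqNModC] at h
  exact eq_inv_of_mul_eq_one_right h

omit [IsDomain O] [IsDiscreteValuationRing O] in
include hrat in
theorem qep_Th_algebraMap_mem (q : Q N) (a : Zl ℓ) :
    Th N q (algebraMap (Zl ℓ) (FQ N) a) ∈ (coeffMap emb).range := by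
  obtain ⟨x, hx⟩ := (hrat a.1).mpr a.2
  refine ⟨HahnSeries.C x, ?_⟩
  have h1 : algebraMap (Zl ℓ) (FQ N) a = algebraMap ℚ (FQ N) (a : ℚ) := rfl
  rw [h1, Th_algebraMap, ← hx, HahnSeries.C_apply, HahnSeries.C_apply, coeffMap_single]

omit [IsDomain O] [IsDiscreteValuationRing O] in
include hrat in
theorem qep_Th_mem_of_mem_adjoin (q : Q N) (S : Set (FQ N)) (hS : S ⊆ {jFull N, (jFull N)⁻¹})
    (y : FQ N) (hy : y ∈ Algebra.adjoin (Zl ℓ) S) : Th N q y ∈ (coeffMap emb).range := by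
  induction hy using Algebra.adjoin_induction with
  | mem y hy =>
    rcases hS hy with rfl | rfl
    · rw [Th_jFull]; exact qep_J_mem N emb
    · rw [map_inv₀, Th_jFull]; exact qep_Jinv_mem N emb
  | algebraMap a => exact qep_Th_algebraMap_mem N ℓ emb hrat q a
  | add y z _ _ hy hz => rw [map_add]; exact add_mem hy hz
  | mul y z _ _ hy hz => rw [map_mul]; exact mul_mem hy hz

omit [IsDomain O] [IsDiscreteValuationRing O] in
include hζ in
theorem qep_Th_aeval (q : Q N) (P : MvPolynomial (Dv N) ℤ) :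
    Th N q (MvPolynomial.aeval (genQ N) P) = coeffMap emb (MvPolynomial.aeval (gs N ζ q) P) := by
  induction P using MvPolynomial.induction_on with
  | C a => simp
  | add p r hp hr => rw [map_add, map_add, map_add, map_add, hp, hr]
  | mul_X p d hp =>
    rw [map_mul, map_mul, map_mul, map_mul, hp, MvPolynomial.aeval_X, MvPolynomial.aeval_X, Th_genQ,
      coeffMap_gs N emb ζ hζ]

include hemb hζ hrat in
theorem qep_Th_mem (q : Q N) (S : Set (FQ N)) (hS : S ⊆ {jFull N, (jFull N)⁻¹})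
    (x : FQ N) (hx : x ∈ chartAlg N ℓ S) : Th N q x ∈ (coeffMap emb).range := by
  obtain ⟨P, R, hR, hxR⟩ := exists_fracQ N x
  have h1 := congrArg (Th N q) hxR
  rw [map_mul, qep_Th_aeval N emb ζ hζ, qep_Th_aeval N emb ζ hζ] at h1
  refine mem_range_of_isIntegral emb hemb _ _ _ ?_ h1 ?_
  · intro h0
    apply hR
    have h2 := qep_Th_aeval N emb ζ hζ q R
    rw [h0, map_zero] at h2
    exact (map_eq_zero _).mp h2
  · rw [mem_chartAlg_iff] at hx
    let φ : Algebra.adjoin (Zl ℓ) S →+* (coeffMap emb).range :=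
      ((Th N q).comp (algebraMap (Algebra.adjoin (Zl ℓ) S) (FQ N))).codRestrict _
        (fun y => qep_Th_mem_of_mem_adjoin N ℓ emb hrat q S hS y y.2)
    exact hx.map_of_comp_eq φ (Th N q) (by ext; rfl)


omit [IsDomain O] [IsDiscreteValuationRing O] in
include hrat in
theorem qep_isIntegralSeries (x : FQ N) (h : Th N (q0 N) x ∈ (coeffMap emb).range) :
    IsIntegralSeries ℓ (x : LaurentSeries ℚ) := by
  obtain ⟨ξ, hξ⟩ := h
  intro n
  refine (hrat _).mp ⟨ξ.coeff ((N : ℤ) * n), ?_⟩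
  rw [← coeffMap_coeff, hξ, Th_q0, qExpand_coeff_mul, coeffEmb_coeff]
  rfl

/-- division of a series by a constant -/
theorem qep_exists_eq_C_mul {A : Type*} [CommRing A] [IsDomain A] (c : A) (hc : c ≠ 0)
    (ξ : LaurentSeries A) (h : ∀ n, c ∣ ξ.coeff n) : ∃ η : LaurentSeries A, ξ = HahnSeries.C c * η := by
  choose e he using h
  refine ⟨⟨e, ξ.isPWO_support.mono ?_⟩, ?_⟩
  · intro n hn
    simp only [Function.mem_support, ne_eq] at hn
    rw [HahnSeries.mem_support, he]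
    exact mul_ne_zero hc hn
  · ext n
    rw [HahnSeries.C_mul_eq_smul, HahnSeries.coeff_smul, he, smul_eq_mul]

omit [IsDomain O] [IsDiscreteValuationRing O] in
theorem qep_Th_aeval_int (q : Q N) (b : ℤ[X]) :
    Th N q (aeval (jFull N) b) = coeffMap emb (aeval (jqNModC O N) (b.map (Int.castRingHom O))) := by
  induction b using Polynomial.induction_on' with
  | add p r hp hr => simp only [map_add, Polynomial.map_add, hp, hr]
  | monomial n a =>
    simp only [Polynomial.map_monomial, aeval_monomial, map_mul, map_pow, Th_jFull, coeffMap_jqNModC]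
    congr 1
    simp

theorem qep_coeff_natCast_inv_mul (x : LaurentSeries ℚ) (k : ℤ) :
    ((ℓ : LaurentSeries ℚ)⁻¹ * x).coeff k = (ℓ : ℚ)⁻¹ * x.coeff k := by
  have h : (ℓ : LaurentSeries ℚ)⁻¹ = HahnSeries.C ((ℓ : ℚ)⁻¹) := by
    rw [map_inv₀, map_natCast]
  rw [h, HahnSeries.C_mul_eq_smul, HahnSeries.coeff_smul, smul_eq_mul]


include hemb hζ hrat in
theorem qep_conj (hℓN : ¬ ℓ ∣ N) (hres : IsPrimitiveRoot (IsLocalRing.residue O (ζ : O)) N)
    (S : Set (FQ N)) (hS : S ⊆ {jFull N, (jFull N)⁻¹})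
    (x : FQ N) (hx : x ∈ chartAlg N ℓ S)
    (h : IsIntegralSeries ℓ ((ℓ : LaurentSeries ℚ)⁻¹ * (x : LaurentSeries ℚ))) (q : Q N) :
    Th N q ((ℓ : FQ N)⁻¹ * x) ∈ (coeffMap emb).range := by
  classical
  have hℓ0 : (ℓ : ℚ) ≠ 0 := by exact_mod_cast (Fact.out : ℓ.Prime).ne_zero
  have hN : IsUnit (N : O) := by
    have hmem : ((N : ℚ)⁻¹) ∈ GaloisRep.ratLocalizedAt ℓ := by
      change ((N : ℚ)⁻¹).den.Coprime ℓ
      rw [Rat.inv_natCast_den, if_neg (NeZero.ne N)]
      exact ((Nat.Prime.coprime_iff_not_dvd Fact.out).mpr hℓN).symm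
    obtain ⟨y, hy⟩ := (hrat _).mpr hmem
    refine IsUnit.of_mul_eq_one y (hemb ?_)
    have hN0 : (N : ℂ) ≠ 0 := by exact_mod_cast NeZero.ne N
    rw [map_mul, hy, map_natCast, map_one]
    push_cast
    exact mul_inv_cancel₀ hN0
  obtain ⟨u, v, -, hθd, huv, hord, hθP, huP, hvP, hmom⟩ := exists_families N emb hemb ζ hζ hN hres
  have hind := linearIndependent_of_unit N (q0 N) (fun q => gs N ζ q ⟨N, dvd_rfl⟩) u v hθP hθd huv hord
    huP hvP hmom
  have hmem := fun q => qep_Th_mem N ℓ emb hemb ζ hζ hrat q S hS x hx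
  choose ξ hξ using hmem
  have hcinj : Function.Injective (coeffMap emb) := Fermat.Agent.S24.coeffMap_injective emb hemb
  have := finiteDimensional_FQ N
  -- admissibility
  have hadm : ∀ r : ℕ, IsRat N (∑ γ, ξ γ * gs N ζ γ ⟨N, dvd_rfl⟩ ^ r) := by
    intro r
    obtain ⟨a, b, hb, hab⟩ := exists_ratQ N
      (Algebra.trace ℚ⟮jFull N⟯ (FQ N) (x * genQ N ⟨N, dvd_rfl⟩ ^ r))
    have hinj : Function.Injective (Int.castRingHom O) := by
      intro m n hmn
      have := congrArg emb hmn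
      simpa using this
    refine ⟨a.map (Int.castRingHom O), b.map (Int.castRingHom O),
      (Polynomial.map_ne_zero_iff hinj).mpr hb, hcinj ?_⟩
    rw [map_mul, ← qep_Th_aeval_int N emb (q0 N), ← qep_Th_aeval_int N emb (q0 N), ← hab, map_mul,
      trace_eq_sum (K := ℚ) (jFull N) (Th N) (Th_injective N)
        (fun q q' => by rw [Th_jFull, Th_jFull])
        (fun q q' a => by rw [Th_algebraMap, Th_algebraMap]) (finrank_FQ N) (q0 N), map_sum]
    congr 1
    refine Finset.sum_congr rfl fun γ _ => ?_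
    rw [map_mul, map_mul, map_pow, map_pow, hξ, Th_genQ, coeffMap_gs N emb ζ hζ]
  have hℓO : (ℓ : O) ≠ 0 := by
    intro h0
    have := congrArg emb h0
    rw [map_natCast, map_zero] at this
    exact hℓ0 (by exact_mod_cast this)
  have h0 : ∀ n, (ℓ : O) ∣ (ξ (q0 N)).coeff n := by
    intro n
    have h1 : emb ((ξ (q0 N)).coeff n) = (qExpand ℂ N (coeffEmb ℂ x.1)).coeff n := by
      rw [← coeffMap_coeff, hξ, Th_q0]
    by_cases hn : (N : ℤ) ∣ n
    · obtain ⟨k, rfl⟩ := hn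
      rw [qExpand_coeff_mul, coeffEmb_coeff] at h1
      obtain ⟨ρ, hρ⟩ := (hrat _).mpr (h k)
      refine ⟨ρ, hemb ?_⟩
      rw [h1, map_mul, hρ, qep_coeff_natCast_inv_mul, map_natCast]
      have hℓC : (ℓ : ℂ) ≠ 0 := by exact_mod_cast hℓ0
      push_cast
      rw [mul_inv_cancel_left₀ hℓC]
      rfl
    · rw [qExpand_coeff_of_not_dvd N _ hn] at h1
      rw [(map_eq_zero_iff emb hemb).mp h1]
      exact dvd_zero _
  have hall := dvd_of_dvd N (q0 N) (fun q => gs N ζ q ⟨N, dvd_rfl⟩) hθP hθd hind ξ hadm (ℓ : O) hℓO h0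
  obtain ⟨η, hη⟩ := qep_exists_eq_C_mul (ℓ : O) hℓO (ξ q) (hall q)
  refine ⟨η, ?_⟩
  have hℓC : (ℓ : LaurentSeries ℂ) ≠ 0 := by
    rw [← map_natCast (HahnSeries.C : ℂ →+* LaurentSeries ℂ)]
    exact HahnSeries.C_ne_zero (by exact_mod_cast hℓ0)
  rw [map_mul, map_inv₀, map_natCast, ← hξ, hη, map_mul, map_natCast, map_natCast,
    inv_mul_cancel_left₀ hℓC]


omit [IsDomain O] [IsDiscreteValuationRing O] in
theorem qep_Th_aeval_rat (q : Q N) (t : FQ N) (p : ℚ[X]) :
    Th N q (aeval t p) = aeval (Th N q t) (p.map (algebraMap ℚ ℂ)) := by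
  induction p using Polynomial.induction_on' with
  | add p r hp hr => simp only [map_add, Polynomial.map_add, hp, hr]
  | monomial n a =>
    simp only [Polynomial.map_monomial, aeval_monomial, map_mul, map_pow, Th_algebraMap]
    congr 1
    rw [algebraMap_laurentSeries_eq_single, HahnSeries.C_apply]
    rfl

omit [IsDomain O] [IsDiscreteValuationRing O] in
include hrat in
theorem qep_integral (t : FQ N) (ht : t = jFull N ∨ t = (jFull N)⁻¹)
    [FiniteDimensional ℚ⟮t⟯ (FQ N)] (hfin : Module.finrank ℚ⟮t⟯ (FQ N) = Fintype.card (Q N))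
    (y : FQ N) (hy : IsIntegral (Algebra.adjoin ℚ {t}) y)
    (hconj : ∀ q, Th N q y ∈ (coeffMap emb).range) : y ∈ chartAlg N ℓ {t} := by
  have htr : Transcendental ℚ t := by
    rcases ht with rfl | rfl
    · exact transcendental_jFull N
    · intro h
      exact transcendental_jFull N (by simpa using h.inv)
  have hTt : ∀ q q', Th N q t = Th N q' t := by
    intro q q'
    rcases ht with rfl | rfl
    · rw [Th_jFull, Th_jFull]
    · rw [map_inv₀, map_inv₀, Th_jFull, Th_jFull]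
  have := ff_isPrincipalIdealRing_Ax htr
  have hmin := minpoly.isIntegrallyClosed_eq_field_fractions' ℚ⟮t⟯ hy
  set M : (FQ N)[X] := (minpoly ℚ⟮t⟯ y).map (algebraMap ℚ⟮t⟯ (FQ N)) with hM
  have hyalg : IsIntegral ℚ⟮t⟯ y := Algebra.IsIntegral.isIntegral y
  have hMmonic : M.Monic := (minpoly.monic hyalg).map _
  have hMroot : M.eval y = 0 := by
    rw [hM, Polynomial.eval_map, ← Polynomial.aeval_def, minpoly.aeval]
  have hMcoeff : ∀ i, M.coeff i ∈ Algebra.adjoin (Zl ℓ) {t} := by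
    intro i
    have h1 := coeff_minpoly_mem (K := ℚ) t (Th N) (Th_injective N) hTt
      (fun q q' a => by rw [Th_algebraMap, Th_algebraMap]) hfin (q0 N) (coeffMap emb).range y hconj i
    have h2 : M.coeff i = (((minpoly ℚ⟮t⟯ y).coeff i : ℚ⟮t⟯) : FQ N) := by
      rw [hM, Polynomial.coeff_map]; rfl
    rw [← h2] at h1
    -- `M.coeff i` is a polynomial in `t`
    obtain ⟨p, hp⟩ : ∃ p : ℚ[X], aeval t p = M.coeff i := by
      have h3 : M.coeff i = (((minpoly (Algebra.adjoin ℚ {t}) y).coeff i : Algebra.adjoin ℚ {t}) : FQ N) := by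
        rw [h2, hmin, Polynomial.coeff_map]; rfl
      have h4 : ∀ z ∈ Algebra.adjoin ℚ {t}, ∃ p : ℚ[X], aeval t p = z := by
        intro z hz
        rw [Algebra.adjoin_singleton_eq_range_aeval] at hz
        exact hz
      obtain ⟨p, hp⟩ := h4 _ ((minpoly (Algebra.adjoin ℚ {t}) y).coeff i).2
      exact ⟨p, by rw [h3]; exact hp⟩
    rw [← hp, qep_Th_aeval_rat] at h1
    obtain ⟨c, hc⟩ := h1
    obtain ⟨a, ha⟩ : ∃ a : O[X], a.map emb = p.map (algebraMap ℚ ℂ) := by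
      rcases ht with rfl | rfl
      · rw [Th_jFull] at hc
        exact exists_map_eq N emb c _ hc
      · rw [map_inv₀, Th_jFull] at hc
        exact exists_map_eq_inv N emb c _ hc
    have hpk : ∀ k, p.coeff k ∈ GaloisRep.ratLocalizedAt ℓ := by
      intro k
      refine (hrat _).mp ⟨a.coeff k, ?_⟩
      have := congrArg (fun P => Polynomial.coeff P k) ha
      simpa using this
    rw [← hp, Polynomial.aeval_eq_sum_range]
    refine Subalgebra.sum_mem _ fun k _ => ?_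
    have h5 : p.coeff k • t ^ k = algebraMap (Zl ℓ) (FQ N) ⟨p.coeff k, hpk k⟩ * t ^ k := by
      rw [Algebra.smul_def]; rfl
    rw [h5]
    exact mul_mem (Subalgebra.algebraMap_mem _ _)
      (pow_mem (Algebra.subset_adjoin (Set.mem_singleton t)) k)
  have hlifts : M ∈ Polynomial.lifts (algebraMap (Algebra.adjoin (Zl ℓ) {t}) (FQ N)) :=
    (Polynomial.lifts_iff_coeff_lifts M).mpr fun i => ⟨⟨M.coeff i, hMcoeff i⟩, rfl⟩
  obtain ⟨M', hM', -, hM'monic⟩ := Polynomial.lifts_and_natDegree_eq_and_monic hlifts hMmonic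
  refine (mem_chartAlg_iff N ℓ).mpr ⟨M', hM'monic, ?_⟩
  rw [Polynomial.eval₂_eq_eval_map, hM', hMroot]

end Local

theorem qep_adjoin_le (t : FQ N) (z : FQ N) (hz : z ∈ Algebra.adjoin (Zl ℓ) {t}) :
    z ∈ Algebra.adjoin ℚ {t} := by
  induction hz using Algebra.adjoin_induction with
  | mem y hy => exact Algebra.subset_adjoin hy
  | algebraMap a => exact Subalgebra.algebraMap_mem _ (a : ℚ)
  | add y z _ _ hy hz => exact add_mem hy hz
  | mul y z _ _ hy hz => exact mul_mem hy hz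

theorem qep_isIntegral_rat (t : FQ N) (x : FQ N) (hx : x ∈ chartAlg N ℓ {t}) :
    IsIntegral (Algebra.adjoin ℚ {t}) ((ℓ : FQ N)⁻¹ * x) := by
  rw [mem_chartAlg_iff] at hx
  let φ : Algebra.adjoin (Zl ℓ) {t} →+* Algebra.adjoin ℚ {t} :=
    (algebraMap (Algebra.adjoin (Zl ℓ) {t}) (FQ N)).codRestrict (Algebra.adjoin ℚ {t})
      (fun y => qep_adjoin_le N ℓ t y y.2)
  have h1 : IsIntegral (Algebra.adjoin ℚ {t}) x := hx.map_of_comp_eq φ (RingHom.id (FQ N)) (by ext; rfl)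
  have h2 : (ℓ : FQ N)⁻¹ ∈ Algebra.adjoin ℚ {t} := by
    have : (ℓ : FQ N)⁻¹ = algebraMap ℚ (FQ N) ((ℓ : ℚ)⁻¹) := by simp
    rw [this]
    exact Subalgebra.algebraMap_mem _ _
  have h3 : IsIntegral (Algebra.adjoin ℚ {t}) ((ℓ : FQ N)⁻¹) :=
    isIntegral_algebraMap (x := (⟨_, h2⟩ : Algebra.adjoin ℚ {t}))
  exact h3.mul h1

theorem isIntegralSeries_of_mem_chartAlgMid (hℓN : ¬ ℓ ∣ N) (x : FQ N) (hx : x ∈ chartAlgMid N ℓ) :
    IsIntegralSeries ℓ (x : LaurentSeries ℚ) := by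
  obtain ⟨O, _, _, _, emb, ζ, hemb, hζ, hrat, -⟩ := exists_coeff N ℓ hℓN
  exact qep_isIntegralSeries N ℓ emb hrat x
    (qep_Th_mem N ℓ emb hemb ζ hζ hrat (q0 N) _ subset_rfl x hx)

theorem qep_fin (hℓN : ¬ ℓ ∣ N) (x : FQ N) (hx : x ∈ chartAlgFin N ℓ)
    (h : IsIntegralSeries ℓ ((ℓ : LaurentSeries ℚ)⁻¹ * (x : LaurentSeries ℚ))) :
    (ℓ : FQ N)⁻¹ * x ∈ chartAlgFin N ℓ := by
  obtain ⟨O, _, _, _, emb, ζ, hemb, hζ, hrat, hres⟩ := exists_coeff N ℓ hℓN
  have := finiteDimensional_FQ N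
  exact qep_integral N ℓ emb hrat (jFull N) (Or.inl rfl) (finrank_FQ N) _
    (qep_isIntegral_rat N ℓ _ x hx)
    (qep_conj N ℓ emb hemb ζ hζ hrat hℓN hres _ (sFin_subset N) x hx h)

theorem qep_inf (hℓN : ¬ ℓ ∣ N) (x : FQ N) (hx : x ∈ chartAlgInf N ℓ)
    (h : IsIntegralSeries ℓ ((ℓ : LaurentSeries ℚ)⁻¹ * (x : LaurentSeries ℚ))) :
    (ℓ : FQ N)⁻¹ * x ∈ chartAlgInf N ℓ := by
  obtain ⟨O, _, _, _, emb, ζ, hemb, hζ, hrat, hres⟩ := exists_coeff N ℓ hℓN
  have := finiteDimensional_FQ_inv N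
  exact qep_integral N ℓ emb hrat (jFull N)⁻¹ (Or.inr rfl) (finrank_FQ_inv N) _
    (qep_isIntegral_rat N ℓ _ x hx)
    (qep_conj N ℓ emb hemb ζ hζ hrat hℓN hres _ (sInf_subset N) x hx h)


end Fermat.Agent.S28
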