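/-
S28 (Igusa), module **Scheme**: reduction of the statement to commutative algebra.

A scheme covered by two integral opens with a common point is integral; the pullback of the
Igusa scheme is covered by `Spec (chartAlgFin ⊗ K)` and `Spec (chartAlgInf ⊗ K)`, which meet in the
image of `Spec (chartAlgMid ⊗ K)`.
-/
import Fermat.Statements.S28

set_option autoImplicit false
open AlgebraicGeometry CategoryTheory CategoryTheory.Limits ModularCurve ModularCurve.IgusaScheme
open scoped TensorProduct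

noncomputable section

namespace Fermat.Agent.S28

theorem isIntegral_of_two_opens {X U V : Scheme.{0}} (a : U ⟶ X) (b : V ⟶ X)
    [IsOpenImmersion a] [IsOpenImmersion b] [IsIntegral U] [IsIntegral V]
    (hcov : ∀ x : X, x ∈ Set.range a ∨ x ∈ Set.range b)
    (hint : ∃ x : X, x ∈ Set.range a ∧ x ∈ Set.range b) : IsIntegral X := by
  have hred : IsReduced X := by
    have (x : X) : _root_.IsReduced (X.presheaf.stalk x) := by
      rcases hcov x with ⟨u, rfl⟩ | ⟨v, rfl⟩
      · exact isReduced_of_injective _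
          (asIso <| a.stalkMap u).commRingCatIsoToRingEquiv.injective
      · exact isReduced_of_injective _
          (asIso <| b.stalkMap v).commRingCatIsoToRingEquiv.injective
    exact isReduced_of_isReduced_stalk _
  have hmeet : ∀ O : Set X, IsOpen O → O.Nonempty → (a ⁻¹' O).Nonempty := by
    intro O hO ⟨x, hx⟩
    rcases hcov x with ⟨u, rfl⟩ | ⟨v, rfl⟩
    · exact ⟨u, hx⟩
    · obtain ⟨y, ⟨u0, hu0⟩, ⟨v0, hv0⟩⟩ := hint
      have h1 : IsOpen (b ⁻¹' O) := hO.preimage b.continuous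
      have h2 : IsOpen (b ⁻¹' (Set.range a)) := a.isOpenEmbedding.isOpen_range.preimage b.continuous
      obtain ⟨w, hw1, u, hu⟩ := nonempty_preirreducible_inter h1 h2 ⟨v, hx⟩ ⟨v0, by
        rw [Set.mem_preimage, hv0, ← hu0]; exact ⟨u0, rfl⟩⟩
      exact ⟨u, by rw [Set.mem_preimage, hu]; exact hw1⟩
  have hirr : IrreducibleSpace X := by
    have hne : Nonempty X := ⟨hint.choose⟩
    refine { isPreirreducible_univ := ?_, toNonempty := hne }
    intro O1 O2 h1 h2 ⟨x1, _, hx1⟩ ⟨x2, _, hx2⟩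
    obtain ⟨w, hw1, hw2⟩ := nonempty_preirreducible_inter (h1.preimage a.continuous)
      (h2.preimage a.continuous) (hmeet O1 h1 ⟨x1, hx1⟩) (hmeet O2 h2 ⟨x2, hx2⟩)
    exact ⟨a w, trivial, hw1, hw2⟩
  exact isIntegral_of_irreducibleSpace_of_isReduced X

theorem isIntegral_pullback_chart {X : Scheme.{0}} {R : Type} [CommRing R]
    (π : X ⟶ Spec (CommRingCat.of R)) (K : Type) [CommRing K] [Algebra R K]
    (A : Type) [CommRing A] [Algebra R A] (ι : Spec (CommRingCat.of A) ⟶ X)
    (h : ι ≫ π = Spec.map (CommRingCat.ofHom (algebraMap R A))) [IsDomain (A ⊗[R] K)] :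
    IsIntegral (pullback ι (pullback.fst π (Spec.map (CommRingCat.ofHom (algebraMap R K))))) := by
  have h1 : IsIntegral (pullback (ι ≫ π) (Spec.map (CommRingCat.ofHom (algebraMap R K)))) := by
    rw [h]
    exact IsIntegral.of_isIso (pullbackSpecIso R A K).inv
  exact IsIntegral.of_isIso (pullbackRightPullbackFstIso π
    (Spec.map (CommRingCat.ofHom (algebraMap R K))) ι).inv

theorem isIntegral_pullback_general {X : Scheme.{0}} {R : Type} [CommRing R]
    (π : X ⟶ Spec (CommRingCat.of R)) (K : Type) [CommRing K] [Algebra R K]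
    (A B C : Type) [CommRing A] [CommRing B] [CommRing C] [Algebra R A] [Algebra R B] [Algebra R C]
    (ιA : Spec (CommRingCat.of A) ⟶ X) (ιB : Spec (CommRingCat.of B) ⟶ X)
    [IsOpenImmersion ιA] [IsOpenImmersion ιB]
    (hA : ιA ≫ π = Spec.map (CommRingCat.ofHom (algebraMap R A)))
    (hB : ιB ≫ π = Spec.map (CommRingCat.ofHom (algebraMap R B)))
    (fA : Spec (CommRingCat.of C) ⟶ Spec (CommRingCat.of A))
    (fB : Spec (CommRingCat.of C) ⟶ Spec (CommRingCat.of B)) (hglue : fA ≫ ιA = fB ≫ ιB)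
    (hC : fA ≫ ιA ≫ π = Spec.map (CommRingCat.ofHom (algebraMap R C)))
    (hcov : ∀ x : X, x ∈ Set.range ιA ∨ x ∈ Set.range ιB)
    [IsDomain (A ⊗[R] K)] [IsDomain (B ⊗[R] K)] [Nontrivial (C ⊗[R] K)] :
    IsIntegral (pullback π (Spec.map (CommRingCat.ofHom (algebraMap R K)))) := by
  have iA := isIntegral_pullback_chart π K A ιA hA
  have iB := isIntegral_pullback_chart π K B ιB hB
  refine isIntegral_of_two_opens (pullback.snd ιA (pullback.fst π (Spec.map (CommRingCat.ofHom (algebraMap R K)))))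
    (pullback.snd ιB (pullback.fst π (Spec.map (CommRingCat.ofHom (algebraMap R K))))) ?_ ?_
  · intro x
    rw [IsOpenImmersion.range_pullbackSnd, IsOpenImmersion.range_pullbackSnd]
    exact hcov (pullback.fst π (Spec.map (CommRingCat.ofHom (algebraMap R K))) x)
  · let m : Spec (CommRingCat.of (C ⊗[R] K)) ⟶ pullback π (Spec.map (CommRingCat.ofHom (algebraMap R K))) :=
      (pullbackSpecIso R C K).inv ≫ pullback.lift (pullback.fst _ _ ≫ fA ≫ ιA) (pullback.snd _ _)
        (by rw [Category.assoc, Category.assoc, hC, pullback.condition])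
    have hm : m ≫ pullback.fst π (Spec.map (CommRingCat.ofHom (algebraMap R K))) = ((pullbackSpecIso R C K).inv ≫ pullback.fst _ _ ≫ fA) ≫ ιA := by
      simp only [m, Category.assoc, pullback.lift_fst]
    have hm' : m ≫ pullback.fst π (Spec.map (CommRingCat.ofHom (algebraMap R K))) = ((pullbackSpecIso R C K).inv ≫ pullback.fst _ _ ≫ fB) ≫ ιB := by
      simp only [m, Category.assoc, pullback.lift_fst, hglue]
    obtain ⟨z⟩ : Nonempty (Spec (CommRingCat.of (C ⊗[R] K))) :=
      inferInstanceAs (Nonempty (PrimeSpectrum (C ⊗[R] K)))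
    refine ⟨m z, ?_, ?_⟩
    · rw [IsOpenImmersion.range_pullbackSnd]
      refine ⟨((pullbackSpecIso R C K).inv ≫ pullback.fst _ _ ≫ fA) z, ?_⟩
      rw [← Scheme.Hom.comp_apply, ← hm, Scheme.Hom.comp_apply]
    · rw [IsOpenImmersion.range_pullbackSnd]
      refine ⟨((pullbackSpecIso R C K).inv ≫ pullback.fst _ _ ≫ fB) z, ?_⟩
      rw [← Scheme.Hom.comp_apply, ← hm', Scheme.Hom.comp_apply]

set_option maxHeartbeats 4000000 in
set_option synthInstance.maxHeartbeats 400000 in
theorem isIntegral_pullback_of_isDomain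
    (N : ℕ) [NeZero N] (ℓ : ℕ) [Fact ℓ.Prime]
    (K : Type) [Field K] [Algebra ↥(GaloisRep.ratLocalizedAt ℓ) K]
    (hFin : IsDomain (↥(chartAlgFin N ℓ) ⊗[↥(GaloisRep.ratLocalizedAt ℓ)] K))
    (hInf : IsDomain (↥(chartAlgInf N ℓ) ⊗[↥(GaloisRep.ratLocalizedAt ℓ)] K))
    (hMid : Nontrivial (↥(chartAlgMid N ℓ) ⊗[↥(GaloisRep.ratLocalizedAt ℓ)] K)) :
    IsIntegral ↑(pullback (igusaTo N ℓ)
      (Spec.map (CommRingCat.ofHom (algebraMap ↥(GaloisRep.ratLocalizedAt ℓ) K)))) := by
  refine isIntegral_pullback_general (igusaTo N ℓ) K (chartAlgFin N ℓ) (chartAlgInf N ℓ)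
    (chartAlgMid N ℓ) (ιFin N ℓ) (ιInf N ℓ) (ιFin_igusaTo N ℓ) (ιInf_igusaTo N ℓ)
    (fFin N ℓ) (fInf N ℓ) (glue_condition N ℓ) ?_ (mem_range_ιFin_or_mem_range_ιInf N ℓ)
  rw [ιFin_igusaTo, ← Spec.map_comp, ← CommRingCat.ofHom_comp]
  rfl

end Fermat.Agent.S28

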